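/-
Program MW-H (S17), package [c], brick P1a.  helper16.

`minRepExists : S.MinRepExists` : every class `c ∈ Pic⁰` has a unique effective representative of
minimal degree `r` (i.e. `[D - r · inf] = c`); it has `r ≤ g`, avoids `inf`, and `ℓ(D) = 1`.

General core (`Core` section, any function field `F / K` with the hypotheses `LHyp K F` of
`Agent/RR/LSpace` and a bound `g₀` such that `L(D) ≠ 0` as soon as `deg D ≥ g₀`):
for a divisor `A` of degree zero let `r` be the least natural number with `L(A + r · inf) ≠ 0`;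
then `ℓ(A + r · inf) = 1` (the dimension jumps by at most one), and for `f ≠ 0` in that space
`D := A + r · inf + div f` is the minimal representative.
-/
import Mathlib
import Fermat.Agent.MW.Spec.Bricks7b
import Fermat.Agent.RR.RRMain

set_option autoImplicit false
set_option linter.unusedSectionVars false

open AlgebraicCurve

namespace Fermat.Agent.MW.Global.MinRep16

open Fermat.Agent.X0.FF Fermat.Agent.RR.LSpace Fermat.Agent.MW.Spec.Bricks7b

noncomputable section

/-! ### The general core -/

section Core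

variable {K F : Type*} [Field K] [Field F] [Algebra K F]

/-- The order of a nonzero constant multiple. -/
theorem ord_smul_const (v : Place K F) {c : K} (hc : c ≠ 0) {f : F} (hf : f ≠ 0) :
    v.ord (c • f) = v.ord f := by
  have hc' : algebraMap K F c ≠ 0 := by
    simpa using hc
  rw [Algebra.smul_def, v.ord_mul hc' hf, ffp_ord_algebraMap, zero_add]

/-- `D' - (deg D') · inf - A` is the divisor of `h`. -/
def IsRepBy (inf : Place K F) (A D' : Divisor K F) (h : F) : Prop :=
  ∀ v : Place K F, (D' - Finsupp.single inf (Divisor.degree D') - A) v = v.ord h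

theorem mem_L_of_isRepBy {inf : Place K F} {A D' : Divisor K F} {h : F} (hh : h ≠ 0)
    (hD' : 0 ≤ D') (hrep : IsRepBy inf A D' h) :
    h ∈ riemannRochSpace (A + Finsupp.single inf (Divisor.degree D')) := by
  rw [mem_L_iff hh]
  intro v
  have h1 := hrep v
  have h2 : (0 : ℤ) ≤ D' v := by simpa using hD' v
  rw [Finsupp.sub_apply, Finsupp.sub_apply] at h1
  rw [Finsupp.add_apply]
  omega

theorem core (H : LHyp K F) (inf : Place K F) (g₀ : ℕ)
    (hg₀ : ∀ D : Divisor K F, (g₀ : ℤ) ≤ Divisor.degree D → riemannRochSpace D ≠ ⊥)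
    (A : Divisor K F) (hA : Divisor.degree A = 0) :
    ∃ (D : Divisor K F) (f : F), f ≠ 0 ∧ 0 ≤ D ∧ IsRepBy inf A D f ∧
      Divisor.degree D ≤ (g₀ : ℤ) ∧ D inf = 0 ∧
      Module.finrank K (riemannRochSpace D) = 1 ∧
      ∀ (D' : Divisor K F) (h : F), h ≠ 0 → 0 ≤ D' → IsRepBy inf A D' h →
        Divisor.degree D ≤ Divisor.degree D' ∧
          (Divisor.degree D' = Divisor.degree D → D' = D) := by
  classical
  -- the least `r` with `L(A + r inf) ≠ 0`
  have hex : ∃ r : ℕ, riemannRochSpace (A + Finsupp.single inf ((r : ℕ) : ℤ)) ≠ ⊥ := by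
    refine ⟨g₀, hg₀ _ ?_⟩
    rw [map_add, hA, degree_single H, zero_add]
  set r : ℕ := Nat.find hex with hr
  have hr1 : riemannRochSpace (A + Finsupp.single inf ((r : ℕ) : ℤ)) ≠ ⊥ := Nat.find_spec hex
  have hrg : r ≤ g₀ := Nat.find_min' hex (by
    refine hg₀ _ ?_
    rw [map_add, hA, degree_single H, zero_add])
  -- one step below the space vanishes
  have hbelow : riemannRochSpace (A + Finsupp.single inf ((r : ℤ) - 1)) = ⊥ := by
    rcases Nat.eq_zero_or_pos r with h0 | hpos
    · apply L_eq_bot_of_degree_neg H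
      rw [map_add, hA, degree_single H, h0]
      norm_num
    · have hlt : r - 1 < r := by omega
      have := Nat.find_min hex hlt
      rw [not_not] at this
      have hcast : (((r - 1 : ℕ) : ℕ) : ℤ) = (r : ℤ) - 1 := by
        rw [Nat.cast_sub hpos]; simp
      rwa [hcast] at this
  -- hence the dimension is one
  have hsplit : A + Finsupp.single inf ((r : ℕ) : ℤ) =
      (A + Finsupp.single inf ((r : ℤ) - 1)) + Finsupp.single inf 1 := by
    rw [add_assoc, ← Finsupp.single_add]
    congr 2
    ring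
  have hdim1 : Module.finrank K (riemannRochSpace (A + Finsupp.single inf ((r : ℕ) : ℤ))) = 1 := by
    have : FiniteDimensional K (riemannRochSpace (A + Finsupp.single inf ((r : ℤ) - 1))) :=
      finiteDimensional_L H _
    obtain ⟨hfd, hle⟩ := finrank_L_add_single_le H (A + Finsupp.single inf ((r : ℤ) - 1)) inf
    rw [← hsplit, hbelow, finrank_bot] at hle
    have := finiteDimensional_L H (A + Finsupp.single inf ((r : ℕ) : ℤ))
    have hpos : 0 < Module.finrank K (riemannRochSpace (A + Finsupp.single inf ((r : ℕ) : ℤ))) := by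
      rw [Module.finrank_pos_iff, Submodule.nontrivial_iff_ne_bot]
      exact hr1
    omega
  obtain ⟨f, hfmem, hf0⟩ := (Submodule.ne_bot_iff _).mp hr1
  have hf1 := (mem_L_iff hf0).mp hfmem
  -- the divisor
  set D : Divisor K F := (A + Finsupp.single inf ((r : ℕ) : ℤ)) + divOf H hf0 with hD
  have hDapply : ∀ v, D v = A v + (Finsupp.single inf ((r : ℕ) : ℤ)) v + v.ord f := by
    intro v
    rw [hD, Finsupp.add_apply, Finsupp.add_apply, divOf_apply]
  have hDnonneg : 0 ≤ D := by
    intro v
    have := hf1 v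
    rw [Finsupp.add_apply] at this
    rw [hDapply]
    simp only [Finsupp.coe_zero, Pi.zero_apply]
    omega
  have hDdeg : Divisor.degree D = (r : ℤ) := by
    rw [hD, map_add, map_add, hA, degree_single H, degree_divOf, zero_add, add_zero]
  have hDrep : IsRepBy inf A D f := by
    intro v
    rw [Finsupp.sub_apply, Finsupp.sub_apply, hDdeg, hDapply]
    ring
  -- `D` avoids `inf`
  have hDinf : D inf = 0 := by
    by_contra hne
    have h0 : (0 : ℤ) ≤ D inf := by simpa using hDnonneg inf
    have h1 : 1 ≤ D inf := by omega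
    have hfm : f ∈ riemannRochSpace (A + Finsupp.single inf ((r : ℤ) - 1)) := by
      rw [mem_L_iff hf0]
      intro v
      by_cases hv : v = inf
      · subst hv
        have h2 := hDapply v
        rw [Finsupp.single_eq_same] at h2
        rw [Finsupp.add_apply, Finsupp.single_eq_same]
        omega
      · have h2 := hf1 v
        rw [Finsupp.add_apply, Finsupp.single_eq_of_ne hv] at h2 ⊢
        exact h2
    rw [hbelow, Submodule.mem_bot] at hfm
    exact hf0 hfm
  -- `ℓ(D) = 1`
  have hDdim : Module.finrank K (riemannRochSpace D) = 1 := by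
    rw [hD, LinearEquiv.finrank_eq (mulEquiv H (A + Finsupp.single inf ((r : ℕ) : ℤ)) hf0), hdim1]
  refine ⟨D, f, hf0, hDnonneg, hDrep, ?_, hDinf, hDdim, ?_⟩
  · rw [hDdeg]; exact_mod_cast hrg
  -- minimality and uniqueness
  intro D' h hh hD' hrep
  have hmem := mem_L_of_isRepBy hh hD' hrep
  have hd0 : 0 ≤ Divisor.degree D' := degree_nonneg H hD'
  obtain ⟨n, hn⟩ := Int.eq_ofNat_of_zero_le hd0
  have hne : riemannRochSpace (A + Finsupp.single inf ((n : ℕ) : ℤ)) ≠ ⊥ := by
    rw [← hn]
    exact (Submodule.ne_bot_iff _).mpr ⟨h, hmem, hh⟩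
  have hrn : r ≤ n := Nat.find_min' hex hne
  refine ⟨by rw [hDdeg, hn]; exact_mod_cast hrn, fun heq => ?_⟩
  -- uniqueness: `h` is a constant multiple of `f`
  rw [hDdeg] at heq
  rw [heq] at hmem
  have := finiteDimensional_L H (A + Finsupp.single inf ((r : ℕ) : ℤ))
  obtain ⟨c, hc⟩ := (finrank_eq_one_iff_of_nonzero' (⟨f, hfmem⟩ :
      riemannRochSpace (A + Finsupp.single inf ((r : ℕ) : ℤ)))
      (by simpa [Subtype.ext_iff] using hf0)).mp hdim1 ⟨h, hmem⟩
  have hc' : c • f = h := by
    have := congrArg Subtype.val hc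
    simpa using this
  have hc0 : c ≠ 0 := by
    rintro rfl
    rw [zero_smul] at hc'
    exact hh hc'.symm
  ext v
  have h1 := hrep v
  rw [Finsupp.sub_apply, Finsupp.sub_apply, heq] at h1
  rw [hDapply, ← ord_smul_const v hc0 hf0, hc']
  omega

end Core

/-! ### The statement for the standing data -/

section Setup

variable {F : Type} [Field F] [Algebra Qb F] [HasCanonicalDivisor (K := Qb) (F := F)]
variable (S : HSetup F)

include S

/-- The `LSpace` hypotheses for the standing data. -/
theorem lHyp : LHyp Qb F := Fermat.Agent.RR.LHypGen.lHyp_of_isGen S.gen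

/-- Riemann's inequality with the Prelude genus: `L(D) ≠ 0` as soon as `deg D ≥ g`. -/
theorem L_ne_bot_of_genus_le (D : Divisor Qb F) (hD : (genus Qb F : ℤ) ≤ Divisor.degree D) :
    riemannRochSpace (K := Qb) (F := F) D ≠ ⊥ := by
  intro hbot
  have hω₀ := D_ne_zero S.gen
  have hW := fun v => canonicalDivisorOf_apply (K := Qb) (F := F) hω₀ v
  have h0 := Fermat.Agent.RR.RRMain.riemann_roch_genus S.gen hω₀ hW D
  rw [hbot, finrank_bot] at h0
  have : (0 : ℤ) ≤ (Module.finrank Qb (riemannRochSpace (K := Qb) (F := F)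
      (canonicalDivisorOf hω₀ - D)) : ℤ) := Int.natCast_nonneg _
  push_cast at h0
  omega

/-- The degree of `D - (deg D) · inf` is zero. -/
theorem degree_zeroPart (D : Divisor Qb F) :
    Divisor.degree (D - Finsupp.single S.inf (Divisor.degree D)) = 0 := by
  rw [map_sub, degree_single (lHyp S), sub_self]

/-- Effective representatives of the class of `a₀`, in terms of functions. -/
theorem isRepOf_mk_iff (a₀ : Divisor.degZero (K := Qb) (F := F)) (D : Divisor Qb F) :
    S.IsRepOf (Pic0.mk a₀) D ↔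
      0 ≤ D ∧ ∃ h : F, h ≠ 0 ∧ IsRepBy S.inf (a₀ : Divisor Qb F) D h := by
  constructor
  · rintro ⟨hD, a, ha, hmk⟩
    refine ⟨hD, ?_⟩
    have h1 : -a₀ + a ∈ (Divisor.principal (K := Qb) (F := F)).addSubgroupOf
        (Divisor.degZero (K := Qb) (F := F)) := (QuotientAddGroup.eq).mp hmk.symm
    rw [AddSubgroup.mem_addSubgroupOf] at h1
    obtain ⟨h, hh, hdiv⟩ := h1
    refine ⟨h, hh, fun v => ?_⟩
    rw [← hdiv v, ← ha]
    simp only [AddSubgroup.coe_add, NegMemClass.coe_neg, Finsupp.add_apply, Finsupp.neg_apply,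
      Finsupp.sub_apply]
    ring
  · rintro ⟨hD, h, hh, hrep⟩
    refine ⟨hD, ⟨D - Finsupp.single S.inf (Divisor.degree D), degree_zeroPart S D⟩, rfl, ?_⟩
    refine ((QuotientAddGroup.eq).mpr ?_).symm
    rw [AddSubgroup.mem_addSubgroupOf]
    refine ⟨h, hh, fun v => ?_⟩
    rw [← hrep v]
    simp only [AddSubgroup.coe_add, NegMemClass.coe_neg, Finsupp.add_apply, Finsupp.neg_apply,
      Finsupp.sub_apply]
    ring

/-- **P1a**: minimal representatives exist, have degree `≤ g`, avoid `inf`, and have `ℓ = 1`. -/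
theorem minRepExists : S.MinRepExists := by
  intro c
  obtain ⟨a₀, rfl⟩ := Pic0.mk_surjective c
  obtain ⟨D, f, hf0, hD, hrep, hdeg, hinf, hdim, hmin⟩ :=
    core (lHyp S) S.inf (genus Qb F) (L_ne_bot_of_genus_le S) (a₀ : Divisor Qb F) a₀.2
  refine ⟨D, ⟨(isRepOf_mk_iff S a₀ D).mpr ⟨hD, f, hf0, hrep⟩, fun D' hD' => ?_⟩, hdeg, hinf, hdim⟩
  obtain ⟨hD'0, h, hh, hrep'⟩ := (isRepOf_mk_iff S a₀ D').mp hD'
  exact hmin D' h hh hD'0 hrep'

/-! ### By-products: the chosen minimal representative -/

/-- The chosen minimal representative is one. -/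
theorem minRep_spec (c : Pic0 Qb F) : S.IsMinRep c (S.minRep c) := by
  classical
  have hex : ∃ D, S.IsMinRep c D := by
    obtain ⟨D, hD, -⟩ := minRepExists S c
    exact ⟨D, hD⟩
  unfold HSetup.minRep
  rw [dif_pos hex]
  exact hex.choose_spec

/-- Two minimal representatives of the same class agree. -/
theorem isMinRep_unique {c : Pic0 Qb F} {D D' : Divisor Qb F} (hD : S.IsMinRep c D)
    (hD' : S.IsMinRep c D') : D' = D := by
  have h1 := hD.2 D' hD'.1
  have h2 := hD'.2 D hD.1
  exact h1.2 (le_antisymm h2.1 h1.1)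

theorem eq_minRep_of_isMinRep {c : Pic0 Qb F} {D : Divisor Qb F} (hD : S.IsMinRep c D) :
    S.minRep c = D :=
  isMinRep_unique S hD (minRep_spec S c)

theorem minRep_nonneg (c : Pic0 Qb F) : 0 ≤ S.minRep c := (minRep_spec S c).1.1

theorem minRep_degree_le (c : Pic0 Qb F) :
    Divisor.degree (S.minRep c) ≤ (genus Qb F : ℤ) := by
  obtain ⟨D, hD, hdeg, -, -⟩ := minRepExists S c
  rw [eq_minRep_of_isMinRep S hD]; exact hdeg

theorem minRep_inf (c : Pic0 Qb F) : S.minRep c S.inf = 0 := by
  obtain ⟨D, hD, -, hinf, -⟩ := minRepExists S c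
  rw [eq_minRep_of_isMinRep S hD]; exact hinf

theorem finrank_L_minRep (c : Pic0 Qb F) :
    Module.finrank Qb (riemannRochSpace (K := Qb) (F := F) (S.minRep c)) = 1 := by
  obtain ⟨D, hD, -, -, hdim⟩ := minRepExists S c
  rw [eq_minRep_of_isMinRep S hD]; exact hdim

theorem minRep_degree_nonneg (c : Pic0 Qb F) : 0 ≤ Divisor.degree (S.minRep c) :=
  degree_nonneg (lHyp S) (minRep_nonneg S c)

end Setup

end

end Fermat.Agent.MW.Global.MinRep16
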