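/-
Program MW-H (S17), package [c], brick P1b.  helper16.

`minRepStable : S.MinRepStable` : the minimal representative of a `Γ`-fixed class is a
`Γ`-stable divisor.  Formal: `IsRepOf` (hence `IsMinRep`) is transported by every `γ σ`
(`inf` is fixed, degrees are invariant, `Pic0.mk` is equivariant), and minimal representatives
are unique (`MinRep16.isMinRep_unique`).
-/
import Mathlib
import Fermat.Agent.MW.Global.MinRep16

set_option autoImplicit false
set_option linter.unusedSectionVars false

open AlgebraicCurve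

namespace Fermat.Agent.MW.Global.MinRepStable16

open Fermat.Agent.X0.FF Fermat.Agent.RR.LSpace Fermat.Agent.MW.Spec.Bricks7b
open Fermat.Agent.MW.Spec.Contract7 Fermat.Agent.MW.Global.MinRep16

noncomputable section

variable {F : Type} [Field F] [Algebra Qb F] [HasCanonicalDivisor (K := Qb) (F := F)]
variable (S : HSetup F)

include S

/-- The action of a semilinear automorphism preserves effectivity. -/
theorem smul_nonneg_divisor (g : SemilinearAut Qb F) {D : Divisor Qb F} (hD : 0 ≤ D) :
    0 ≤ g • D := by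
  intro w
  rw [SemilinearAut.divisor_smul_apply]
  exact hD (g⁻¹ • w)

/-- `IsRepOf` is transported by the Galois action. -/
theorem isRepOf_smul (σ : GQ) {c : Pic0 Qb F} {D : Divisor Qb F} (h : S.IsRepOf c D) :
    S.IsRepOf (S.γ σ • c) (S.γ σ • D) := by
  obtain ⟨hD, a, ha, hmk⟩ := h
  refine ⟨smul_nonneg_divisor S (S.γ σ) hD, SemilinearAut.degZeroSMulHom (S.γ σ) a, ?_, ?_⟩
  · rw [SemilinearAut.coe_degZeroSMulHom, ha, smul_sub, SemilinearAut.smul_single,
      SemilinearAut.degree_smul, S.inf_fixed σ]
  · rw [← hmk, SemilinearAut.pic0_smul_mk]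

/-- For a fixed class, `IsRepOf` is stable under the Galois action. -/
theorem isRepOf_smul_of_isFixed (σ : GQ) {c : Pic0 Qb F} (hc : S.IsFixed c) {D : Divisor Qb F}
    (h : S.IsRepOf c D) : S.IsRepOf c (S.γ σ • D) := by
  have := isRepOf_smul S σ h
  rwa [hc σ] at this

/-- For a fixed class, `IsMinRep` is stable under the Galois action. -/
theorem isMinRep_smul_of_isFixed (σ : GQ) {c : Pic0 Qb F} (hc : S.IsFixed c) {D : Divisor Qb F}
    (h : S.IsMinRep c D) : S.IsMinRep c (S.γ σ • D) := by
  refine ⟨isRepOf_smul_of_isFixed S σ hc h.1, fun D' hD' => ?_⟩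
  have h1 : S.IsRepOf c (S.γ σ⁻¹ • D') := isRepOf_smul_of_isFixed S σ⁻¹ hc hD'
  obtain ⟨hle, heq⟩ := h.2 _ h1
  rw [SemilinearAut.degree_smul] at hle heq ⊢
  refine ⟨hle, fun hdeg => ?_⟩
  have h2 := heq hdeg
  rw [← h2, ← mul_smul, ← map_mul, mul_inv_cancel, map_one, one_smul]

/-- **P1b**: the minimal representative of a fixed class is stable. -/
theorem minRepStable : S.MinRepStable := by
  intro c hc σ
  exact isMinRep_unique S (minRep_spec S c) (isMinRep_smul_of_isFixed S σ hc (minRep_spec S c))

end

end Fermat.Agent.MW.Global.MinRepStable16
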