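import Mathlib
import Fermat.Agent.MW.Spec.Bricks7b
import Fermat.Agent.MW.Local.Chord2
import Fermat.Agent.MW.Arith.ProductFormula62


/-!
# MW-H brick G0 (`PairFiniteSupport`) and the bilinearity toolkit of the pairing  (helper2)

Plan #590 v3, package [b], part 1.  Everything here is unconditional.

* `genericNorm`, `supNorm_abv_cofinite` : the sup norm of a fixed vector is `0` or `1` at
  almost all places of a `QbarAbs`.
* `lamAt_self`, `lamAt_of_ne`, `lamAt_comm`, `lamAt_ge`, `lamAt_cofinite`.
* `pairAt_*` : bilinearity, symmetry, expansion over supports, cofiniteness of the local pairing.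
* `pairFiniteSupport (S : HSetup F) : S.PairFiniteSupport`  (brick G0).
* `pair_*`, `hn_*`, `kap_*` : the same toolkit for the global pairing `S.pair`, the naive
  height `S.hn` and the diagonal correction `S.kap`.
-/

set_option autoImplicit false
set_option linter.unusedSectionVars false

open AlgebraicCurve

namespace Fermat.Agent.MW.Global.PairBasic2

open Function
open Fermat.Agent.MW.Hadamard7 Fermat.Agent.MW.Spec.Defs7 Fermat.Agent.MW.Spec.Contract7
open Fermat.Agent.MW.Spec.Bricks7 Fermat.Agent.MW.Spec.Bricks7b
open Fermat.Agent.MW.Local.Chord2 Fermat.Agent.MW.Arith.ProductFormula62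

open scoped Classical

noncomputable section

/-! ### Sup norms of a fixed vector at almost all places -/

section SupNorm

variable {K : Type*} [Field K] [CharZero K] (A : QbarAbs K) {ι : Type*} [Fintype ι]

/-- the value of `supNorm_p w` at almost all places. -/
def genericNorm (w : ι → K) : ℝ := if w = 0 then 0 else 1

theorem genericNorm_mem (w : ι → K) : genericNorm w = 0 ∨ genericNorm w = 1 := by
  unfold genericNorm
  split_ifs
  · exact Or.inl rfl
  · exact Or.inr rfl

/-- at almost all places, the sup norm of a fixed vector is `0` (if `w = 0`) or `1`. -/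
theorem supNorm_abv_cofinite (w : ι → K) :
    {p : Option Nat.Primes | supNorm (A.abv p) w ≠ genericNorm w}.Finite := by
  unfold genericNorm
  by_cases hw : w = 0
  · rw [if_pos hw, hw]
    have : {p : Option Nat.Primes | supNorm (A.abv p) (0 : ι → K) ≠ 0} = ∅ := by
      ext p
      simp [supNorm_zero]
    rw [this]
    exact Set.finite_empty
  · rw [if_neg hw]
    have hfin : (⋃ i ∈ {i : ι | w i ≠ 0},
        (some '' {p : Nat.Primes | A.fin p (w i) ≠ 1} : Set (Option Nat.Primes))).Finite := by
      refine Set.Finite.biUnion (Set.toFinite _) fun i hi => ?_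
      exact (A.finite_ne_one (w i) hi).image _
    refine (hfin.insert none).subset ?_
    intro p hp
    cases p with
    | none => exact Set.mem_insert _ _
    | some q =>
      refine Set.mem_insert_of_mem _ ?_
      by_contra hcon
      apply hp
      simp only [Set.mem_iUnion, Set.mem_image, Set.mem_ofPred_eq, not_exists, not_and] at hcon
      have hval : ∀ i, w i ≠ 0 → A.fin q (w i) = 1 := by
        intro i hi
        by_contra h1
        exact hcon i hi q h1 rfl
      obtain ⟨i0, hi0⟩ : ∃ i0, w i0 ≠ 0 := by
        by_contra hc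
        push Not at hc
        exact hw (funext hc)
      apply le_antisymm
      · refine supNorm_le _ zero_le_one fun i => ?_
        by_cases hi : w i = 0
        · rw [hi, map_zero]; exact zero_le_one
        · exact le_of_eq (hval i hi)
      · have := le_supNorm (A.abv (some q)) w i0
        rwa [abv_some, hval i0 hi0] at this

end SupNorm

/-! ### The local pair function -/

section Lam

variable {K F : Type*} [Field K] [Field F] [Algebra K F] {n : ℕ}

theorem lamAt_self (v : AbsoluteValue K ℝ) (x : Fin (n + 1) → F) (t : Place K F → F)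
    (P : Place K F) :
    lamAt v x t P P = -Real.log (supNorm v (wedge (coordAt P (t P) x) (tangAt P (t P) x)) /
        supNorm v (coordAt P (t P) x) ^ 2) := by
  unfold lamAt
  rw [if_pos rfl]

theorem lamAt_of_ne (v : AbsoluteValue K ℝ) (x : Fin (n + 1) → F) (t : Place K F → F)
    {P Q : Place K F} (h : P ≠ Q) :
    lamAt v x t P Q = -Real.log (chord v (coordAt P (t P) x) (coordAt Q (t Q) x)) := by
  unfold lamAt
  rw [if_neg h]

/-- the local pair function is symmetric. -/
theorem lamAt_comm (v : AbsoluteValue K ℝ) (x : Fin (n + 1) → F) (t : Place K F → F)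
    (P Q : Place K F) : lamAt v x t P Q = lamAt v x t Q P := by
  by_cases h : P = Q
  · rw [h]
  · rw [lamAt_of_ne v x t h, lamAt_of_ne v x t (Ne.symm h), chord_comm]

/-- lower bound for the off-diagonal local pair function: `λ_v(P, Q) ≥ -log (triC v 2)`. -/
theorem lamAt_ge (v : AbsoluteValue K ℝ) (x : Fin (n + 1) → F) (t : Place K F → F)
    {P Q : Place K F} (h : P ≠ Q) : -Real.log (triC v 2) ≤ lamAt v x t P Q := by
  rw [lamAt_of_ne v x t h, neg_le_neg_iff]
  have h0 := chord_nonneg v (coordAt P (t P) x) (coordAt Q (t Q) x)
  rcases h0.eq_or_lt with h0 | h0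
  · rw [← h0, Real.log_zero]
    exact Real.log_nonneg (one_le_triC v (by norm_num))
  · exact Real.log_le_log h0 (chord_le v _ _)

theorem log_div_mul_eq_zero {a b c : ℝ} (ha : a = 0 ∨ a = 1) (hb : b = 0 ∨ b = 1)
    (hc : c = 0 ∨ c = 1) : Real.log (a / (b * c)) = 0 := by
  rcases ha with rfl | rfl <;> rcases hb with rfl | rfl <;> rcases hc with rfl | rfl <;> simp

end Lam

section LamCofinite

variable {K F : Type*} [Field K] [CharZero K] [Field F] [Algebra K F] {n : ℕ} (A : QbarAbs K)

/-- **the local pair function vanishes at almost all places** (also in the junk cases). -/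
theorem lamAt_cofinite (x : Fin (n + 1) → F) (t : Place K F → F) (P Q : Place K F) :
    {p : Option Nat.Primes | lamAt (A.abv p) x t P Q ≠ 0}.Finite := by
  by_cases h : P = Q
  · subst h
    refine ((supNorm_abv_cofinite A (wedge (coordAt P (t P) x) (tangAt P (t P) x))).union
      (supNorm_abv_cofinite A (coordAt P (t P) x))).subset ?_
    intro p hp
    by_contra hcon
    simp only [Set.mem_union, Set.mem_ofPred_eq, not_or, not_not] at hcon
    apply hp
    rw [lamAt_self, hcon.1, hcon.2, pow_two, log_div_mul_eq_zero (genericNorm_mem _)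
      (genericNorm_mem _) (genericNorm_mem _), neg_zero]
  · refine ((supNorm_abv_cofinite A (wedge (coordAt P (t P) x) (coordAt Q (t Q) x))).union
      ((supNorm_abv_cofinite A (coordAt P (t P) x)).union
        (supNorm_abv_cofinite A (coordAt Q (t Q) x)))).subset ?_
    intro p hp
    by_contra hcon
    simp only [Set.mem_union, Set.mem_ofPred_eq, not_or, not_not] at hcon
    apply hp
    rw [lamAt_of_ne _ x t h]
    unfold chord
    rw [hcon.1, hcon.2.1, hcon.2.2, log_div_mul_eq_zero (genericNorm_mem _)
      (genericNorm_mem _) (genericNorm_mem _), neg_zero]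

end LamCofinite

/-! ### The local pairing of divisors -/

section PairAt

variable {K F : Type*} [Field K] [Field F] [Algebra K F] {n : ℕ}
variable (v : AbsoluteValue K ℝ) (x : Fin (n + 1) → F) (t : Place K F → F)

theorem pairAt_def (D E : Divisor K F) :
    pairAt v x t D E = D.sum fun P a => E.sum fun Q b => (a : ℝ) * (b : ℝ) * lamAt v x t P Q :=
  rfl

theorem pairAt_zero_left (E : Divisor K F) : pairAt v x t 0 E = 0 := by
  rw [pairAt_def, Finsupp.sum_zero_index]

theorem pairAt_zero_right (D : Divisor K F) : pairAt v x t D 0 = 0 := by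
  rw [pairAt_def]
  simp only [Finsupp.sum_zero_index]
  exact Finset.sum_const_zero

theorem pairAt_add_left (D D' E : Divisor K F) :
    pairAt v x t (D + D') E = pairAt v x t D E + pairAt v x t D' E := by
  rw [pairAt_def, pairAt_def, pairAt_def]
  refine Finsupp.sum_add_index' (fun P => ?_) (fun P a a' => ?_)
  · simp
  · rw [← Finsupp.sum_add]
    refine Finsupp.sum_congr fun Q _ => ?_
    push_cast
    ring

theorem pairAt_add_right (D E E' : Divisor K F) :
    pairAt v x t D (E + E') = pairAt v x t D E + pairAt v x t D E' := by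
  rw [pairAt_def, pairAt_def, pairAt_def, ← Finsupp.sum_add]
  refine Finsupp.sum_congr fun P _ => ?_
  refine Finsupp.sum_add_index' (fun Q => ?_) (fun Q b b' => ?_)
  · simp
  · push_cast
    ring

theorem pairAt_single_single (P Q : Place K F) (a b : ℤ) :
    pairAt v x t (Finsupp.single P a) (Finsupp.single Q b) =
      (a : ℝ) * (b : ℝ) * lamAt v x t P Q := by
  rw [pairAt_def, Finsupp.sum_single_index, Finsupp.sum_single_index]
  · simp
  · simp

theorem pairAt_comm (D E : Divisor K F) : pairAt v x t D E = pairAt v x t E D := by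
  rw [pairAt_def, pairAt_def, Finsupp.sum_comm]
  refine Finsupp.sum_congr fun Q _ => Finsupp.sum_congr fun P _ => ?_
  rw [lamAt_comm v x t P Q]
  ring

theorem pairAt_neg_left (D E : Divisor K F) : pairAt v x t (-D) E = -pairAt v x t D E := by
  have h := pairAt_add_left v x t D (-D) E
  rw [add_neg_cancel, pairAt_zero_left] at h
  linarith

theorem pairAt_neg_right (D E : Divisor K F) : pairAt v x t D (-E) = -pairAt v x t D E := by
  rw [pairAt_comm, pairAt_neg_left, pairAt_comm]

theorem pairAt_sub_left (D D' E : Divisor K F) :
    pairAt v x t (D - D') E = pairAt v x t D E - pairAt v x t D' E := by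
  rw [sub_eq_add_neg, pairAt_add_left, pairAt_neg_left, sub_eq_add_neg]

theorem pairAt_sub_right (D E E' : Divisor K F) :
    pairAt v x t D (E - E') = pairAt v x t D E - pairAt v x t D E' := by
  rw [sub_eq_add_neg, pairAt_add_right, pairAt_neg_right, sub_eq_add_neg]

/-- expansion of the local pairing over the supports. -/
theorem pairAt_eq_sum (D E : Divisor K F) :
    pairAt v x t D E =
      ∑ P ∈ D.support, ∑ Q ∈ E.support, (D P : ℝ) * (E Q : ℝ) * lamAt v x t P Q := rfl

end PairAt

section PairAtCofinite

variable {K F : Type*} [Field K] [CharZero K] [Field F] [Algebra K F] {n : ℕ} (A : QbarAbs K)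
variable (x : Fin (n + 1) → F) (t : Place K F → F)

/-- **G0** for a general `QbarAbs`: the local pairings of two divisors vanish at almost all
places. -/
theorem pairAt_cofinite (D E : Divisor K F) :
    {p : Option Nat.Primes | pairAt (A.abv p) x t D E ≠ 0}.Finite := by
  have hfin : (⋃ P ∈ D.support, ⋃ Q ∈ E.support,
      {p : Option Nat.Primes | lamAt (A.abv p) x t P Q ≠ 0}).Finite :=
    Set.Finite.biUnion D.support.finite_toSet fun P _ =>
      Set.Finite.biUnion E.support.finite_toSet fun Q _ => lamAt_cofinite A x t P Q
  refine hfin.subset ?_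
  intro p hp
  by_contra hcon
  apply hp
  rw [pairAt_eq_sum]
  refine Finset.sum_eq_zero fun P hP => Finset.sum_eq_zero fun Q hQ => ?_
  have : lamAt (A.abv p) x t P Q = 0 := by
    by_contra h0
    exact hcon (Set.mem_biUnion hP (Set.mem_biUnion hQ h0))
  rw [this, mul_zero]

theorem hasFiniteSupport_pairAt (D E : Divisor K F) :
    HasFiniteSupport fun p : Option Nat.Primes => pairAt (A.abv p) x t D E :=
  pairAt_cofinite A x t D E

theorem hasFiniteSupport_lamAt (P Q : Place K F) :
    HasFiniteSupport fun p : Option Nat.Primes => lamAt (A.abv p) x t P Q :=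
  lamAt_cofinite A x t P Q

end PairAtCofinite

/-! ### The global pairing of the standing data -/

section Global

variable {F : Type} [Field F] [Algebra Qb F] [HasCanonicalDivisor (K := Qb) (F := F)]
variable (S : HSetup F)

/-- **Brick G0** in the literal form of the specification (unconditional). -/
theorem pairFiniteSupport : S.PairFiniteSupport :=
  fun D E => pairAt_cofinite S.A S.x S.t D E

theorem pair_def (D E : Divisor Qb F) :
    S.pair D E = S.A.gsum fun p => pairAt (S.A.abv p) S.x S.t D E := rfl

theorem pair_add_left (D D' E : Divisor Qb F) : S.pair (D + D') E = S.pair D E + S.pair D' E := by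
  rw [pair_def, pair_def, pair_def, ← gsum_add S.A (hasFiniteSupport_pairAt S.A S.x S.t D E)
    (hasFiniteSupport_pairAt S.A S.x S.t D' E)]
  congr 1
  funext p
  exact pairAt_add_left _ _ _ D D' E

theorem pair_add_right (D E E' : Divisor Qb F) : S.pair D (E + E') = S.pair D E + S.pair D E' := by
  rw [pair_def, pair_def, pair_def, ← gsum_add S.A (hasFiniteSupport_pairAt S.A S.x S.t D E)
    (hasFiniteSupport_pairAt S.A S.x S.t D E')]
  congr 1
  funext p
  exact pairAt_add_right _ _ _ D E E'

theorem pair_comm (D E : Divisor Qb F) : S.pair D E = S.pair E D := by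
  rw [pair_def, pair_def]
  congr 1
  funext p
  exact pairAt_comm _ _ _ D E

theorem pair_zero_left (E : Divisor Qb F) : S.pair 0 E = 0 := by
  rw [pair_def]
  simp only [pairAt_zero_left]
  exact gsum_zero S.A

theorem pair_zero_right (D : Divisor Qb F) : S.pair D 0 = 0 := by
  rw [pair_comm, pair_zero_left]

theorem pair_neg_left (D E : Divisor Qb F) : S.pair (-D) E = -S.pair D E := by
  have h := pair_add_left S D (-D) E
  rw [add_neg_cancel, pair_zero_left] at h
  linarith

theorem pair_neg_right (D E : Divisor Qb F) : S.pair D (-E) = -S.pair D E := by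
  rw [pair_comm, pair_neg_left, pair_comm]

theorem pair_sub_left (D D' E : Divisor Qb F) : S.pair (D - D') E = S.pair D E - S.pair D' E := by
  rw [sub_eq_add_neg, pair_add_left, pair_neg_left, sub_eq_add_neg]

theorem pair_sub_right (D E E' : Divisor Qb F) : S.pair D (E - E') = S.pair D E - S.pair D E' := by
  rw [sub_eq_add_neg, pair_add_right, pair_neg_right, sub_eq_add_neg]

theorem pair_nsmul_left (k : ℕ) (D E : Divisor Qb F) : S.pair (k • D) E = k * S.pair D E := by
  induction k with
  | zero => simp [pair_zero_left]
  | succ k ih =>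
    rw [succ_nsmul, pair_add_left, ih]
    push_cast
    ring

theorem pair_zsmul_left (k : ℤ) (D E : Divisor Qb F) : S.pair (k • D) E = k * S.pair D E := by
  cases k with
  | ofNat k =>
    rw [Int.ofNat_eq_natCast, natCast_zsmul, pair_nsmul_left]
    simp
  | negSucc k =>
    rw [negSucc_zsmul, pair_neg_left, pair_nsmul_left]
    push_cast
    ring

theorem pair_zsmul_right (k : ℤ) (D E : Divisor Qb F) : S.pair D (k • E) = k * S.pair D E := by
  rw [pair_comm, pair_zsmul_left, pair_comm]

/-- the global pair function of two places. -/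
theorem pair_single_single (P Q : Place Qb F) (a b : ℤ) :
    S.pair (Finsupp.single P a) (Finsupp.single Q b) =
      (a : ℝ) * (b : ℝ) * S.pair (Finsupp.single P 1) (Finsupp.single Q 1) := by
  rw [pair_def, pair_def]
  simp only [pairAt_single_single]
  rw [← gsum_const_mul]
  congr 1
  funext p
  simp

/-- expansion of the global pairing over the supports. -/
theorem pair_eq_sum (D E : Divisor Qb F) :
    S.pair D E = ∑ P ∈ D.support, ∑ Q ∈ E.support,
      (D P : ℝ) * (E Q : ℝ) * S.pair (Finsupp.single P 1) (Finsupp.single Q 1) := by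
  induction D using Finsupp.induction_linear with
  | zero => simp [pair_zero_left]
  | add D D' hD hD' =>
    rw [pair_add_left, hD, hD']
    have key : ∀ D₁ : Divisor Qb F, (∑ P ∈ D₁.support, ∑ Q ∈ E.support,
        (D₁ P : ℝ) * (E Q : ℝ) * S.pair (Finsupp.single P 1) (Finsupp.single Q 1)) =
        D₁.sum fun P a => ∑ Q ∈ E.support,
          (a : ℝ) * (E Q : ℝ) * S.pair (Finsupp.single P 1) (Finsupp.single Q 1) := fun _ => rfl
    rw [key, key, key]
    symm
    refine Finsupp.sum_add_index' (fun P => ?_) (fun P a a' => ?_)
    · simp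
    · rw [← Finset.sum_add_distrib]
      refine Finset.sum_congr rfl fun Q _ => ?_
      push_cast
      ring
  | single P a =>
    induction E using Finsupp.induction_linear with
    | zero => simp [pair_zero_right]
    | add E E' hE hE' =>
      rw [pair_add_right, hE, hE']
      have key : ∀ E₁ : Divisor Qb F, (∑ P' ∈ (Finsupp.single P a).support, ∑ Q ∈ E₁.support,
          ((Finsupp.single P a) P' : ℝ) * (E₁ Q : ℝ) *
            S.pair (Finsupp.single P' 1) (Finsupp.single Q 1)) =
          ∑ P' ∈ (Finsupp.single P a).support, E₁.sum fun Q b =>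
            ((Finsupp.single P a) P' : ℝ) * (b : ℝ) *
              S.pair (Finsupp.single P' 1) (Finsupp.single Q 1) := fun _ => rfl
      rw [key, key, key, ← Finset.sum_add_distrib]
      refine Finset.sum_congr rfl fun P' _ => ?_
      symm
      refine Finsupp.sum_add_index' (fun Q => ?_) (fun Q b b' => ?_)
      · simp
      · push_cast
        ring
    | single Q b =>
      rw [pair_single_single]
      by_cases ha : a = 0
      · subst ha; simp
      by_cases hb : b = 0
      · subst hb; simp
      rw [Finsupp.support_single _ ha, Finsupp.support_single _ hb,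
        Finset.sum_singleton, Finset.sum_singleton, Finsupp.single_eq_same, Finsupp.single_eq_same]

/-! ### `hn` and `kap` -/

theorem hn_def (D : Divisor Qb F) : S.hn D = S.pair (Finsupp.single S.inf 1) D := rfl

theorem hn_add (D D' : Divisor Qb F) : S.hn (D + D') = S.hn D + S.hn D' :=
  pair_add_right S _ D D'

theorem hn_zero : S.hn 0 = 0 := pair_zero_right S _

theorem hn_neg (D : Divisor Qb F) : S.hn (-D) = -S.hn D := pair_neg_right S _ D

theorem hn_sub (D D' : Divisor Qb F) : S.hn (D - D') = S.hn D - S.hn D' :=
  pair_sub_right S _ D D'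

theorem hn_single (P : Place Qb F) (a : ℤ) :
    S.hn (Finsupp.single P a) = a * S.hn (Finsupp.single P 1) := by
  rw [hn_def, pair_single_single, hn_def]
  simp

theorem hn_eq_sum (D : Divisor Qb F) :
    S.hn D = ∑ Q ∈ D.support, (D Q : ℝ) * S.hn (Finsupp.single Q 1) := by
  induction D using Finsupp.induction_linear with
  | zero => simp [hn_zero]
  | add D D' hD hD' =>
    rw [hn_add, hD, hD']
    have key : ∀ D₁ : Divisor Qb F, (∑ Q ∈ D₁.support, (D₁ Q : ℝ) * S.hn (Finsupp.single Q 1)) =
        D₁.sum fun Q b => (b : ℝ) * S.hn (Finsupp.single Q 1) := fun _ => rfl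
    rw [key, key, key]
    symm
    refine Finsupp.sum_add_index' (fun Q => ?_) (fun Q b b' => ?_)
    · simp
    · push_cast
      ring
  | single Q b =>
    rw [hn_single]
    by_cases hb : b = 0
    · subst hb; simp
    rw [Finsupp.support_single _ hb, Finset.sum_singleton, Finsupp.single_eq_same]

theorem kap_def (D : Divisor Qb F) :
    S.kap D = D.sum fun P a => (a : ℝ) * S.pair (Finsupp.single P 1) (Finsupp.single P 1) := rfl

theorem kap_zero : S.kap 0 = 0 := by
  rw [kap_def, Finsupp.sum_zero_index]

theorem kap_add (D D' : Divisor Qb F) : S.kap (D + D') = S.kap D + S.kap D' := by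
  rw [kap_def, kap_def, kap_def]
  refine Finsupp.sum_add_index' (fun P => ?_) (fun P a a' => ?_)
  · simp
  · push_cast
    ring

theorem kap_neg (D : Divisor Qb F) : S.kap (-D) = -S.kap D := by
  have h := kap_add S D (-D)
  rw [add_neg_cancel, kap_zero] at h
  linarith

theorem kap_sub (D D' : Divisor Qb F) : S.kap (D - D') = S.kap D - S.kap D' := by
  rw [sub_eq_add_neg, kap_add, kap_neg, sub_eq_add_neg]

theorem kap_single (P : Place Qb F) (a : ℤ) :
    S.kap (Finsupp.single P a) = a * S.pair (Finsupp.single P 1) (Finsupp.single P 1) := by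
  rw [kap_def, Finsupp.sum_single_index]
  simp

end Global

end

end Fermat.Agent.MW.Global.PairBasic2
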