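import Mathlib
import Fermat.Agent.MW.Global.PairBasic2
import Fermat.Agent.X0.FFConst


/-!
# MW-H brick A0 (`HnLower`)  (helper2)

Plan #590 v3, package [b], part 2.  Unconditional.

`S.hn D = ∑_Q D(Q) ∑_p λ_p(inf, Q)`, and `λ_p(inf, Q) ≥ - log (triC_p 2)` for `Q ≠ inf`
(`PairBasic2.lamAt_ge`); the triangle constant is `1` at the finite places and `≤ 2` at the infinite
place, hence `S.hn (single Q 1) ≥ - log 2` and `S.hn D ≥ - deg D · log 2`.

* `triC_abv_some`, `triC_le_natCast`, `hasFiniteSupport_log_triC`, `gsum_log_triC_le`.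
* `place_deg`, `degree_eq_sum` : over `ℚ̄` the degree of a divisor is the sum of its coefficients.
* `hn_single_ge`, `hnLower (S : HSetup F) : S.HnLower`.
-/

set_option autoImplicit false
set_option linter.unusedSectionVars false

open AlgebraicCurve

namespace Fermat.Agent.MW.Global.HnLower2

open Function
open Fermat.Agent.MW.Hadamard7 Fermat.Agent.MW.Spec.Defs7 Fermat.Agent.MW.Spec.Contract7
open Fermat.Agent.MW.Spec.Bricks7 Fermat.Agent.MW.Spec.Bricks7b
open Fermat.Agent.MW.Local.Chord2 Fermat.Agent.MW.Arith.ProductFormula62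
open Fermat.Agent.MW.Global.PairBasic2

open scoped Classical

noncomputable section

section General

variable {K : Type*} [Field K] [CharZero K] (A : QbarAbs K)

/-- the triangle constant at a finite place is `1`. -/
theorem triC_abv_some (q : Nat.Primes) (k : ℕ) : triC (A.abv (some q)) k = 1 := by
  unfold triC
  rw [if_pos]
  exact A.fin_nonarch q

/-- the triangle constant is at most `k` (for `1 ≤ k`). -/
theorem triC_le_natCast {R : Type*} [Field R] (v : AbsoluteValue R ℝ) {k : ℕ} (hk : 1 ≤ k) :
    triC v k ≤ k := by
  unfold triC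
  split_ifs
  · exact_mod_cast hk
  · exact le_rfl

/-- the family `p ↦ log (triC (A.abv p) k)` is supported at the infinite place. -/
theorem hasFiniteSupport_log_triC (k : ℕ) :
    HasFiniteSupport fun p => Real.log (triC (A.abv p) k) := by
  refine (Set.finite_singleton (none : Option Nat.Primes)).subset ?_
  intro p hp
  cases p with
  | none => rfl
  | some q =>
    exfalso
    apply hp
    show Real.log (triC (A.abv (some q)) k) = 0
    rw [triC_abv_some, Real.log_one]

/-- `∑_p log (triC_p k) ≤ log k`. -/
theorem gsum_log_triC_le {k : ℕ} (hk : 1 ≤ k) :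
    A.gsum (fun p => Real.log (triC (A.abv p) k)) ≤ Real.log k := by
  have h1 : A.gsum (fun p => Real.log (triC (A.abv p) k)) =
      Real.log (triC (A.abv none) k) := by
    unfold QbarAbs.gsum
    refine finsum_eq_single _ none fun p hp => ?_
    cases p with
    | none => exact absurd rfl hp
    | some q => rw [triC_abv_some, Real.log_one]
  rw [h1]
  exact Real.log_le_log (triC_pos _ hk) (triC_le_natCast _ hk)

end General

section Global

variable {F : Type} [Field F] [Algebra Qb F] [HasCanonicalDivisor (K := Qb) (F := F)]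

/-- all places have degree one. -/
theorem place_deg (S : HSetup F) (P : Place Qb F) : P.deg = 1 :=
  Fermat.Agent.X0.FF.deg_eq_one S.gen P

/-- the degree of a divisor is the sum of its coefficients. -/
theorem degree_eq_sum (S : HSetup F) (D : Divisor Qb F) :
    Divisor.degree D = ∑ Q ∈ D.support, D Q := by
  induction D using Finsupp.induction_linear with
  | zero => simp
  | add D D' hD hD' =>
    rw [map_add, hD, hD']
    have h1 : ∑ Q ∈ (D + D').support, (D + D') Q
        = ∑ Q ∈ D.support ∪ D'.support, (D + D') Q := by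
      refine Finset.sum_subset Finsupp.support_add fun Q _ hQ => ?_
      simpa using hQ
    rw [h1]
    simp only [Finsupp.add_apply, Finset.sum_add_distrib]
    congr 1
    · refine Finset.sum_subset Finset.subset_union_left fun Q _ hQ => ?_
      simpa using hQ
    · refine Finset.sum_subset Finset.subset_union_right fun Q _ hQ => ?_
      simpa using hQ
  | single P a =>
    rw [Divisor.degree_single, place_deg S P]
    by_cases ha : a = 0
    · subst ha; simp
    rw [Finsupp.support_single _ ha, Finset.sum_singleton, Finsupp.single_eq_same]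
    simp

variable (S : HSetup F)

/-- the height of a place other than `inf` relative to `inf` is at least `- log 2`. -/
theorem hn_single_ge {Q : Place Qb F} (hQ : Q ≠ S.inf) :
    -Real.log 2 ≤ S.hn (Finsupp.single Q 1) := by
  have h0 : S.hn (Finsupp.single Q 1) = S.A.gsum fun p => lamAt (S.A.abv p) S.x S.t S.inf Q := by
    rw [hn_def, pair_def]
    congr 1
    funext p
    rw [pairAt_single_single]
    simp
  rw [h0]
  have h1 : S.A.gsum (fun p => -Real.log (triC (S.A.abv p) 2)) ≤
      S.A.gsum fun p => lamAt (S.A.abv p) S.x S.t S.inf Q := by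
    refine gsum_le_gsum S.A ?_ (hasFiniteSupport_lamAt S.A S.x S.t S.inf Q) fun p =>
      lamAt_ge _ _ _ (Ne.symm hQ)
    have := hasFiniteSupport_log_triC S.A 2
    refine this.subset ?_
    intro p hp
    simp only [Function.mem_support, ne_eq, neg_eq_zero] at hp
    exact hp
  refine le_trans ?_ h1
  rw [gsum_neg, neg_le_neg_iff]
  exact_mod_cast gsum_log_triC_le S.A (k := 2) (by norm_num)

/-- **Brick A0**: heights relative to `inf` of effective divisors of bounded degree prime to `inf`
are bounded below. -/
theorem hnLower : S.HnLower := by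
  intro d₀
  refine ⟨max (d₀ : ℝ) 0 * Real.log 2, fun D hD hdeg hinf => ?_⟩
  have hlog : 0 ≤ Real.log 2 := Real.log_nonneg (by norm_num)
  rw [hn_eq_sum]
  have hterm : ∀ Q ∈ D.support, (D Q : ℝ) * (-Real.log 2) ≤
      (D Q : ℝ) * S.hn (Finsupp.single Q 1) := by
    intro Q hQ
    have hQinf : Q ≠ S.inf := by
      rintro rfl
      exact (Finsupp.mem_support_iff.mp hQ) hinf
    have hDQ : (0 : ℝ) ≤ (D Q : ℝ) := by
      have : (0 : ℤ) ≤ D Q := hD Q
      exact_mod_cast this
    exact mul_le_mul_of_nonneg_left (hn_single_ge S hQinf) hDQ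
  refine le_trans ?_ (Finset.sum_le_sum hterm)
  rw [← Finset.sum_mul]
  have hsum : (∑ Q ∈ D.support, (D Q : ℝ)) = ((Divisor.degree D : ℤ) : ℝ) := by
    rw [degree_eq_sum S D]
    push_cast
    rfl
  rw [hsum]
  have h2 : ((Divisor.degree D : ℤ) : ℝ) ≤ max (d₀ : ℝ) 0 :=
    le_trans (by exact_mod_cast hdeg) (le_max_left _ _)
  nlinarith
  
end Global

end

end Fermat.Agent.MW.Global.HnLower2
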