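import Mathlib
import Fermat.Agent.MW.Global.HnLower2


/-!
# MW-H brick P3 (`Positivity`)  (helper2)

Plan #590 v3, the formal half of package [h]:  `HD + AD + P1a + P1b (+ A0, G0) → P3`.

For a fixed class `c` with minimal representative `D` (effective, stable, `r = deg D ≤ g`,
`D inf = 0`, `ℓ(D) = 1`):

  `qOf c = - pair D D + 2 r hn D - r² pair inf inf`,
  `- pair D D = - (pair D D - kap D) - kap D ≥ (2 - 2 r - 3 ε) hn D - C`   (HD + AD),

so `qOf c ≥ (2 - 3 ε) hn D - C'`, and `ε = 1/6` with the lower bound `A0` for `hn D` gives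
`qOf c ≥ hn D - C''`.

* `isMinRep_unique`, `minRep_eq`, `minRep_spec`, `minRep_nonneg`, `degree_nonneg`.
* `single_eq_zsmul`, `pair_single_left`, `pair_single_right`, `pair_zeroPart`, `qOf_eq`.
* `positivityP3 (S) (hHD : S.HadamardUpper) (hAD : S.AdjunctionLower) (hP1a : S.MinRepExists)
  (hP1b : S.MinRepStable) : S.Positivity`.
-/

set_option autoImplicit false
set_option linter.unusedSectionVars false

open AlgebraicCurve

namespace Fermat.Agent.MW.Global.Positivity2

open Function
open Fermat.Agent.MW.Hadamard7 Fermat.Agent.MW.Spec.Defs7 Fermat.Agent.MW.Spec.Contract7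
open Fermat.Agent.MW.Spec.Bricks7 Fermat.Agent.MW.Spec.Bricks7b
open Fermat.Agent.MW.Global.PairBasic2 Fermat.Agent.MW.Global.HnLower2

open scoped Classical

noncomputable section

variable {F : Type} [Field F] [Algebra Qb F] [HasCanonicalDivisor (K := Qb) (F := F)]
variable (S : HSetup F)

/-! ### Minimal representatives -/

/-- minimal representatives are unique. -/
theorem isMinRep_unique {c : Pic0 Qb F} {D D' : Divisor Qb F} (h : S.IsMinRep c D)
    (h' : S.IsMinRep c D') : D' = D := by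
  have h1 := (h.2 D' h'.1).1
  have h2 := (h'.2 D h.1).1
  exact (h.2 D' h'.1).2 (le_antisymm h2 h1)

/-- `minRep c` is the minimal representative as soon as there is one. -/
theorem minRep_eq {c : Pic0 Qb F} {D : Divisor Qb F} (h : S.IsMinRep c D) : S.minRep c = D := by
  have hex : ∃ D, S.IsMinRep c D := ⟨D, h⟩
  unfold HSetup.minRep
  rw [dif_pos hex]
  exact isMinRep_unique S h hex.choose_spec

theorem minRep_spec (hP1a : S.MinRepExists) (c : Pic0 Qb F) :
    S.IsMinRep c (S.minRep c) ∧ Divisor.degree (S.minRep c) ≤ (genus Qb F : ℤ) ∧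
      (S.minRep c) S.inf = 0 ∧
      Module.finrank Qb (riemannRochSpace (K := Qb) (F := F) (S.minRep c)) = 1 := by
  obtain ⟨D, hD, h1, h2, h3⟩ := hP1a c
  rw [minRep_eq S hD]
  exact ⟨hD, h1, h2, h3⟩

theorem minRep_nonneg (hP1a : S.MinRepExists) (c : Pic0 Qb F) : 0 ≤ S.minRep c :=
  (minRep_spec S hP1a c).1.1.1

/-- the degree of an effective divisor is nonnegative. -/
theorem degree_nonneg (S' : HSetup F) {D : Divisor Qb F} (hD : 0 ≤ D) :
    0 ≤ Divisor.degree D := by
  rw [degree_eq_sum S' D]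
  exact Finset.sum_nonneg fun Q _ => hD Q

/-! ### Expansion of the quasi-quadratic height -/

theorem single_eq_zsmul (P : Place Qb F) (a : ℤ) :
    (Finsupp.single P a : Divisor Qb F) = a • (Finsupp.single P 1 : Divisor Qb F) := by
  ext Q
  simp [Finsupp.single_apply]

theorem pair_single_left (P : Place Qb F) (a : ℤ) (E : Divisor Qb F) :
    S.pair (Finsupp.single P a) E = a * S.pair (Finsupp.single P 1) E := by
  rw [single_eq_zsmul, pair_zsmul_left]

theorem pair_single_right (P : Place Qb F) (a : ℤ) (D : Divisor Qb F) :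
    S.pair D (Finsupp.single P a) = a * S.pair D (Finsupp.single P 1) := by
  rw [pair_comm, pair_single_left, pair_comm]

/-- `pair (D - r·inf) (D - r·inf) = pair D D - 2 r hn D + r² pair inf inf`. -/
theorem pair_zeroPart (D : Divisor Qb F) :
    S.pair (S.zeroPart D) (S.zeroPart D) =
      S.pair D D - 2 * (Divisor.degree D : ℝ) * S.hn D +
        (Divisor.degree D : ℝ) ^ 2 * S.pair (Finsupp.single S.inf 1) (Finsupp.single S.inf 1) := by
  unfold HSetup.zeroPart
  have hA : S.pair (Finsupp.single S.inf (Divisor.degree D)) D =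
      (Divisor.degree D : ℝ) * S.hn D := by
    rw [pair_single_left, ← hn_def]
  have hB : S.pair D (Finsupp.single S.inf (Divisor.degree D)) =
      (Divisor.degree D : ℝ) * S.hn D := by
    rw [pair_comm, hA]
  have hC : S.pair (Finsupp.single S.inf (Divisor.degree D))
      (Finsupp.single S.inf (Divisor.degree D)) =
      (Divisor.degree D : ℝ) * (Divisor.degree D : ℝ) *
        S.pair (Finsupp.single S.inf 1) (Finsupp.single S.inf 1) := pair_single_single S _ _ _ _
  rw [pair_sub_left, pair_sub_right, pair_sub_right, hA, hB, hC]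
  ring

theorem qOf_eq (c : Pic0 Qb F) :
    S.qOf c = -S.pair (S.minRep c) (S.minRep c) +
      2 * (Divisor.degree (S.minRep c) : ℝ) * S.hn (S.minRep c) -
      (Divisor.degree (S.minRep c) : ℝ) ^ 2 *
        S.pair (Finsupp.single S.inf 1) (Finsupp.single S.inf 1) := by
  unfold HSetup.qOf
  rw [pair_zeroPart]
  ring

/-! ### P3 -/

/-- **Brick P3**: positivity of the quasi-quadratic height on all Brill-Noether strata. -/
theorem positivityP3 (hHD : S.HadamardUpper) (hAD : S.AdjunctionLower) (hP1a : S.MinRepExists)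
    (hP1b : S.MinRepStable) : S.Positivity := by
  obtain ⟨C₁, hC₁⟩ := hHD (1 / 6) (by norm_num)
  obtain ⟨C₂, hC₂⟩ := hAD (genus Qb F : ℤ) (1 / 6) (by norm_num)
  obtain ⟨C₀, hC₀⟩ := hnLower S (genus Qb F : ℤ)
  set pinf : ℝ := S.pair (Finsupp.single S.inf 1) (Finsupp.single S.inf 1) with hpinf
  refine ⟨C₀ / 2 + C₁ + C₂ + (genus Qb F : ℝ) ^ 2 * |pinf|, fun c hc => ?_⟩
  obtain ⟨hmin, hdeg, hinf, hl⟩ := minRep_spec S hP1a c
  have hD0 : 0 ≤ S.minRep c := hmin.1.1
  have hst : IsStable S.γ (S.minRep c) := hP1b c hc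
  have h1 := hC₁ (S.minRep c) hD0 hst hdeg hinf hl
  have h2 := hC₂ (S.minRep c) hD0 hst hdeg hinf
  have h0 := hC₀ (S.minRep c) hD0 hdeg hinf
  have hr0 : (0 : ℝ) ≤ (Divisor.degree (S.minRep c) : ℝ) := by
    exact_mod_cast degree_nonneg S hD0
  have hrg : (Divisor.degree (S.minRep c) : ℝ) ≤ (genus Qb F : ℝ) := by
    exact_mod_cast hdeg
  have hsq : (Divisor.degree (S.minRep c) : ℝ) ^ 2 * pinf ≤ (genus Qb F : ℝ) ^ 2 * |pinf| :=
    le_trans (mul_le_mul_of_nonneg_left (le_abs_self _) (sq_nonneg _))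
      (mul_le_mul_of_nonneg_right (pow_le_pow_left₀ hr0 hrg 2) (abs_nonneg _))
  rw [qOf_eq, ← hpinf]
  unfold HSetup.hnOf
  set r : ℝ := (Divisor.degree (S.minRep c) : ℝ) with hr
  set h : ℝ := S.hn (S.minRep c) with hh
  set g : ℝ := (genus Qb F : ℝ) with hg
  set pp : ℝ := S.pair (S.minRep c) (S.minRep c) with hpp
  set kk : ℝ := S.kap (S.minRep c) with hkk
  linarith

end

end Fermat.Agent.MW.Global.Positivity2
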