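import Mathlib
import Fermat.Agent.MW.Formal.Quadratic2
import Fermat.Agent.MW.Global.Positivity2


/-!
# MW-H brick QP (`QuasiParallelogram`)  (helper2)

Plan #590 v3:  `F1 + P1a + P1b + P1c + G1 (+ G0) → QP`.

`Z` = the group of stable divisors of degree zero, `G` = the group of fixed classes of `Pic⁰`,
`cl = Pic0.mk`, `rep c = zeroPart (minRep c)`, `nrm = ‖·‖₁ ≤ 2 g` on representatives, `B = S.pair`.
The kernel estimate of the formal quadratic layer `F1` (`Quadratic2.formalQuadratic`) is the global
uniform decomposition `G1` at `d = 6 g` applied to a RATIONAL generator (`P1c`) of a stable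
principal divisor; the term `deg e · c(f)` vanishes because `deg e = 0`.

* `normOne_eq_sum_of_subset`, `normOne_nonneg`, `normOne_add_le`, `normOne_neg`, `normOne_single`,
  `posDeg_le_normOne`.
* `stableZero S`, `fixedClasses S`, `clAux`, `clHom`, `exists_isDivOf_of_clHom_eq_zero`,
  `isStable_single_inf`, `isStable_zeroPart`, `degree_zeroPart`, `normOne_zeroPart_le`.
* `quasiParallelogram (S) (hP1a : S.MinRepExists) (hP1b : S.MinRepStable)
  (hP1c : S.RationalGenerator) (hG1 : S.GlobalUD) : S.QuasiParallelogram`.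
-/

set_option autoImplicit false
set_option linter.unusedSectionVars false

open AlgebraicCurve

namespace Fermat.Agent.MW.Global.QuasiPar2

open Function
open Fermat.Agent.MW.Hadamard7 Fermat.Agent.MW.Spec.Defs7 Fermat.Agent.MW.Spec.Contract7
open Fermat.Agent.MW.Spec.Bricks7 Fermat.Agent.MW.Spec.Bricks7b
open Fermat.Agent.MW.Global.PairBasic2 Fermat.Agent.MW.Global.HnLower2
open Fermat.Agent.MW.Global.Positivity2

open scoped Classical

noncomputable section

/-! ### The `ℓ¹` norm of a divisor -/

section NormOne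

variable {K F : Type*} [Field K] [Field F] [Algebra K F]

theorem normOne_eq_sum_of_subset (D : Divisor K F) {s : Finset (Place K F)}
    (hs : D.support ⊆ s) : normOne D = ∑ P ∈ s, |D P| := by
  unfold normOne
  exact Finsupp.sum_of_support_subset D hs (fun _ a => |a|) fun _ _ => abs_zero

theorem normOne_nonneg (D : Divisor K F) : 0 ≤ normOne D := by
  unfold normOne
  rw [Finsupp.sum]
  exact Finset.sum_nonneg fun _ _ => abs_nonneg _

theorem normOne_add_le (D E : Divisor K F) : normOne (D + E) ≤ normOne D + normOne E := by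
  rw [normOne_eq_sum_of_subset (D + E) Finsupp.support_add,
    normOne_eq_sum_of_subset D Finset.subset_union_left,
    normOne_eq_sum_of_subset E Finset.subset_union_right, ← Finset.sum_add_distrib]
  refine Finset.sum_le_sum fun P _ => ?_
  rw [Finsupp.add_apply]
  exact abs_add_le _ _

theorem normOne_neg (D : Divisor K F) : normOne (-D) = normOne D := by
  rw [normOne_eq_sum_of_subset (-D) (s := D.support) (by rw [Finsupp.support_neg]),
    normOne_eq_sum_of_subset D (Finset.Subset.refl _)]
  refine Finset.sum_congr rfl fun P _ => ?_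
  rw [Finsupp.neg_apply, abs_neg]

theorem normOne_single (P : Place K F) (a : ℤ) : normOne (Finsupp.single P a : Divisor K F) = |a| := by
  unfold normOne
  rw [Finsupp.sum_single_index abs_zero]

theorem posDeg_le_normOne (D : Divisor K F) : posDeg D ≤ normOne D := by
  unfold posDeg normOne
  rw [Finsupp.sum, Finsupp.sum]
  exact Finset.sum_le_sum fun P _ => max_le (le_abs_self _) (abs_nonneg _)

end NormOne

/-! ### Stable divisors of degree zero and fixed classes -/

section Groups

variable {F : Type} [Field F] [Algebra Qb F] [HasCanonicalDivisor (K := Qb) (F := F)]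
variable (S : HSetup F)

/-- the group of stable divisors of degree zero. -/
def stableZero : AddSubgroup (Divisor Qb F) where
  carrier := {D | IsStable S.γ D ∧ Divisor.degree D = 0}
  zero_mem' := ⟨fun σ => smul_zero _, map_zero _⟩
  add_mem' := by
    rintro D E ⟨hD, hD0⟩ ⟨hE, hE0⟩
    exact ⟨fun σ => by rw [smul_add, hD σ, hE σ], by rw [map_add, hD0, hE0, add_zero]⟩
  neg_mem' := by
    rintro D ⟨hD, hD0⟩
    exact ⟨fun σ => by rw [smul_neg, hD σ], by rw [map_neg, hD0, neg_zero]⟩

theorem mem_stableZero {D : Divisor Qb F} :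
    D ∈ stableZero S ↔ IsStable S.γ D ∧ Divisor.degree D = 0 := Iff.rfl

theorem stableZero_le : stableZero S ≤ Divisor.degZero (K := Qb) (F := F) :=
  fun _ hD => hD.2

/-- the group of fixed classes. -/
def fixedClasses : AddSubgroup (Pic0 Qb F) where
  carrier := {c | S.IsFixed c}
  zero_mem' := fun σ => smul_zero _
  add_mem' := by
    intro c c' hc hc' σ
    rw [smul_add, hc σ, hc' σ]
  neg_mem' := by
    intro c hc σ
    rw [smul_neg, hc σ]

theorem mem_fixedClasses {c : Pic0 Qb F} : c ∈ fixedClasses S ↔ S.IsFixed c := Iff.rfl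

/-- the class of a stable divisor of degree zero (as a class). -/
def clAux : stableZero S →+ Pic0 Qb F :=
  (QuotientAddGroup.mk' _).comp (AddSubgroup.inclusion (stableZero_le S))

theorem clAux_apply (D : stableZero S) :
    clAux S D = Pic0.mk ⟨(D : Divisor Qb F), stableZero_le S D.2⟩ := rfl

theorem clAux_fixed (D : stableZero S) : S.IsFixed (clAux S D) := by
  intro σ
  rw [clAux_apply, SemilinearAut.pic0_smul_mk]
  congr 1
  apply Subtype.ext
  rw [SemilinearAut.coe_degZeroSMulHom]
  exact D.2.1 σ

/-- the class map. -/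
def clHom : stableZero S →+ fixedClasses S :=
  (clAux S).codRestrict (fixedClasses S) (clAux_fixed S)

theorem coe_clHom (D : stableZero S) : ((clHom S D : fixedClasses S) : Pic0 Qb F) = clAux S D :=
  rfl

/-- a stable degree zero divisor in the kernel of the class map is principal. -/
theorem exists_isDivOf_of_clHom_eq_zero {D : stableZero S} (h : clHom S D = 0) :
    ∃ f : F, f ≠ 0 ∧ IsDivOf (D : Divisor Qb F) f := by
  have h1 : clAux S D = 0 := by
    rw [← coe_clHom, h]
    rfl
  rw [clAux_apply] at h1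
  have h2 := (QuotientAddGroup.eq_zero_iff _).mp h1
  rw [AddSubgroup.mem_addSubgroupOf] at h2
  obtain ⟨f, hf, hD⟩ := h2
  exact ⟨f, hf, hD⟩

theorem isStable_single_inf (a : ℤ) : IsStable S.γ (Finsupp.single S.inf a : Divisor Qb F) := by
  intro σ
  rw [SemilinearAut.smul_single, S.inf_fixed]

theorem isStable_zeroPart {D : Divisor Qb F} (hD : IsStable S.γ D) :
    IsStable S.γ (S.zeroPart D) := by
  intro σ
  unfold HSetup.zeroPart
  rw [smul_sub, hD σ, isStable_single_inf S _ σ]

theorem degree_zeroPart (D : Divisor Qb F) : Divisor.degree (S.zeroPart D) = 0 := by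
  unfold HSetup.zeroPart
  rw [map_sub, Divisor.degree_single, place_deg S S.inf]
  simp

theorem normOne_zeroPart_le {D : Divisor Qb F} (hD : 0 ≤ D) :
    normOne (S.zeroPart D) ≤ 2 * Divisor.degree D := by
  unfold HSetup.zeroPart
  rw [sub_eq_add_neg]
  refine (normOne_add_le _ _).trans ?_
  rw [normOne_neg, normOne_single, abs_of_nonneg (degree_nonneg S hD)]
  have : normOne D = Divisor.degree D := by
    rw [degree_eq_sum S D]
    unfold normOne
    rw [Finsupp.sum]
    exact Finset.sum_congr rfl fun P _ => abs_of_nonneg (hD P)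
  rw [this]
  ring_nf
  exact le_refl _

end Groups

/-! ### QP -/

section QP

variable {F : Type} [Field F] [Algebra Qb F] [HasCanonicalDivisor (K := Qb) (F := F)]
variable (S : HSetup F)

/-- **Brick QP**: the parallelogram law up to a constant, on fixed classes. -/
theorem quasiParallelogram (hP1a : S.MinRepExists) (hP1b : S.MinRepStable)
    (hP1c : S.RationalGenerator) (hG1 : S.GlobalUD) : S.QuasiParallelogram := by
  set g : ℝ := (genus Qb F : ℝ) with hg
  obtain ⟨C₁, hC₁⟩ := hG1 (6 * (genus Qb F : ℤ))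
  -- the representatives
  have hrepmem : ∀ c : fixedClasses S, S.zeroPart (S.minRep (c : Pic0 Qb F)) ∈ stableZero S :=
    fun c => ⟨isStable_zeroPart S (hP1b c c.2), degree_zeroPart S _⟩
  set rep : fixedClasses S → stableZero S := fun c => ⟨_, hrepmem c⟩ with hrep
  set B : stableZero S → stableZero S → ℝ :=
    fun a b => S.pair (a : Divisor Qb F) (b : Divisor Qb F) with hB
  set nrm : stableZero S → ℝ := fun a => ((normOne (a : Divisor Qb F) : ℤ) : ℝ) with hnrm
  have key := Fermat.Agent.MW.Formal.Quadratic2.formalQuadratic B nrm (clHom S) rep (2 * g)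
    (max C₁ 0 * (6 * g))
    (fun a b => pair_comm S _ _)
    (fun a b c => pair_add_left S _ _ _)
    (fun a => by
      show (0 : ℝ) ≤ ((normOne (a : Divisor Qb F) : ℤ) : ℝ)
      exact_mod_cast normOne_nonneg _)
    (fun a b => by
      show ((normOne ((a + b : stableZero S) : Divisor Qb F) : ℤ) : ℝ) ≤
        ((normOne (a : Divisor Qb F) : ℤ) : ℝ) + ((normOne (b : Divisor Qb F) : ℤ) : ℝ)
      rw [AddSubgroup.coe_add]
      exact_mod_cast normOne_add_le _ _)
    (fun a => by
      show ((normOne ((-a : stableZero S) : Divisor Qb F) : ℤ) : ℝ) =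
        ((normOne (a : Divisor Qb F) : ℤ) : ℝ)
      rw [AddSubgroup.coe_neg, normOne_neg])
    (fun c => by
      -- `cl (rep c) = c`
      apply Subtype.ext
      rw [coe_clHom, clAux_apply]
      obtain ⟨hmin, _, _, _⟩ := minRep_spec S hP1a (c : Pic0 Qb F)
      obtain ⟨_, a, ha, hac⟩ := hmin.1
      rw [← hac]
      congr 1
      apply Subtype.ext
      rw [ha]
      rfl)
    (fun c => by
      -- `nrm (rep c) ≤ 2 g`
      obtain ⟨hmin, hdeg, _, _⟩ := minRep_spec S hP1a (c : Pic0 Qb F)
      have h1 := normOne_zeroPart_le S hmin.1.1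
      have h2 : ((normOne (S.zeroPart (S.minRep (c : Pic0 Qb F))) : ℤ) : ℝ) ≤
          2 * ((Divisor.degree (S.minRep (c : Pic0 Qb F)) : ℤ) : ℝ) := by exact_mod_cast h1
      have h3 : ((Divisor.degree (S.minRep (c : Pic0 Qb F)) : ℤ) : ℝ) ≤ g := by
        rw [hg]
        exact_mod_cast hdeg
      show ((normOne (S.zeroPart (S.minRep (c : Pic0 Qb F))) : ℤ) : ℝ) ≤ 2 * g
      linarith)
    (fun p e hp hnp hne => by
      -- the kernel estimate, from `G1` and `P1c`
      obtain ⟨f, hf, hdiv⟩ := exists_isDivOf_of_clHom_eq_zero S hp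
      obtain ⟨f', hf', hdiv', hrat'⟩ := hP1c (p : Divisor Qb F) f hf hdiv p.2.1
      have hnp' : normOne (p : Divisor Qb F) ≤ 6 * (genus Qb F : ℤ) := by
        have : ((normOne (p : Divisor Qb F) : ℤ) : ℝ) ≤ 3 * (2 * g) := hnp
        have h6 : ((normOne (p : Divisor Qb F) : ℤ) : ℝ) ≤ ((6 * (genus Qb F : ℤ) : ℤ) : ℝ) := by
          push_cast
          linarith
        exact_mod_cast h6
      have hpos : posDeg (p : Divisor Qb F) ≤ 6 * (genus Qb F : ℤ) :=
        (posDeg_le_normOne _).trans hnp'
      have h := hC₁ f' (p : Divisor Qb F) (e : Divisor Qb F) hf' hrat' hdiv' hpos e.2.1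
      rw [e.2.2, Int.cast_zero, zero_mul, sub_zero] at h
      have hne' : ((normOne (e : Divisor Qb F) : ℤ) : ℝ) ≤ 6 * g := by
        have : ((normOne (e : Divisor Qb F) : ℤ) : ℝ) ≤ 3 * (2 * g) := hne
        linarith
      have hn0 : (0 : ℝ) ≤ ((normOne (e : Divisor Qb F) : ℤ) : ℝ) := by
        exact_mod_cast normOne_nonneg _
      show |S.pair (p : Divisor Qb F) (e : Divisor Qb F)| ≤ max C₁ 0 * (6 * g)
      calc |S.pair (p : Divisor Qb F) (e : Divisor Qb F)|
          ≤ C₁ * ((normOne (e : Divisor Qb F) : ℤ) : ℝ) := h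
        _ ≤ max C₁ 0 * ((normOne (e : Divisor Qb F) : ℤ) : ℝ) :=
            mul_le_mul_of_nonneg_right (le_max_left _ _) hn0
        _ ≤ max C₁ 0 * (6 * g) := mul_le_mul_of_nonneg_left hne' (le_max_right _ _))
  refine ⟨6 * (max C₁ 0 * (6 * g)), fun c c' hc hc' => ?_⟩
  exact key ⟨c, hc⟩ ⟨c', hc'⟩

end QP

end

end Fermat.Agent.MW.Global.QuasiPar2
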