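/-
Program MW-H (S17), brick A2 (helper74), part 1: RIEMANN-ROCH SPACES OF STABLE DIVISORS.

* `smul_mem_L` : a semilinear automorphism `g` maps `L(Z)` into `L(g • Z)` (any fields);
* `stable_L`   : for the standing data, `L(Z)` is `Γ`-stable when `Z` is;
* `exists_fixed_basis_L` : `L(Z)` has a `Γ`-fixed basis when `Z` is stable (Galois descent D1);
* `ratComb b q = ∑ (q i : ℚ̄) b i` and `isRational_ratComb` : rational combinations of fixed
  vectors are fixed;
* `exists_ratComb_avoiding` : rational combinations of a spanning family of `W` avoid any finite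
  family of subspaces none of which contains `W` (a `ℚ`-vector space is not a finite union of
  proper subspaces).
-/
import Mathlib
import Fermat.Agent.MW.Spec.Bricks7b
import Fermat.Agent.MW.Descent.GaloisDescent74
import Fermat.Agent.RR.RRMain

set_option autoImplicit false
set_option linter.unusedSectionVars false

open AlgebraicCurve

namespace Fermat.Agent.MW.Global.StableL74

open Fermat.Agent.MW.Spec.Defs7 Fermat.Agent.MW.Spec.Contract7
open Fermat.Agent.MW.Spec.Bricks7 Fermat.Agent.MW.Spec.Bricks7b
open Fermat.Agent.X0.FF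

noncomputable section

/-! ### Semilinear automorphisms and Riemann-Roch spaces -/

section General

variable {K F : Type*} [Field K] [Field F] [Algebra K F]

/-- A semilinear automorphism `g` maps `L(Z)` into `L(g • Z)`. -/
theorem smul_mem_L (g : SemilinearAut K F) (Z : Divisor K F) {f : F}
    (hf : f ∈ riemannRochSpace Z) : g • f ∈ riemannRochSpace (g • Z) := by
  rw [mem_riemannRochSpace_iff] at hf ⊢
  intro w
  rcases hf (g⁻¹ • w) with h0 | h1
  · left
    rw [h0, smul_zero]
  · right
    rw [SemilinearAut.divisor_smul_apply]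
    have h := SemilinearAut.ord_smul g (g⁻¹ • w) f
    rw [smul_inv_smul] at h
    rw [h]
    exact h1

end General

/-! ### The standing data -/

section Setup

variable {F : Type} [Field F] [Algebra Qb F] [HasCanonicalDivisor (K := Qb) (F := F)]
variable (S : HSetup F)

/-- `L(Z)` is `Γ`-stable when `Z` is. -/
theorem stable_L {Z : Divisor Qb F} (hZ : IsStable S.γ Z) (σ : GQ) {f : F}
    (hf : f ∈ riemannRochSpace Z) : S.γ σ • f ∈ riemannRochSpace Z := by
  have h := smul_mem_L (S.γ σ) Z hf
  rwa [hZ σ] at h

/-- `L(Z)` has a `Γ`-fixed basis when `Z` is stable. -/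
theorem exists_fixed_basis_L {Z : Divisor Qb F} (hZ : IsStable S.γ Z) :
    ∃ b : Fin (Module.finrank Qb (riemannRochSpace (K := Qb) (F := F) Z)) → F,
      (∀ (σ : GQ) i, S.γ σ • b i = b i) ∧ LinearIndependent Qb b ∧
        Submodule.span Qb (Set.range b) = riemannRochSpace Z :=
  Fermat.Agent.MW.Descent.GaloisDescent74.galoisDescent S (riemannRochSpace Z)
    (Fermat.Agent.RR.RRMain.finiteDimensional_L S.gen Z) (fun σ _ hf => stable_L S hZ σ hf)

/-- Rational combinations of a family of functions. -/
def ratComb {r : ℕ} (b : Fin r → F) (q : Fin r → ℚ) : F :=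
  ∑ i, algebraMap Qb F ((q i : ℚ) : Qb) * b i

theorem ratComb_mem {r : ℕ} (b : Fin r → F) (q : Fin r → ℚ) {W : Submodule Qb F}
    (hb : ∀ i, b i ∈ W) : ratComb b q ∈ W := by
  unfold ratComb
  refine Submodule.sum_mem _ fun i _ => ?_
  rw [← Algebra.smul_def]
  exact Submodule.smul_mem _ _ (hb i)

/-- Rational combinations of fixed functions are fixed. -/
theorem isRational_ratComb {r : ℕ} (b : Fin r → F) (hb : ∀ (σ : GQ) i, S.γ σ • b i = b i)
    (q : Fin r → ℚ) : IsRational S.γ (ratComb b q) := by
  intro σ
  unfold ratComb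
  rw [Finset.smul_sum]
  refine Finset.sum_congr rfl fun i _ => ?_
  rw [smul_mul', SemilinearAut.smul_algebraMap, S.base, hb σ i, map_ratCast]

end Setup

/-! ### Avoiding finitely many subspaces with rational combinations -/

section Avoid

variable {F : Type} [Field F] [Algebra Qb F]

theorem ratComb_zero {r : ℕ} (b : Fin r → F) : ratComb b 0 = 0 := by
  unfold ratComb
  refine Finset.sum_eq_zero fun i _ => ?_
  rw [Pi.zero_apply, Rat.cast_zero, map_zero, zero_mul]

theorem ratComb_add {r : ℕ} (b : Fin r → F) (q q' : Fin r → ℚ) :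
    ratComb b (q + q') = ratComb b q + ratComb b q' := by
  unfold ratComb
  rw [← Finset.sum_add_distrib]
  refine Finset.sum_congr rfl fun i _ => ?_
  rw [Pi.add_apply, Rat.cast_add, map_add, add_mul]

theorem ratComb_smul {r : ℕ} (b : Fin r → F) (c : ℚ) (q : Fin r → ℚ) :
    ratComb b (c • q) = ((c : ℚ) : Qb) • ratComb b q := by
  unfold ratComb
  rw [Finset.smul_sum]
  refine Finset.sum_congr rfl fun i _ => ?_
  rw [Pi.smul_apply, smul_eq_mul, Rat.cast_mul, map_mul, Algebra.smul_def, mul_assoc]

theorem ratComb_single {r : ℕ} (b : Fin r → F) (i : Fin r) :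
    ratComb b (Pi.single i 1) = b i := by
  classical
  unfold ratComb
  rw [Finset.sum_eq_single i]
  · rw [Pi.single_eq_same, Rat.cast_one, map_one, one_mul]
  · intro j _ hj
    rw [Pi.single_eq_of_ne hj, Rat.cast_zero, map_zero, zero_mul]
  · intro h
    exact absurd (Finset.mem_univ i) h

/-- The `ℚ`-subspace of coefficient vectors whose rational combination lies in `W`. -/
def coeffSub {r : ℕ} (b : Fin r → F) (W : Submodule Qb F) : Submodule ℚ (Fin r → ℚ) where
  carrier := {q | ratComb b q ∈ W}
  zero_mem' := by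
    change ratComb b 0 ∈ W
    rw [ratComb_zero]
    exact W.zero_mem
  add_mem' := by
    intro q q' hq hq'
    change ratComb b (q + q') ∈ W
    rw [ratComb_add]
    exact W.add_mem hq hq'
  smul_mem' := by
    intro c q hq
    change ratComb b (c • q) ∈ W
    rw [ratComb_smul]
    exact W.smul_mem _ hq

theorem mem_coeffSub {r : ℕ} (b : Fin r → F) (W : Submodule Qb F) (q : Fin r → ℚ) :
    q ∈ coeffSub b W ↔ ratComb b q ∈ W := Iff.rfl

/-- **Avoidance.**  If `b` spans `W` and none of the finitely many subspaces `Ws j` contains `W`,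
some rational combination of `b` lies in none of the `Ws j`. -/
theorem exists_ratComb_avoiding {r : ℕ} (b : Fin r → F) {W : Submodule Qb F}
    (hspan : Submodule.span Qb (Set.range b) = W) {ι : Type*} [Finite ι]
    (Ws : ι → Submodule Qb F) (hWs : ∀ j, ¬ W ≤ Ws j) :
    ∃ q : Fin r → ℚ, ∀ j, ratComb b q ∉ Ws j := by
  classical
  by_contra hcon
  push Not at hcon
  have hcov : ⋃ j, ((coeffSub b (Ws j) : Submodule ℚ (Fin r → ℚ)) : Set (Fin r → ℚ)) =
      Set.univ := by
    refine Set.eq_univ_of_forall fun q => ?_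
    obtain ⟨j, hj⟩ := hcon q
    exact Set.mem_iUnion.mpr ⟨j, hj⟩
  obtain ⟨j, hj⟩ := Subspace.exists_eq_top_of_iUnion_eq_univ hcov
  apply hWs j
  rw [← hspan, Submodule.span_le]
  rintro _ ⟨i, rfl⟩
  have hmem : (Pi.single i 1 : Fin r → ℚ) ∈ coeffSub b (Ws j) := by
    rw [hj]
    exact Submodule.mem_top
  rw [mem_coeffSub, ratComb_single] at hmem
  exact hmem

end Avoid

end

end Fermat.Agent.MW.Global.StableL74
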