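/-
Program MW-H (S17), brick A2 (helper74), part 2: RATIONAL MEMBERS OF A STABLE LINEAR SYSTEM WITH
PAIRWISE DISJOINT SUPPORTS.

For a `Γ`-stable divisor `Z` of degree `≥ 2g` the complete linear system `|Z|` is base point free
and `L(Z)` has a `Γ`-fixed basis; since a `ℚ`-vector space is not a finite union of proper
subspaces, for every `r` there are `r` rational members `A j = Z + div (f j) ≥ 0` with pairwise
disjoint supports.

* `IsRatMember S Z A` : `A = Z + div f ≥ 0` for a nonzero `Γ`-fixed `f`;
* `exists_member_avoiding` : a rational member avoiding a finite set of places;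
* `exists_disjoint_family` : `r` rational members with pairwise disjoint supports;
* `exists_disjoint_of_card_lt` : pigeonhole;
* `card_support_le_degree`, `degree_nonneg`, `normOne_eq_degree` for effective divisors.
-/
import Mathlib
import Fermat.Agent.MW.Global.StableL74
import Fermat.Agent.MW.FF.VeryAmple49

set_option autoImplicit false
set_option linter.unusedSectionVars false

open AlgebraicCurve

namespace Fermat.Agent.MW.Global.DisjointFamily74

open Fermat.Agent.MW.Spec.Defs7 Fermat.Agent.MW.Spec.Contract7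
open Fermat.Agent.MW.Spec.Bricks7 Fermat.Agent.MW.Spec.Bricks7b
open Fermat.Agent.X0.FF Fermat.Agent.MW.Global.StableL74

noncomputable section

/-! ### Pigeonhole -/

/-- Among `r` pairwise disjoint finite sets, one is disjoint from a given set with fewer than `r`
elements. -/
theorem exists_disjoint_of_card_lt {α : Type*} [DecidableEq α] {r : ℕ} (A : Fin r → Finset α)
    (hA : ∀ i j, i ≠ j → Disjoint (A i) (A j)) (s : Finset α) (hs : s.card < r) :
    ∃ j, Disjoint (A j) s := by
  by_contra hcon
  push Not at hcon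
  have hex : ∀ j, ∃ a, a ∈ A j ∧ a ∈ s := fun j => Finset.not_disjoint_iff.mp (hcon j)
  choose a haA has using hex
  have hinj : Function.Injective a := by
    intro i j hij
    by_contra hne
    have h1 : a i ∈ A j := hij ▸ haA j
    exact (Finset.disjoint_left.mp (hA i j hne) (haA i)) h1
  have hcard : (Finset.univ : Finset (Fin r)).card ≤ s.card :=
    Finset.card_le_card_of_injOn a (fun i _ => has i) hinj.injOn
  rw [Finset.card_univ, Fintype.card_fin] at hcard
  omega

/-! ### Effective divisors -/

section Effective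

variable {F : Type} [Field F] [Algebra Qb F] [HasCanonicalDivisor (K := Qb) (F := F)]
variable (S : HSetup F)

include S

theorem degree_eq_sum (D : Divisor Qb F) : Divisor.degree D = ∑ v ∈ D.support, D v :=
  ffq_degree_eq_sum (Fermat.Agent.X0.FFGenus.ff1Data S.gen) D

theorem degree_nonneg {D : Divisor Qb F} (hD : 0 ≤ D) : 0 ≤ Divisor.degree D := by
  rw [degree_eq_sum S]
  exact Finset.sum_nonneg fun v _ => hD v

theorem card_support_le_degree {D : Divisor Qb F} (hD : 0 ≤ D) :
    (D.support.card : ℤ) ≤ Divisor.degree D := by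
  rw [degree_eq_sum S, Finset.card_eq_sum_ones]
  push_cast
  refine Finset.sum_le_sum fun v hv => ?_
  have h0 : 0 ≤ D v := hD v
  have h1 : D v ≠ 0 := Finsupp.mem_support_iff.mp hv
  omega

theorem normOne_eq_degree {D : Divisor Qb F} (hD : 0 ≤ D) : normOne D = Divisor.degree D := by
  rw [degree_eq_sum S]
  unfold normOne
  rw [Finsupp.sum]
  refine Finset.sum_congr rfl fun v _ => ?_
  exact abs_of_nonneg (hD v)

theorem degree_single_inf (k : ℤ) : Divisor.degree (Finsupp.single S.inf k) = k :=
  Fermat.Agent.MW.FF.VeryAmple49.degree_single' S.gen S.inf k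

theorem degree_of_isDivOf {f : F} (hf : f ≠ 0) {Dv : Divisor Qb F} (hDv : IsDivOf Dv f) :
    Divisor.degree Dv = 0 :=
  ffq_degree_eq_zero_of_principal (Fermat.Agent.X0.FFGenus.ff1Data S.gen) hf Dv hDv

theorem exists_isDivOf {f : F} (hf : f ≠ 0) : ∃ Dv : Divisor Qb F, IsDivOf Dv f := by
  obtain ⟨Dv, hDv, _⟩ :=
    (Fermat.Agent.X0.FFGenus.hasPrincipalDivisors S.gen).exists_divisor f hf
  exact ⟨Dv, hDv⟩

end Effective

/-! ### Rational members of a stable linear system -/

section Members

variable {F : Type} [Field F] [Algebra Qb F] [HasCanonicalDivisor (K := Qb) (F := F)]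
variable (S : HSetup F)

/-- `A = Z + div f ≥ 0` for a nonzero `Γ`-fixed function `f`. -/
def IsRatMember (Z A : Divisor Qb F) : Prop :=
  ∃ (f : F) (Dv : Divisor Qb F), f ≠ 0 ∧ IsRational S.γ f ∧ IsDivOf Dv f ∧ A = Z + Dv ∧ 0 ≤ A

theorem IsRatMember.degree_eq {Z A : Divisor Qb F} (h : IsRatMember S Z A) :
    Divisor.degree A = Divisor.degree Z := by
  obtain ⟨f, Dv, hf, _, hDv, rfl, _⟩ := h
  rw [map_add, degree_of_isDivOf S hf hDv, add_zero]

include S in
theorem L_ne_bot {Z : Divisor Qb F} (hdeg : 2 * (genus Qb F : ℤ) ≤ Divisor.degree Z) :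
    ¬ riemannRochSpace (K := Qb) (F := F) Z ≤ ⊥ := by
  intro hle
  have hbot : riemannRochSpace (K := Qb) (F := F) Z = ⊥ := le_bot_iff.mp hle
  have h2 := Fermat.Agent.RR.RRMain.finrank_L_of_degree_gt S.gen Z (by omega)
  rw [hbot, finrank_bot] at h2
  push_cast at h2
  omega

/-- A rational member of `|Z|` avoiding a given finite set of places. -/
theorem exists_member_avoiding {Z : Divisor Qb F} (hZ : IsStable S.γ Z)
    (hdeg : 2 * (genus Qb F : ℤ) ≤ Divisor.degree Z) (T : Finset (Place Qb F)) :
    ∃ A : Divisor Qb F, IsRatMember S Z A ∧ ∀ P ∈ T, A P = 0 := by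
  classical
  obtain ⟨b, hbfix, -, hbspan⟩ := exists_fixed_basis_L S hZ
  have hbmem : ∀ i, b i ∈ riemannRochSpace (K := Qb) (F := F) Z := by
    intro i
    rw [← hbspan]
    exact Submodule.subset_span ⟨i, rfl⟩
  -- the subspaces to avoid: `⊥` and the `L(Z - P)`, `P ∈ T`
  let Ws : Option T → Submodule Qb F := fun o =>
    match o with
    | none => ⊥
    | some P => riemannRochSpace (K := Qb) (F := F) (Z - Finsupp.single (P : Place Qb F) 1)
  have hWs : ∀ o, ¬ riemannRochSpace (K := Qb) (F := F) Z ≤ Ws o := by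
    intro o
    cases o with
    | none => exact L_ne_bot S hdeg
    | some P =>
      intro hle
      obtain ⟨f, hf, hnf⟩ :=
        Fermat.Agent.MW.FF.VeryAmple49.exists_mem_L_not_mem S.gen Z (P : Place Qb F) hdeg
      exact hnf (hle hf)
  obtain ⟨q, hq⟩ := exists_ratComb_avoiding b hbspan Ws hWs
  set f := ratComb b q with hfdef
  have hf0 : f ≠ 0 := by
    intro h0
    exact hq none (by rw [h0]; exact Submodule.zero_mem _)
  have hfL : f ∈ riemannRochSpace (K := Qb) (F := F) Z := ratComb_mem b q hbmem
  obtain ⟨Dv, hDv⟩ := exists_isDivOf S hf0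
  have hfL' := mem_riemannRochSpace_iff.mp hfL
  refine ⟨Z + Dv, ⟨f, Dv, hf0, isRational_ratComb S b hbfix q, hDv, rfl, ?_⟩, ?_⟩
  · intro v
    rw [Finsupp.add_apply, hDv v]
    rcases hfL' v with h0 | h1
    · exact absurd h0 hf0
    · change (0 : ℤ) ≤ Z v + v.ord f
      omega
  · intro P hP
    rw [Finsupp.add_apply, hDv P]
    have hnot : f ∉ riemannRochSpace (K := Qb) (F := F) (Z - Finsupp.single P 1) :=
      hq (some ⟨P, hP⟩)
    rw [Fermat.Agent.MW.FF.VeryAmple49.mem_L_sub_single] at hnot
    have h1 : -(Z P) ≤ P.ord f := by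
      rcases hfL' P with h0 | h1
      · exact absurd h0 hf0
      · exact h1
    have h2 : ¬ (-(Z P) + 1 ≤ P.ord f) := fun h => hnot ⟨hfL, Or.inr h⟩
    omega

/-- **Disjoint families.**  For every `r` there are `r` rational members of `|Z|` with pairwise
disjoint supports. -/
theorem exists_disjoint_family {Z : Divisor Qb F} (hZ : IsStable S.γ Z)
    (hdeg : 2 * (genus Qb F : ℤ) ≤ Divisor.degree Z) (r : ℕ) :
    ∃ A : Fin r → Divisor Qb F, (∀ j, IsRatMember S Z (A j)) ∧
      ∀ i j, i ≠ j → Disjoint (A i).support (A j).support := by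
  classical
  induction r with
  | zero => exact ⟨fun j => j.elim0, fun j => j.elim0, fun i => i.elim0⟩
  | succ r ih =>
    obtain ⟨A, hA, hdisj⟩ := ih
    obtain ⟨A', hA', havoid⟩ :=
      exists_member_avoiding S hZ hdeg (Finset.univ.biUnion fun j => (A j).support)
    have hnew : ∀ j, Disjoint A'.support (A j).support := by
      intro j
      rw [Finset.disjoint_left]
      intro P hP hPj
      have : A' P = 0 := havoid P (Finset.mem_biUnion.mpr ⟨j, Finset.mem_univ j, hPj⟩)
      exact (Finsupp.mem_support_iff.mp hP) this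
    refine ⟨Fin.cons A' A, ?_, ?_⟩
    · intro j
      refine Fin.cases ?_ (fun j' => ?_) j
      · rw [Fin.cons_zero]; exact hA'
      · rw [Fin.cons_succ]; exact hA j'
    · intro i j
      refine Fin.cases ?_ (fun i' => ?_) i <;> refine Fin.cases ?_ (fun j' => ?_) j
      · intro h; exact absurd rfl h
      · intro _
        rw [Fin.cons_zero, Fin.cons_succ]
        exact hnew j'
      · intro _
        rw [Fin.cons_zero, Fin.cons_succ]
        exact (hnew i').symm
      · intro h
        rw [Fin.cons_succ, Fin.cons_succ]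
        exact hdisj i' j' (fun h' => h (congrArg Fin.succ h'))

end Members

end

end Fermat.Agent.MW.Global.DisjointFamily74
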