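/-
Program MW-H (S17), brick A2 (helper74), part 3: `S.EpsComparison`.

Heights relative to stable divisors of the same degree are `ε`-equivalent: for a stable `E` of
degree `e`, `|pair E D - e · hn D| ≤ ε |hn D| + C` for effective stable `D` of bounded degree.

Proof.  `E₀ := E - e · inf` is stable of degree `0`.  For `N ≥ 1` the divisors
`Z± := ±N E₀ + 2g · inf` are stable of degree `2g`, so `|Z±|` contains `d₀ + 1` rational members
with pairwise disjoint supports (`DisjointFamily74`); one of them, `A = Z± + div f`, is disjoint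
from `D` (pigeonhole), hence `pair A D ≥ -(deg A)(deg D) log 2` (`pair_ge_of_disjoint`), while
`pair (div f) D = deg D · c(f) + O(deg D)` by the global uniform decomposition (G1).  So
`pair Z± D ≥ -C±` (`pair_lower_bound`), i.e. `±N · pair E₀ D + 2g · hn D ≥ -C±`; divide by `N`.

* `pair_single_ge` : `pair P Q ≥ - log 2` for `P ≠ Q`;
* `pair_ge_of_disjoint` : lower bound for the pairing of effective divisors with disjoint supports;
* `pair_lower_bound (hG1 : S.GlobalUD)` : `pair Z D ≥ -C` for stable `Z` of degree `≥ 2g`;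
* `epsComparison (hG1 : S.GlobalUD) : S.EpsComparison`.
-/
import Mathlib
import Fermat.Agent.MW.Global.DisjointFamily74
import Fermat.Agent.MW.Global.HnLower2

set_option autoImplicit false
set_option linter.unusedSectionVars false

open AlgebraicCurve

namespace Fermat.Agent.MW.Global.EpsComparison74

open Function
open Fermat.Agent.MW.Hadamard7 Fermat.Agent.MW.Spec.Defs7 Fermat.Agent.MW.Spec.Contract7
open Fermat.Agent.MW.Spec.Bricks7 Fermat.Agent.MW.Spec.Bricks7b
open Fermat.Agent.MW.Local.Chord2 Fermat.Agent.MW.Arith.ProductFormula62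
open Fermat.Agent.MW.Global.PairBasic2 Fermat.Agent.MW.Global.HnLower2
open Fermat.Agent.MW.Global.StableL74 Fermat.Agent.MW.Global.DisjointFamily74

noncomputable section

variable {F : Type} [Field F] [Algebra Qb F] [HasCanonicalDivisor (K := Qb) (F := F)]
variable (S : HSetup F)

/-! ### Lower bounds for disjoint effective divisors -/

/-- The global pair function of two distinct places is at least `- log 2`. -/
theorem pair_single_ge {P Q : Place Qb F} (hPQ : P ≠ Q) :
    -Real.log 2 ≤ S.pair (Finsupp.single P 1) (Finsupp.single Q 1) := by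
  have h0 : S.pair (Finsupp.single P 1) (Finsupp.single Q 1) =
      S.A.gsum fun p => lamAt (S.A.abv p) S.x S.t P Q := by
    rw [pair_def]
    congr 1
    funext p
    rw [pairAt_single_single]
    simp
  rw [h0]
  have h1 : S.A.gsum (fun p => -Real.log (triC (S.A.abv p) 2)) ≤
      S.A.gsum fun p => lamAt (S.A.abv p) S.x S.t P Q := by
    refine gsum_le_gsum S.A ?_ (hasFiniteSupport_lamAt S.A S.x S.t P Q) fun p =>
      lamAt_ge _ _ _ hPQ
    have := hasFiniteSupport_log_triC S.A 2
    refine this.subset ?_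
    intro p hp
    simp only [Function.mem_support, ne_eq, neg_eq_zero] at hp
    exact hp
  refine le_trans ?_ h1
  rw [gsum_neg, neg_le_neg_iff]
  exact_mod_cast gsum_log_triC_le S.A (k := 2) (by norm_num)

/-- The pairing of two effective divisors with disjoint supports is bounded below by
`-(deg A)(deg D) log 2`. -/
theorem pair_ge_of_disjoint {A D : Divisor Qb F} (hA : 0 ≤ A) (hD : 0 ≤ D)
    (hdisj : Disjoint A.support D.support) :
    -(((Divisor.degree A : ℤ) : ℝ) * ((Divisor.degree D : ℤ) : ℝ) * Real.log 2) ≤ S.pair A D := by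
  rw [pair_eq_sum]
  have hterm : ∀ P ∈ A.support, ∀ Q ∈ D.support,
      (A P : ℝ) * (D Q : ℝ) * (-Real.log 2) ≤
        (A P : ℝ) * (D Q : ℝ) * S.pair (Finsupp.single P 1) (Finsupp.single Q 1) := by
    intro P hP Q hQ
    have hPQ : P ≠ Q := by
      rintro rfl
      exact (Finset.disjoint_left.mp hdisj hP) hQ
    have hAP : (0 : ℝ) ≤ (A P : ℝ) := by
      have : (0 : ℤ) ≤ A P := hA P
      exact_mod_cast this
    have hDQ : (0 : ℝ) ≤ (D Q : ℝ) := by
      have : (0 : ℤ) ≤ D Q := hD Q
      exact_mod_cast this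
    exact mul_le_mul_of_nonneg_left (pair_single_ge S hPQ) (mul_nonneg hAP hDQ)
  have hsum : (∑ P ∈ A.support, ∑ Q ∈ D.support, (A P : ℝ) * (D Q : ℝ) * (-Real.log 2)) =
      -(((Divisor.degree A : ℤ) : ℝ) * ((Divisor.degree D : ℤ) : ℝ) * Real.log 2) := by
    rw [DisjointFamily74.degree_eq_sum S A, DisjointFamily74.degree_eq_sum S D]
    push_cast
    rw [Finset.sum_mul_sum, Finset.sum_mul, ← Finset.sum_neg_distrib]
    refine Finset.sum_congr rfl fun P _ => ?_
    rw [Finset.sum_mul, ← Finset.sum_neg_distrib]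
    refine Finset.sum_congr rfl fun Q _ => ?_
    ring
  rw [← hsum]
  exact Finset.sum_le_sum fun P hP => Finset.sum_le_sum fun Q hQ => hterm P hP Q hQ

/-! ### The one-sided bound -/

/-- **One-sided bound.**  For a stable divisor `Z` of degree `≥ 2g` the pairing `pair Z D` is
bounded below on effective stable divisors `D` of bounded degree. -/
theorem pair_lower_bound (hG1 : S.GlobalUD) {Z : Divisor Qb F} (hZ : IsStable S.γ Z)
    (hdeg : 2 * (genus Qb F : ℤ) ≤ Divisor.degree Z) (d₀ : ℤ) :
    ∃ C : ℝ, ∀ D : Divisor Qb F, 0 ≤ D → IsStable S.γ D → Divisor.degree D ≤ d₀ →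
      -C ≤ S.pair Z D := by
  classical
  obtain ⟨A, hAmem, hAdisj⟩ := exists_disjoint_family S hZ hdeg (d₀.toNat + 1)
  choose f Dv hf0 hfrat hDv hAeq hApos using hAmem
  -- the degree bound for the uniform decomposition
  set d : ℤ := ∑ j, posDeg (Dv j) with hd
  have hposDeg_nonneg : ∀ j, 0 ≤ posDeg (Dv j) := by
    intro j
    unfold posDeg
    rw [Finsupp.sum]
    exact Finset.sum_nonneg fun P _ => le_max_right _ _
  have hposDeg_le : ∀ j, posDeg (Dv j) ≤ d := fun j =>
    Finset.single_le_sum (f := fun j => posDeg (Dv j)) (fun i _ => hposDeg_nonneg i)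
      (Finset.mem_univ j)
  obtain ⟨C₁, hC₁⟩ := hG1 d
  -- the constants `c (f j)`
  set c : Fin (d₀.toNat + 1) → ℝ := fun j => cOf S.A S.x S.t S.inf (f j) (Dv j) with hc
  set M : ℝ := ∑ j, |c j| with hM
  have hcM : ∀ j, |c j| ≤ M := fun j =>
    Finset.single_le_sum (f := fun j => |c j|) (fun i _ => abs_nonneg (c i)) (Finset.mem_univ j)
  set z : ℝ := ((Divisor.degree Z : ℤ) : ℝ) with hz
  have hz0 : 0 ≤ z := by
    have : (0 : ℤ) ≤ Divisor.degree Z := le_trans (by positivity) hdeg
    rw [hz]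
    exact_mod_cast this
  have hlog : 0 ≤ Real.log 2 := Real.log_nonneg (by norm_num)
  refine ⟨max (d₀ : ℝ) 0 * (z * Real.log 2 + M + |C₁|), fun D hD hDst hDdeg => ?_⟩
  -- the degree of `D`
  set δ : ℝ := ((Divisor.degree D : ℤ) : ℝ) with hδ
  have hδ0 : 0 ≤ δ := by
    rw [hδ]
    exact_mod_cast DisjointFamily74.degree_nonneg S hD
  have hδd : δ ≤ max (d₀ : ℝ) 0 := by
    rw [hδ]
    exact le_trans (by exact_mod_cast hDdeg) (le_max_left _ _)
  -- pigeonhole
  have hcard : D.support.card < d₀.toNat + 1 := by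
    have h1 := card_support_le_degree S hD
    have h2 : (D.support.card : ℤ) ≤ d₀ := le_trans h1 hDdeg
    have h3 : (D.support.card : ℤ) ≤ (d₀.toNat : ℤ) := le_trans h2 (Int.self_le_toNat d₀)
    have h4 : D.support.card ≤ d₀.toNat := by exact_mod_cast h3
    omega
  obtain ⟨j, hj⟩ := exists_disjoint_of_card_lt (fun j => (A j).support) hAdisj D.support hcard
  -- the member `A j` is disjoint from `D`
  have hdegA : Divisor.degree (A j) = Divisor.degree Z :=
    IsRatMember.degree_eq S ⟨f j, Dv j, hf0 j, hfrat j, hDv j, hAeq j, hApos j⟩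
  have h1 := pair_ge_of_disjoint S (hApos j) hD hj
  rw [hdegA] at h1
  -- the principal part
  have h2 := hC₁ (f j) (Dv j) D (hf0 j) (hfrat j) (hDv j) (hposDeg_le j) hDst
  rw [normOne_eq_degree S hD] at h2
  have h2' : S.pair (Dv j) D ≤ δ * c j + C₁ * δ := by
    have := (abs_le.mp h2).2
    have hpair : Fermat.Agent.MW.Spec.Contract7.pair S.A S.x S.t (Dv j) D = S.pair (Dv j) D := rfl
    rw [hpair] at this
    linarith
  -- `Z = A j - Dv j`
  have hZeq : Z = A j - Dv j := by
    rw [hAeq j, add_sub_cancel_right]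
  have hpairZ : S.pair Z D = S.pair (A j) D - S.pair (Dv j) D := by
    conv_lhs => rw [hZeq]
    exact pair_sub_left S _ _ _
  rw [hpairZ]
  have hc1 : δ * c j ≤ δ * M :=
    mul_le_mul_of_nonneg_left (le_trans (le_abs_self _) (hcM j)) hδ0
  have hc2 : C₁ * δ ≤ |C₁| * δ := mul_le_mul_of_nonneg_right (le_abs_self _) hδ0
  have hM0 : 0 ≤ M := Finset.sum_nonneg fun i _ => abs_nonneg (c i)
  have hbr : 0 ≤ z * Real.log 2 + M + |C₁| := by positivity
  have hfin : δ * (z * Real.log 2 + M + |C₁|) ≤ max (d₀ : ℝ) 0 * (z * Real.log 2 + M + |C₁|) :=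
    mul_le_mul_of_nonneg_right hδd hbr
  nlinarith

/-! ### The comparison theorem -/

theorem isStable_single_inf (k : ℤ) : IsStable S.γ (Finsupp.single S.inf k) := by
  intro σ
  rw [SemilinearAut.smul_single, S.inf_fixed]

theorem isStable_add {D E : Divisor Qb F} (hD : IsStable S.γ D) (hE : IsStable S.γ E) :
    IsStable S.γ (D + E) := by
  intro σ
  rw [smul_add, hD σ, hE σ]

theorem isStable_neg {D : Divisor Qb F} (hD : IsStable S.γ D) : IsStable S.γ (-D) := by
  intro σ
  rw [smul_neg, hD σ]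

theorem isStable_sub {D E : Divisor Qb F} (hD : IsStable S.γ D) (hE : IsStable S.γ E) :
    IsStable S.γ (D - E) := by
  rw [sub_eq_add_neg]
  exact isStable_add S hD (isStable_neg S hE)

theorem isStable_nsmul {D : Divisor Qb F} (hD : IsStable S.γ D) (N : ℕ) :
    IsStable S.γ (N • D) := by
  induction N with
  | zero =>
    intro σ
    rw [zero_smul, smul_zero]
  | succ N ih =>
    rw [succ_nsmul]
    exact isStable_add S ih hD

theorem pair_single_inf_left (k : ℤ) (D : Divisor Qb F) :
    S.pair (Finsupp.single S.inf k) D = (k : ℝ) * S.hn D := by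
  have h : (Finsupp.single S.inf k : Divisor Qb F) = k • Finsupp.single S.inf 1 := by
    rw [Finsupp.smul_single, smul_eq_mul, mul_one]
  rw [h, pair_zsmul_left, hn_def]

/-- **Brick A2**: heights relative to stable divisors of the same degree are `ε`-equivalent. -/
theorem epsComparison (hG1 : S.GlobalUD) : S.EpsComparison := by
  intro E hE d₀ ε hε
  set g : ℤ := (genus Qb F : ℤ) with hg
  set e : ℤ := Divisor.degree E with he
  set E₀ : Divisor Qb F := E - Finsupp.single S.inf e with hE₀
  have hE₀st : IsStable S.γ E₀ := isStable_sub S hE (isStable_single_inf S e)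
  have hE₀deg : Divisor.degree E₀ = 0 := by
    rw [hE₀, map_sub, degree_single_inf S, he, sub_self]
  -- the multiplier `N`
  obtain ⟨N, hN⟩ := exists_nat_gt ((2 * (g : ℝ)) / ε)
  have hg0 : (0 : ℝ) ≤ (g : ℝ) := by
    rw [hg]
    exact_mod_cast Nat.zero_le _
  have hNpos : (0 : ℝ) < (N : ℝ) := lt_of_le_of_lt (by positivity) hN
  have hNε : 2 * (g : ℝ) ≤ ε * (N : ℝ) := by
    have := (div_lt_iff₀ hε).mp hN
    linarith
  -- the two divisors of degree `2g`
  set Zp : Divisor Qb F := N • E₀ + Finsupp.single S.inf (2 * g) with hZp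
  set Zm : Divisor Qb F := -(N • E₀) + Finsupp.single S.inf (2 * g) with hZm
  have hZpst : IsStable S.γ Zp :=
    isStable_add S (isStable_nsmul S hE₀st N) (isStable_single_inf S _)
  have hZmst : IsStable S.γ Zm :=
    isStable_add S (isStable_neg S (isStable_nsmul S hE₀st N)) (isStable_single_inf S _)
  have hZpdeg : 2 * (genus Qb F : ℤ) ≤ Divisor.degree Zp := by
    rw [hZp, map_add, map_nsmul, hE₀deg, degree_single_inf S, smul_zero, zero_add]
  have hZmdeg : 2 * (genus Qb F : ℤ) ≤ Divisor.degree Zm := by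
    rw [hZm, map_add, map_neg, map_nsmul, hE₀deg, degree_single_inf S, smul_zero, neg_zero,
      zero_add]
  obtain ⟨Cp, hCp⟩ := pair_lower_bound S hG1 hZpst hZpdeg d₀
  obtain ⟨Cm, hCm⟩ := pair_lower_bound S hG1 hZmst hZmdeg d₀
  refine ⟨(|Cp| + |Cm|) / (N : ℝ), fun D hD hDst hDdeg _ => ?_⟩
  have hp := hCp D hD hDst hDdeg
  have hm := hCm D hD hDst hDdeg
  -- the quantity to be bounded
  set X : ℝ := S.pair E₀ D with hX
  set h : ℝ := S.hn D with hh
  have hXeq : S.pair E D - ((Divisor.degree E : ℤ) : ℝ) * S.hn D = X := by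
    rw [hX, hE₀, pair_sub_left, pair_single_inf_left]
  have hZpD : S.pair Zp D = (N : ℝ) * X + 2 * (g : ℝ) * h := by
    rw [hZp, pair_add_left, pair_nsmul_left, pair_single_inf_left]
    push_cast
    ring
  have hZmD : S.pair Zm D = -((N : ℝ) * X) + 2 * (g : ℝ) * h := by
    rw [hZm, pair_add_left, pair_neg_left, pair_nsmul_left, pair_single_inf_left]
    push_cast
    ring
  rw [hZpD] at hp
  rw [hZmD] at hm
  rw [hXeq]
  -- `N |X| ≤ 2g |h| + |Cp| + |Cm|`
  have habs : (N : ℝ) * |X| ≤ 2 * (g : ℝ) * |h| + (|Cp| + |Cm|) := by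
    have h1 : h ≤ |h| := le_abs_self h
    have h2 : Cp ≤ |Cp| := le_abs_self Cp
    have h3 : Cm ≤ |Cm| := le_abs_self Cm
    have h4 : 0 ≤ |Cp| := abs_nonneg Cp
    have h5 : 0 ≤ |Cm| := abs_nonneg Cm
    have h6 : 2 * (g : ℝ) * h ≤ 2 * (g : ℝ) * |h| :=
      mul_le_mul_of_nonneg_left h1 (by positivity)
    rcases abs_cases X with ⟨hXa, _⟩ | ⟨hXa, _⟩
    · rw [hXa]; linarith
    · rw [hXa]; linarith
  have hfinal : |X| ≤ (2 * (g : ℝ) * |h| + (|Cp| + |Cm|)) / (N : ℝ) := by
    rw [le_div_iff₀ hNpos]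
    linarith
  refine le_trans hfinal ?_
  rw [add_div]
  have h7 : 2 * (g : ℝ) * |h| / (N : ℝ) ≤ ε * |h| := by
    rw [div_le_iff₀ hNpos]
    have := mul_le_mul_of_nonneg_right hNε (abs_nonneg h)
    linarith
  linarith

end

end Fermat.Agent.MW.Global.EpsComparison74
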