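import Mathlib
import Fermat.Agent.MW.Global.HnLower2
import Fermat.Agent.MW.FF.EvalLead49
import Fermat.Agent.MW.Arith.StableProduct49


/-!
# MW-H brick G1 (`GlobalUD`)  (helper2)

Plan #590 v3, package [b], part 3:  `MasterUD → GlobalUD`.

For a rational `f ≠ 0` with divisor `D`, a stable `E` and a place `p` of `ℚ`,

  `pairAt_p D E - deg E · Φ_p(f; inf)
      = ∑_Q E(Q) (Φ_p(f; Q) - Φ_p(f; inf)) - log |∏_Q lead_Q(f) ^ E(Q)|_p`.

The first sum is bounded by `‖E‖₁ · log C_p` (local uniform decomposition with tame constants,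
so `∑_p log C_p` is a finite sum); the product `∏_Q lead_Q(f) ^ E(Q)` is a nonzero
Galois-fixed number (`E` stable, `f` rational, equivariant uniformisers, equivariance of
leading coefficients `EvalLead49.leadAt_smul_aut`), hence a nonzero rational number, and its
contribution vanishes after summation over `p` by the product formula.

* `hfs_add`, `hfs_sub`, `hfs_const_mul`; `hasFiniteSupport_log_tame`, `log_tame_nonneg`.
* `pairAt_single_right`, `pairAt_eq_sum_right`, `phiAt_def`, `pairAt_sub_degree_mul_phiAt`,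
  `normOne_cast`, `abs_sum_phiAt_le`.
* `gsum_log_eq_zero_of_fixed` : product formula for a nonzero Galois-fixed element of `ℚ̄`.
* `hasResK`, `lead`, `lead_ne_zero`, `lead_smul`, `leadProd`, `leadProd_ne_zero`, `leadProd_fixed`,
  `log_abv_leadProd`, `hasFiniteSupport_phiAt`.
* `globalUD (S : HSetup F) (hU : S.MasterUD) : S.GlobalUD`, with the explicit constant
  `C = ∑_p log C_p`;  `globalUD'` is the same statement with the (now superfluous) hypotheses
  `LeadMul`, `EvalEquivariant` announced in the claim.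
-/

set_option autoImplicit false
set_option linter.unusedSectionVars false

open AlgebraicCurve

namespace Fermat.Agent.MW.Global.GlobalUD2

open Function
open Fermat.Agent.MW.Hadamard7 Fermat.Agent.MW.Spec.Defs7 Fermat.Agent.MW.Spec.Contract7
open Fermat.Agent.MW.Spec.Bricks7 Fermat.Agent.MW.Spec.Bricks7b
open Fermat.Agent.MW.Local.Chord2 Fermat.Agent.MW.Arith.ProductFormula62
open Fermat.Agent.MW.Global.PairBasic2 Fermat.Agent.MW.Global.HnLower2
open Fermat.Agent.MW.FF

open scoped Classical

noncomputable section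

/-! ### Finitely supported families of real numbers indexed by the places of `ℚ` -/

section HFS

variable {f g : Option Nat.Primes → ℝ}

theorem hfs_add (hf : HasFiniteSupport f) (hg : HasFiniteSupport g) :
    HasFiniteSupport fun p => f p + g p :=
  (hf.union hg).subset (support_add _ _)

theorem hfs_sub (hf : HasFiniteSupport f) (hg : HasFiniteSupport g) :
    HasFiniteSupport fun p => f p - g p :=
  (hf.union hg).subset (support_sub _ _)

theorem hfs_const_mul (c : ℝ) (hf : HasFiniteSupport f) :
    HasFiniteSupport fun p => c * f p := by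
  refine hf.subset fun p hp => ?_
  simp only [Function.mem_support, ne_eq] at hp ⊢
  intro h0
  apply hp
  rw [h0, mul_zero]

end HFS

/-! ### Tame constants have finitely supported logarithms -/

section Tame

variable {K : Type*} [Field K] [CharZero K] (A : QbarAbs K)

theorem hasFiniteSupport_log_tame {C : AbsoluteValue K ℝ → ℝ} (hC : IsTameConst C) :
    HasFiniteSupport fun p => Real.log (C (A.abv p)) := by
  obtain ⟨T, hT0, hT⟩ := hC
  have hfin : (⋃ a ∈ (T : Set K),
      (some '' {q : Nat.Primes | A.fin q a ≠ 1} : Set (Option Nat.Primes))).Finite :=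
    Set.Finite.biUnion T.finite_toSet fun a ha => (A.finite_ne_one a (hT0 a ha)).image _
  refine (hfin.insert none).subset ?_
  intro p hp
  cases p with
  | none => exact Set.mem_insert _ _
  | some q =>
    refine Set.mem_insert_of_mem _ ?_
    by_contra hcon
    apply hp
    simp only [Set.mem_iUnion, Set.mem_image, Set.mem_ofPred_eq, not_exists, not_and] at hcon
    have hval : ∀ a ∈ T, A.abv (some q) a = 1 := by
      intro a ha
      by_contra h1
      exact hcon a (Finset.mem_coe.mpr ha) q h1 rfl
    show Real.log (C (A.abv (some q))) = 0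
    rw [(hT (A.abv (some q))).2 (A.fin_nonarch q) hval, Real.log_one]

theorem log_tame_nonneg {C : AbsoluteValue K ℝ → ℝ} (hC : IsTameConst C)
    (v : AbsoluteValue K ℝ) : 0 ≤ Real.log (C v) := by
  obtain ⟨T, _, hT⟩ := hC
  exact Real.log_nonneg (hT v).1

end Tame

/-! ### The local pairing against a place, and the local identity -/

section Local

variable {K F : Type*} [Field K] [Field F] [Algebra K F] {n : ℕ}
variable (v : AbsoluteValue K ℝ) (x : Fin (n + 1) → F) (t : Place K F → F)

theorem pairAt_single_right (D : Divisor K F) (Q : Place K F) :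
    pairAt v x t D (Finsupp.single Q 1) = ∑ P ∈ D.support, (D P : ℝ) * lamAt v x t P Q := by
  rw [pairAt_eq_sum]
  refine Finset.sum_congr rfl fun P _ => ?_
  rw [Finsupp.support_single _ one_ne_zero, Finset.sum_singleton, Finsupp.single_eq_same]
  simp

theorem pairAt_eq_sum_right (D E : Divisor K F) :
    pairAt v x t D E = ∑ Q ∈ E.support, (E Q : ℝ) * pairAt v x t D (Finsupp.single Q 1) := by
  rw [pairAt_eq_sum, Finset.sum_comm]
  refine Finset.sum_congr rfl fun Q _ => ?_
  rw [pairAt_single_right, Finset.mul_sum]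
  refine Finset.sum_congr rfl fun P _ => ?_
  ring

theorem phiAt_def (f : F) (D : Divisor K F) (Q : Place K F) :
    phiAt v x t f D Q =
      Real.log (v (leadAt Q (t Q) f)) + pairAt v x t D (Finsupp.single Q 1) := rfl

/-- the local identity behind the global decomposition. -/
theorem pairAt_sub_degree_mul_phiAt (f : F) (D E : Divisor K F) (inf : Place K F)
    (hdeg : Divisor.degree E = ∑ Q ∈ E.support, E Q) :
    pairAt v x t D E - (Divisor.degree E : ℝ) * phiAt v x t f D inf =
      (∑ Q ∈ E.support, (E Q : ℝ) * (phiAt v x t f D Q - phiAt v x t f D inf)) -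
        ∑ Q ∈ E.support, (E Q : ℝ) * Real.log (v (leadAt Q (t Q) f)) := by
  rw [pairAt_eq_sum_right, hdeg]
  push_cast
  rw [Finset.sum_mul, ← Finset.sum_sub_distrib, ← Finset.sum_sub_distrib]
  refine Finset.sum_congr rfl fun Q _ => ?_
  rw [phiAt_def v x t f D Q]
  ring

/-- the `ℓ¹` norm as a sum of absolute values. -/
theorem normOne_cast (E : Divisor K F) :
    ((normOne E : ℤ) : ℝ) = ∑ Q ∈ E.support, |(E Q : ℝ)| := by
  unfold normOne
  rw [Finsupp.sum]
  push_cast
  rfl

/-- the local estimate. -/
theorem abs_sum_phiAt_le {d : ℤ} {C : ℝ} (hUD : UDLocal v x t d C) (f : F) (D E : Divisor K F)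
    (hf : f ≠ 0) (hD : IsDivOf D f) (hd : posDeg D ≤ d) (inf : Place K F) :
    |∑ Q ∈ E.support, (E Q : ℝ) * (phiAt v x t f D Q - phiAt v x t f D inf)| ≤
      (normOne E : ℝ) * Real.log C := by
  rw [normOne_cast, Finset.sum_mul]
  refine (Finset.abs_sum_le_sum_abs _ _).trans (Finset.sum_le_sum fun Q _ => ?_)
  rw [abs_mul]
  exact mul_le_mul_of_nonneg_left (hUD f D hf hD hd Q inf) (abs_nonneg _)

end Local

/-! ### Product formula for Galois-fixed numbers -/

section Fixed

theorem gsum_log_eq_zero_of_fixed (A : QbarAbs Qb) {r : Qb} (hr : r ≠ 0)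
    (hfix : ∀ σ : GQ, σ r = r) : A.gsum (fun p => Real.log (A.abv p r)) = 0 := by
  have hcl : IsAlgClosure ℚ (AlgebraicClosure ℚ) := by
    have h : (DivisionRing.toRatAlgebra : Algebra ℚ (AlgebraicClosure ℚ))
        = AlgebraicClosure.instAlgebra ℚ := Subsingleton.elim _ _
    rw [h]
    infer_instance
  have : IsGalois ℚ (AlgebraicClosure ℚ) := IsAlgClosure.isGalois ℚ (AlgebraicClosure ℚ)
  obtain ⟨q, hq⟩ := Fermat.Agent.MW.Arith.StableProduct49.map_fixed_mem_range (k := ℚ) (K := Qb) hfix
  have hq0 : q ≠ 0 := by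
    rintro rfl
    rw [map_zero] at hq
    exact hr hq.symm
  have h := gsum_log_rat A q hq0
  rw [← hq]
  simpa [eq_ratCast] using h

end Fixed

/-! ### The global statement -/

section Global

variable {F : Type} [Field F] [Algebra Qb F] [HasCanonicalDivisor (K := Qb) (F := F)]

/-- all places have residue field `ℚ̄`. -/
theorem hasResK (S : HSetup F) (P : Place Qb F) : EvalLead49.HasResK P := by
  have := S.gen.finite
  exact EvalLead49.hasResK_of_isAlgClosed S.u (Algebra.IsAlgebraic.of_finite _ _) P

variable (S : HSetup F)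

/-- the leading coefficient of `f` at `Q` with respect to the standing uniformiser. -/
def lead (f : F) (Q : Place Qb F) : Qb := leadAt Q (S.t Q) f

theorem lead_ne_zero {f : F} (hf : f ≠ 0) (Q : Place Qb F) : lead S f Q ≠ 0 :=
  EvalLead49.leadAt_ne_zero (hasResK S Q) (S.unif.1 Q) hf

/-- leading coefficients of a rational function are Galois-equivariant. -/
theorem lead_smul {f : F} (hf : IsRational S.γ f) (σ : GQ) (Q : Place Qb F) :
    lead S f (S.γ σ • Q) = σ (lead S f Q) := by
  have h := EvalLead49.leadAt_smul_aut (S.γ σ) Q (S.t Q) f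
  rw [hf σ, ← S.unif.2 σ Q, S.base] at h
  exact h

/-- `∏_Q lead_Q(f) ^ E(Q)`. -/
def leadProd (f : F) (E : Divisor Qb F) : Qb := E.prod fun Q a => lead S f Q ^ a

theorem leadProd_ne_zero {f : F} (hf : f ≠ 0) (E : Divisor Qb F) : leadProd S f E ≠ 0 := by
  unfold leadProd
  rw [Finsupp.prod]
  exact Finset.prod_ne_zero_iff.mpr fun Q _ => zpow_ne_zero _ (lead_ne_zero S hf Q)

theorem leadProd_fixed {f : F} (hf : IsRational S.γ f) {E : Divisor Qb F}
    (hE : IsStable S.γ E) (σ : GQ) : σ (leadProd S f E) = leadProd S f E := by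
  have h1 : leadProd S f (S.γ σ • E) = σ (leadProd S f E) := by
    unfold leadProd
    rw [SemilinearAut.divisor_smul_def,
      Finsupp.prod_mapDomain_index_inj (MulAction.injective (S.γ σ)), Finsupp.prod, Finsupp.prod,
      map_prod]
    refine Finset.prod_congr rfl fun Q _ => ?_
    rw [lead_smul S hf σ Q, map_zpow₀]
  rw [← h1, hE σ]

theorem log_abv_leadProd (v : AbsoluteValue Qb ℝ) {f : F} (hf : f ≠ 0) (E : Divisor Qb F) :
    Real.log (v (leadProd S f E)) =
      ∑ Q ∈ E.support, (E Q : ℝ) * Real.log (v (leadAt Q (S.t Q) f)) := by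
  unfold leadProd
  rw [Finsupp.prod, map_prod, Real.log_prod]
  · refine Finset.sum_congr rfl fun Q _ => ?_
    rw [map_zpow₀, Real.log_zpow]
    rfl
  · intro Q _
    rw [map_zpow₀]
    exact zpow_ne_zero _ ((AbsoluteValue.ne_zero_iff v).mpr (lead_ne_zero S hf Q))

theorem hasFiniteSupport_phiAt {f : F} (hf : f ≠ 0) (D : Divisor Qb F) (Q : Place Qb F) :
    HasFiniteSupport fun p => phiAt (S.A.abv p) S.x S.t f D Q :=
  hfs_add (hasFiniteSupport_log S.A _ (lead_ne_zero S hf Q))
    (hasFiniteSupport_pairAt S.A S.x S.t D (Finsupp.single Q 1))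

/-- **Brick G1**: the global form of the uniform decomposition theorem. -/
theorem globalUD (hU : S.MasterUD) : S.GlobalUD := by
  intro d
  obtain ⟨C, hCt, hC⟩ := hU d
  refine ⟨S.A.gsum fun p => Real.log (C (S.A.abv p)), ?_⟩
  intro f D E hf0 hfr hD hd hE
  have hdeg := degree_eq_sum S E
  -- the two families
  set T1 : Option Nat.Primes → ℝ := fun p =>
    ∑ Q ∈ E.support, (E Q : ℝ) *
      (phiAt (S.A.abv p) S.x S.t f D Q - phiAt (S.A.abv p) S.x S.t f D S.inf) with hT1
  have hT1fs : HasFiniteSupport T1 :=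
    hasFiniteSupport_finset_sum _ _ fun Q _ =>
      hfs_const_mul _ (hfs_sub (hasFiniteSupport_phiAt S hf0 D Q)
        (hasFiniteSupport_phiAt S hf0 D S.inf))
  have hT2fs : HasFiniteSupport fun p => Real.log (S.A.abv p (leadProd S f E)) :=
    hasFiniteSupport_log S.A _ (leadProd_ne_zero S hf0 E)
  have hT2 : S.A.gsum (fun p => Real.log (S.A.abv p (leadProd S f E))) = 0 :=
    gsum_log_eq_zero_of_fixed S.A (leadProd_ne_zero S hf0 E) (leadProd_fixed S hfr hE)
  have hkey : Fermat.Agent.MW.Spec.Contract7.pair S.A S.x S.t D E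
      - (Divisor.degree E : ℝ) * cOf S.A S.x S.t S.inf f D = S.A.gsum T1 := by
    unfold Fermat.Agent.MW.Spec.Contract7.pair cOf
    rw [← gsum_const_mul, ← gsum_sub S.A (hasFiniteSupport_pairAt S.A S.x S.t D E)
      (hfs_const_mul _ (hasFiniteSupport_phiAt S hf0 D S.inf))]
    have : (fun p => pairAt (S.A.abv p) S.x S.t D E
        - (Divisor.degree E : ℝ) * phiAt (S.A.abv p) S.x S.t f D S.inf) =
        fun p => T1 p - Real.log (S.A.abv p (leadProd S f E)) := by
      funext p
      rw [pairAt_sub_degree_mul_phiAt _ _ _ f D E S.inf hdeg, log_abv_leadProd S _ hf0 E]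
    rw [this, gsum_sub S.A hT1fs hT2fs, hT2, sub_zero]
  rw [hkey]
  have hCfs : HasFiniteSupport fun p => (normOne E : ℝ) * Real.log (C (S.A.abv p)) :=
    hfs_const_mul _ (hasFiniteSupport_log_tame S.A hCt)
  have hloc : ∀ p, |T1 p| ≤ (normOne E : ℝ) * Real.log (C (S.A.abv p)) := fun p =>
    abs_sum_phiAt_le _ _ _ (hC _ (isNiceAbs S.A p)) f D E hf0 hD hd S.inf
  rw [mul_comm, ← gsum_const_mul, abs_le]
  constructor
  · rw [← gsum_neg]
    exact gsum_le_gsum S.A
      (by
        refine hCfs.subset fun p hp => ?_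
        simp only [Function.mem_support, ne_eq, neg_eq_zero] at hp ⊢
        exact hp) hT1fs fun p => (abs_le.mp (hloc p)).1
  · exact gsum_le_gsum S.A hT1fs hCfs fun p => (abs_le.mp (hloc p)).2

/-- the form announced in the claim (the two extra hypotheses are theorems of `EvalLead49`). -/
theorem globalUD' (hU : S.MasterUD) (_hLead : LeadMul Qb F) (_hEq : EvalEquivariant Qb F) :
    S.GlobalUD := globalUD S hU

end Global

end

end Fermat.Agent.MW.Global.GlobalUD2
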