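/-
Program MW (S17), height part H, brick T1 (helper62): NORTHCOTT FOR THE NAIVE HEIGHT.

`S.NorthcottHn` from `S.CoordUpper` (T1a), `S.VeryAmple` (E3), `S.MinRepExists`, `S.MinRepStable`
(P1) and the Northcott theorem for Galois-stable multisets (S2, `StableNorthcott62`).

Route: for a stable effective divisor `D` avoiding `inf` of bounded degree and bounded `hn`, each
multiset `{x_a(P)}_{P ∈ D}` is Galois-stable of bounded `heightSum` (`CoordUpper`), so there are
finitely many of them; the coordinates of the points of `D` lie in a finite set, and the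
coordinates determine the place (`VeryAmple`); so finitely many `D`; and `c ↦ minRep c` is
injective.
-/
import Mathlib
import Fermat.Agent.MW.Spec.Bricks7b
import Fermat.Agent.MW.FF.EvalLead49
import Fermat.Agent.X0.FFConst
import Fermat.Agent.MW.Arith.StableNorthcott62

set_option autoImplicit false

open AlgebraicCurve

namespace Fermat.Agent.MW.Global.NorthcottHn62

open Fermat.Agent.MW.Hadamard7 Fermat.Agent.MW.Spec.Defs7 Fermat.Agent.MW.Spec.Contract7
open Fermat.Agent.MW.Spec.Bricks7 Fermat.Agent.MW.Spec.Bricks7b Fermat.Agent.X0.FF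
open Fermat.Agent.MW.FF.EvalLead49 Fermat.Agent.MW.Arith.ProductFormula62
open Fermat.Agent.MW.Arith.StableNorthcott62 Function

/-! ### Sup norms of a fixed vector at almost all places -/

section SupNormSupport

variable {K : Type*} [Field K] [CharZero K] (A : QbarAbs K) {ι : Type*} [Fintype ι]

/-- For a fixed vector `y`, `‖y‖_p ∈ {0, 1}` for almost all `p`; hence `log ‖y‖_p = 0`. -/
theorem hasFiniteSupport_log_supNorm (y : ι → K) :
    HasFiniteSupport (fun p : Option Nat.Primes => Real.log (supNorm (A.abv p) y)) := by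
  classical
  have hfin : (⋃ i ∈ (Finset.univ.filter fun i => y i ≠ 0),
      Function.support (fun p : Option Nat.Primes => Real.log (A.abv p (y i)))).Finite := by
    refine Set.Finite.biUnion (Finset.finite_toSet _) ?_
    intro i hi
    have hi' : y i ≠ 0 := by simpa using hi
    exact hasFiniteSupport_log A (y i) hi'
  refine hfin.subset ?_
  intro p hp
  by_contra hnot
  apply hp
  have h1 : ∀ i, y i ≠ 0 → A.abv p (y i) = 1 := by
    intro i hi
    by_contra hne
    apply hnot
    simp only [Set.mem_iUnion]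
    refine ⟨i, by simpa using hi, ?_⟩
    rw [Function.mem_support]
    intro hlog
    have hpos : 0 < A.abv p (y i) := (A.abv p).pos hi
    rcases Real.log_eq_zero.mp hlog with h | h | h
    · linarith
    · exact hne h
    · linarith
  show Real.log (supNorm (A.abv p) y) = 0
  by_cases hy : ∃ i, y i ≠ 0
  · obtain ⟨i, hi⟩ := hy
    have hsup : supNorm (A.abv p) y = 1 := by
      apply le_antisymm
      · apply supNorm_le _ zero_le_one
        intro j
        by_cases hj : y j = 0
        · rw [hj, map_zero]; exact zero_le_one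
        · rw [h1 j hj]
      · have := le_supNorm (A.abv p) y i
        rwa [h1 i hi] at this
    rw [hsup, Real.log_one]
  · simp only [not_exists, not_not] at hy
    have hsup : supNorm (A.abv p) y = 0 := by
      apply le_antisymm
      · apply supNorm_le _ le_rfl
        intro j
        rw [hy j, map_zero]
      · exact supNorm_nonneg _ _
    rw [hsup, Real.log_zero]

end SupNormSupport

variable {F : Type} [Field F] [Algebra Qb F] [HasCanonicalDivisor (K := Qb) (F := F)]
variable (S : HSetup F)

/-! ### Coordinates of the places different from `inf` -/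

theorem x_mem_rr (a : Fin (S.n + 1)) :
    S.x a ∈ riemannRochSpace (K := Qb) (F := F) (Finsupp.single S.inf ((2 * S.m₀ : ℕ) : ℤ)) := by
  rw [← S.x_span]
  exact Submodule.subset_span ⟨a, rfl⟩

theorem ord_x_nonneg {P : Place Qb F} (hP : P ≠ S.inf) (a : Fin (S.n + 1)) :
    0 ≤ P.ord (S.x a) := by
  have h := (mem_riemannRochSpace_iff.mp (x_mem_rr S a)) P
  rcases h with h | h
  · rw [h, Place.ord_zero]
  · rwa [Finsupp.single_eq_of_ne hP, neg_zero] at h

theorem minOrd_eq_zero {P : Place Qb F} (hP : P ≠ S.inf) : minOrd P S.x = 0 := by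
  unfold minOrd
  apply le_antisymm
  · have h := Finset.inf'_le (fun a => P.ord (S.x a)) (Finset.mem_univ (0 : Fin (S.n + 1)))
    rwa [S.x_zero, Place.ord_one] at h
  · rw [Finset.le_inf'_iff]
    intro a _
    exact ord_x_nonneg S hP a

theorem coordAt_eq {P : Place Qb F} (hP : P ≠ S.inf) (t : F) (a : Fin (S.n + 1)) :
    coordAt P t S.x a = evalAt P (S.x a) := by
  unfold coordAt
  rw [minOrd_eq_zero S hP, neg_zero, zpow_zero, mul_one]

theorem coordAt_zero {P : Place Qb F} (hP : P ≠ S.inf) (t : F) : coordAt P t S.x 0 = 1 := by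
  rw [coordAt_eq S hP, S.x_zero]
  exact isValAt_one.evalAt_eq

theorem one_le_supNorm_coordAt (v : AbsoluteValue Qb ℝ) {P : Place Qb F} (hP : P ≠ S.inf)
    (t : F) : 1 ≤ supNorm v (coordAt P t S.x) := by
  classical
  have h := le_supNorm v (coordAt P t S.x) 0
  rwa [coordAt_zero S hP, map_one] at h

theorem posLog_evalAt_le (v : AbsoluteValue Qb ℝ) {P : Place Qb F} (hP : P ≠ S.inf) (t : F)
    (a : Fin (S.n + 1)) :
    Real.posLog (v (evalAt P (S.x a))) ≤ Real.log (supNorm v (coordAt P t S.x)) := by
  classical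
  have h1 := one_le_supNorm_coordAt S v hP t
  have h2 : v (evalAt P (S.x a)) ≤ supNorm v (coordAt P t S.x) := by
    have h := le_supNorm v (coordAt P t S.x) a
    rwa [coordAt_eq S hP] at h
  calc Real.posLog (v (evalAt P (S.x a))) ≤ Real.posLog (supNorm v (coordAt P t S.x)) :=
        Real.posLog_le_posLog (v.nonneg _) h2
    _ = Real.log (supNorm v (coordAt P t S.x)) :=
        Real.posLog_eq_log (by rwa [abs_of_pos (by linarith)])

/-! ### The multisets of values of the coordinate functions along a divisor -/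

/-- The multiset of the values `x_a(P)`, `P ∈ D` with multiplicity. -/
noncomputable def valMultiset (D : Divisor Qb F) (a : Fin (S.n + 1)) : Multiset Qb :=
  ∑ P ∈ D.support, (D P).toNat • ({evalAt P (S.x a)} : Multiset Qb)

theorem card_valMultiset (D : Divisor Qb F) (a : Fin (S.n + 1)) :
    (valMultiset S D a).card = ∑ P ∈ D.support, (D P).toNat := by
  unfold valMultiset
  rw [← Multiset.cardHom_apply, map_sum]
  apply Finset.sum_congr rfl
  intro P _
  simp

theorem map_valMultiset {β : Type*} (φ : Qb → β) (D : Divisor Qb F) (a : Fin (S.n + 1)) :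
    (valMultiset S D a).map φ
      = ∑ P ∈ D.support, (D P).toNat • ({φ (evalAt P (S.x a))} : Multiset β) := by
  unfold valMultiset
  rw [← Multiset.mapAddMonoidHom_apply, map_sum]
  apply Finset.sum_congr rfl
  intro P _
  simp [Multiset.map_nsmul]

theorem sum_map_valMultiset (φ : Qb → ℝ) (D : Divisor Qb F) (a : Fin (S.n + 1)) :
    ((valMultiset S D a).map φ).sum
      = ∑ P ∈ D.support, ((D P).toNat : ℝ) * φ (evalAt P (S.x a)) := by
  rw [map_valMultiset, ← Multiset.coe_sumAddMonoidHom, map_sum]
  apply Finset.sum_congr rfl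
  intro P _
  simp [Multiset.sum_nsmul]

theorem mem_valMultiset {D : Divisor Qb F} {a : Fin (S.n + 1)} {P : Place Qb F}
    (hP : 0 < D P) : evalAt P (S.x a) ∈ valMultiset S D a := by
  unfold valMultiset
  rw [Multiset.mem_sum]
  refine ⟨P, ?_, ?_⟩
  · rw [Finsupp.mem_support_iff]; exact hP.ne'
  · rw [Multiset.mem_nsmul]
    refine ⟨?_, Multiset.mem_singleton_self _⟩
    intro h
    have : (D P).toNat = 0 := h
    omega

/-- Stable divisors take the same value at conjugate places. -/
theorem stable_apply_smul {D : Divisor Qb F} (hD : IsStable S.γ D) (σ : GQ) (P : Place Qb F) :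
    D (S.γ σ • P) = D P := by
  have h := SemilinearAut.divisor_smul_apply_smul (S.γ σ) D P
  rwa [hD σ] at h

/-- Values of the (fixed) coordinate functions at conjugate places are conjugate. -/
theorem evalAt_smul_x (σ : GQ) (P : Place Qb F) (a : Fin (S.n + 1)) :
    evalAt (S.γ σ • P) (S.x a) = σ (evalAt P (S.x a)) := by
  have h := evalAt_smul_aut (S.γ σ) P (S.x a)
  rw [S.x_fixed σ a, S.base] at h
  exact h

/-- The multiset of values of a coordinate function along a stable divisor is Galois-stable. -/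
theorem valMultiset_stable {D : Divisor Qb F} (hD : IsStable S.γ D) (a : Fin (S.n + 1))
    (σ : GQ) : (valMultiset S D a).map σ = valMultiset S D a := by
  rw [map_valMultiset]
  unfold valMultiset
  refine Finset.sum_nbij' (fun P => S.γ σ • P) (fun P => (S.γ σ)⁻¹ • P) ?_ ?_ ?_ ?_ ?_
  · intro P hP
    rw [Finsupp.mem_support_iff] at hP ⊢
    rwa [stable_apply_smul S hD]
  · intro P hP
    rw [Finsupp.mem_support_iff] at hP ⊢
    have := stable_apply_smul S hD σ ((S.γ σ)⁻¹ • P)
    rw [smul_inv_smul] at this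
    rwa [← this]
  · intro P _
    exact inv_smul_smul _ _
  · intro P _
    exact smul_inv_smul _ _
  · intro P _
    rw [stable_apply_smul S hD, evalAt_smul_x]

section Degree

include S

theorem degree_eq_sum (D : Divisor Qb F) : Divisor.degree D = ∑ P ∈ D.support, D P := by
  unfold Divisor.degree
  rw [Finsupp.liftAddHom_apply, Finsupp.sum]
  apply Finset.sum_congr rfl
  intro P _
  rw [AddMonoidHom.mulRight_apply, deg_eq_one S.gen P, Nat.cast_one, mul_one]

theorem degree_eq_sum_toNat {D : Divisor Qb F} (hD : 0 ≤ D) :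
    Divisor.degree D = ((∑ P ∈ D.support, (D P).toNat : ℕ) : ℤ) := by
  rw [degree_eq_sum S, Nat.cast_sum]
  apply Finset.sum_congr rfl
  intro P _
  have : 0 ≤ D P := hD P
  omega

theorem apply_le_degree {D : Divisor Qb F} (hD : 0 ≤ D) (P : Place Qb F) :
    D P ≤ Divisor.degree D := by
  rw [degree_eq_sum S]
  by_cases hP : P ∈ D.support
  · exact Finset.single_le_sum (f := fun P => D P) (fun Q _ => hD Q) hP
  · rw [Finsupp.notMem_support_iff] at hP
    rw [hP]
    exact Finset.sum_nonneg (fun Q _ => hD Q)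

end Degree



/-! ### The height bound for the value multisets -/

/-- The local sum appearing in `CoordUpper`. -/
noncomputable def coordSum (D : Divisor Qb F) (p : Option Nat.Primes) : ℝ :=
  D.sum fun P a => (a : ℝ) * Real.log (supNorm (S.A.abv p) (coordAt P (S.t P) S.x))

theorem hasFiniteSupport_coordSum (D : Divisor Qb F) : HasFiniteSupport (coordSum S D) := by
  have h : coordSum S D = fun p => ∑ P ∈ D.support,
      ((D P : ℤ) : ℝ) * Real.log (supNorm (S.A.abv p) (coordAt P (S.t P) S.x)) := by
    funext p; rfl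
  rw [h]
  apply hasFiniteSupport_finset_sum
  intro P _
  refine (hasFiniteSupport_log_supNorm S.A (coordAt P (S.t P) S.x)).subset ?_
  intro p hp
  rw [Function.mem_support] at hp ⊢
  intro h0
  apply hp
  rw [h0, mul_zero]

theorem heightSum_valMultiset_le {D : Divisor Qb F} (hD : 0 ≤ D) (hinf : D S.inf = 0)
    (a : Fin (S.n + 1)) :
    S.A.heightSum (valMultiset S D a) ≤ S.A.gsum (coordSum S D) := by
  unfold QbarAbs.heightSum
  refine gsum_le_gsum S.A (hasFiniteSupport_heightSummand S.A _) (hasFiniteSupport_coordSum S D) ?_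
  intro p
  rw [sum_map_valMultiset]
  show _ ≤ ∑ P ∈ D.support,
      ((D P : ℤ) : ℝ) * Real.log (supNorm (S.A.abv p) (coordAt P (S.t P) S.x))
  apply Finset.sum_le_sum
  intro P hP
  have hPinf : P ≠ S.inf := by
    rintro rfl
    exact (Finsupp.mem_support_iff.mp hP) hinf
  have h0 : 0 ≤ D P := hD P
  have hcast : (((D P).toNat : ℕ) : ℝ) = ((D P : ℤ) : ℝ) := by
    have : (((D P).toNat : ℕ) : ℤ) = D P := Int.toNat_of_nonneg h0
    exact_mod_cast this
  rw [hcast]
  exact mul_le_mul_of_nonneg_left (posLog_evalAt_le S (S.A.abv p) hPinf (S.t P) a)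
    (by exact_mod_cast h0)


/-! ### Finiteness of the divisors -/

/-- The coordinates separate the places different from `inf`. -/
theorem evalAt_x_injOn (hVA : S.VeryAmple) :
    Set.InjOn (fun (P : Place Qb F) (a : Fin (S.n + 1)) => evalAt P (S.x a))
      {P | P ≠ S.inf} := by
  intro P hP Q hQ hPQ
  by_contra hne
  apply hVA.2.1 P Q hne
  have h1 : coordAt P (S.t P) S.x = fun a => evalAt P (S.x a) :=
    funext fun a => coordAt_eq S hP _ a
  have h2 : coordAt Q (S.t Q) S.x = fun a => evalAt Q (S.x a) :=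
    funext fun a => coordAt_eq S hQ _ a
  have hPQ' : (fun a => evalAt P (S.x a)) = fun a => evalAt Q (S.x a) := hPQ
  rw [h1, h2, hPQ']
  funext ij
  simp only [wedge, Pi.zero_apply]
  ring

/-- **Northcott for divisors**: finitely many stable effective divisors avoiding `inf` of bounded
degree and bounded naive height. -/
theorem finite_stable_divisors_of_hn_le (hVA : S.VeryAmple) (hCU : S.CoordUpper) (d₀ : ℤ)
    (B : ℝ) :
    {D : Divisor Qb F | 0 ≤ D ∧ IsStable S.γ D ∧ Divisor.degree D ≤ d₀ ∧ D S.inf = 0 ∧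
      S.hn D ≤ B}.Finite := by
  classical
  obtain ⟨C, hC⟩ := hCU d₀
  set B' : ℝ := ((2 * S.m₀ : ℕ) : ℝ) * B + C with hB'
  have := isGalois_Qbar
  -- the finitely many possible value multisets
  set MM : Set (Multiset Qb) := ⋃ r ∈ Finset.range (d₀.toNat + 1),
    {M : Multiset Qb | M.card = r ∧ (∀ σ : Qb ≃ₐ[ℚ] Qb, M.map σ = M) ∧ S.A.heightSum M ≤ B'}
    with hMM
  have hMMfin : MM.Finite :=
    Set.Finite.biUnion (Finset.finite_toSet _) fun r _ => finite_stable_multisets S.A r B'
  -- the finitely many possible values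
  set V : Set Qb := ⋃ M ∈ MM, {α | α ∈ M} with hV
  have hVfin : V.Finite := Set.Finite.biUnion hMMfin fun M _ => Multiset.finite_toSet M
  -- the finitely many possible places
  set Z : Set (Place Qb F) := {P | P ≠ S.inf ∧ ∀ a, evalAt P (S.x a) ∈ V} with hZ
  have hZfin : Z.Finite := by
    refine Set.Finite.of_injOn (f := fun (P : Place Qb F) (a : Fin (S.n + 1)) => evalAt P (S.x a))
      (t := Set.pi Set.univ fun _ => V) ?_ ?_ (Set.Finite.pi fun _ => hVfin)
    · intro P hP a _
      exact hP.2 a
    · exact (evalAt_x_injOn S hVA).mono fun P hP => hP.1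
  refine (Finset.finite_toSet (hZfin.toFinset.finsupp fun _ => Finset.Icc 0 d₀)).subset ?_
  rintro D ⟨hD0, hDst, hDdeg, hDinf, hDhn⟩
  rw [Finset.mem_coe, Finset.mem_finsupp_iff]
  have hval : ∀ a, valMultiset S D a ∈ MM := by
    intro a
    rw [hMM]
    simp only [Set.mem_iUnion]
    refine ⟨(valMultiset S D a).card, ?_, rfl, valMultiset_stable S hDst a, ?_⟩
    · rw [Finset.mem_range, card_valMultiset]
      have h1 := degree_eq_sum_toNat S hD0
      have h2 : ((∑ P ∈ D.support, (D P).toNat : ℕ) : ℤ) ≤ d₀ := h1 ▸ hDdeg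
      omega
    · calc S.A.heightSum (valMultiset S D a) ≤ S.A.gsum (coordSum S D) :=
            heightSum_valMultiset_le S hD0 hDinf a
        _ ≤ ((2 * S.m₀ : ℕ) : ℝ) * S.hn D + C := hC D hD0 hDst hDdeg hDinf
        _ ≤ B' := by
            rw [hB']
            have : (0 : ℝ) ≤ ((2 * S.m₀ : ℕ) : ℝ) := Nat.cast_nonneg _
            nlinarith
  refine ⟨?_, ?_⟩
  · intro P hP
    rw [Set.Finite.mem_toFinset, hZ]
    have hP0 : D P ≠ 0 := Finsupp.mem_support_iff.mp hP
    have hPpos : 0 < D P := lt_of_le_of_ne (hD0 P) (Ne.symm hP0)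
    refine ⟨?_, fun a => ?_⟩
    · rintro rfl
      exact hP0 hDinf
    · rw [hV]
      simp only [Set.mem_iUnion]
      exact ⟨valMultiset S D a, hval a, mem_valMultiset S hPpos⟩
  · intro P _
    rw [Finset.mem_Icc]
    exact ⟨hD0 P, (apply_le_degree S hD0 P).trans hDdeg⟩


/-! ### Minimal representatives and the theorem -/

theorem isMinRep_unique {c : Pic0 Qb F} {D D' : Divisor Qb F} (h : S.IsMinRep c D)
    (h' : S.IsMinRep c D') : D = D' := by
  have h1 := (h.2 D' h'.1).1
  have h2 := (h'.2 D h.1).1
  exact (h'.2 D h.1).2 (le_antisymm h1 h2)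

theorem minRep_eq {c : Pic0 Qb F} {D : Divisor Qb F} (h : S.IsMinRep c D) : S.minRep c = D := by
  classical
  have hex : ∃ D, S.IsMinRep c D := ⟨D, h⟩
  unfold HSetup.minRep
  rw [dif_pos hex]
  exact isMinRep_unique S hex.choose_spec h

/-- A class is determined by an effective representative. -/
theorem eq_of_isRepOf {c c' : Pic0 Qb F} {D : Divisor Qb F} (h : S.IsRepOf c D)
    (h' : S.IsRepOf c' D) : c = c' := by
  obtain ⟨-, a, ha, hac⟩ := h
  obtain ⟨-, a', ha', hac'⟩ := h'
  have : a = a' := Subtype.ext (ha.trans ha'.symm)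
  rw [← hac, ← hac', this]

/-- **Brick T1 (`S.NorthcottHn`)**: Northcott for the naive height of the fixed classes. -/
theorem northcottHn (hVA : S.VeryAmple) (hP1a : S.MinRepExists) (hP1b : S.MinRepStable)
    (hCU : S.CoordUpper) : S.NorthcottHn := by
  intro B
  have hfin := finite_stable_divisors_of_hn_le S hVA hCU (genus Qb F : ℤ) B
  refine Set.Finite.of_injOn (f := fun c => S.minRep c) ?_ ?_ hfin
  · rintro c ⟨hfix, hhn⟩
    obtain ⟨D, hmin, hdeg, hinf, -⟩ := hP1a c
    have hD : S.minRep c = D := minRep_eq S hmin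
    show 0 ≤ S.minRep c ∧ IsStable S.γ (S.minRep c) ∧ Divisor.degree (S.minRep c) ≤ _ ∧
      S.minRep c S.inf = 0 ∧ S.hn (S.minRep c) ≤ B
    refine ⟨?_, hP1b c hfix, ?_, ?_, hhn⟩
    · rw [hD]; exact hmin.1.1
    · rw [hD]; exact hdeg
    · rw [hD]; exact hinf
  · rintro c - c' - hcc'
    obtain ⟨D, hmin, -⟩ := hP1a c
    obtain ⟨D', hmin', -⟩ := hP1a c'
    have hD : S.minRep c = D := minRep_eq S hmin
    have hD' : S.minRep c' = D' := minRep_eq S hmin'
    have hDD' : D = D' := by
      have : S.minRep c = S.minRep c' := hcc'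
      rw [← hD, ← hD', this]
    subst hDD'
    exact eq_of_isRepOf S hmin.1 hmin'.1

end Fermat.Agent.MW.Global.NorthcottHn62
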