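/-
Program MW (S17), height part H, brick T1a (helper62): `S.CoordUpper` FROM THE MASTER THEOREM.

`S.CoordUpper` from `S.MasterUD` (U) and `S.PairFiniteSupport` (G0).

Route: for each coordinate function `x a` (divisor `divX a = Z_a - k_a · inf`, `k_a ≤ m = 2 m₀`,
`posDeg ≤ m`) the uniform decomposition theorem at `d = m` gives, at a place `Q ≠ inf` where `x a`
does not vanish, `log |x_a(Q)|_v ≤ m λ_v(inf, Q) + Φ_v(x_a; inf) + log C_v + m log (triC v 2)`
(using `λ_v(P, Q) ≥ - log (triC v 2)` off the diagonal and `deg (div x_a) = 0`); the sup norm of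
`coordAt Q` is attained at such an `a`; the error terms vanish at almost all places (tame
constants, `G0`, `QbarAbs.finite_ne_one`); sum over the points of `D` and over all places.
-/
import Mathlib
import Fermat.Agent.MW.Spec.Bricks7b
import Fermat.Agent.MW.FF.EvalLead49
import Fermat.Agent.X0.FFGenus
import Fermat.Agent.MW.Local.Chord2
import Fermat.Agent.MW.Global.NorthcottHn62

set_option autoImplicit false

open AlgebraicCurve

namespace Fermat.Agent.MW.Global.CoordUpper62

open Fermat.Agent.MW.Hadamard7 Fermat.Agent.MW.Spec.Defs7 Fermat.Agent.MW.Spec.Contract7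
open Fermat.Agent.MW.Spec.Bricks7 Fermat.Agent.MW.Spec.Bricks7b Fermat.Agent.X0.FF
open Fermat.Agent.MW.FF.EvalLead49 Fermat.Agent.MW.Arith.ProductFormula62
open Fermat.Agent.MW.Local.Chord2 Fermat.Agent.MW.Global.NorthcottHn62 Function

/-! ### General lemmas on the local pair function and the local pairing -/

section General

variable {K F : Type*} [Field K] [Field F] [Algebra K F] {n : ℕ}
variable (v : AbsoluteValue K ℝ) (x : Fin (n + 1) → F) (t : Place K F → F)

theorem lamAt_of_ne {P Q : Place K F} (hPQ : P ≠ Q) :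
    lamAt v x t P Q = -Real.log (chord v (coordAt P (t P) x) (coordAt Q (t Q) x)) := by
  unfold lamAt
  rw [if_neg hPQ]

/-- The local pair function is bounded below off the diagonal. -/
theorem neg_log_triC_le_lamAt {P Q : Place K F} (hPQ : P ≠ Q) :
    -Real.log (triC v 2) ≤ lamAt v x t P Q := by
  rw [lamAt_of_ne v x t hPQ, neg_le_neg_iff]
  have h1 : (1 : ℝ) ≤ triC v 2 := one_le_triC v (by norm_num)
  have h2 := chord_le v (coordAt P (t P) x) (coordAt Q (t Q) x)
  have h3 := chord_nonneg v (coordAt P (t P) x) (coordAt Q (t Q) x)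
  rcases h3.eq_or_lt with h0 | hpos
  · rw [← h0, Real.log_zero]
    exact Real.log_nonneg h1
  · exact Real.log_le_log hpos h2

theorem pairAt_single_right (D : Divisor K F) (Q : Place K F) :
    pairAt v x t D (Finsupp.single Q 1) = ∑ P ∈ D.support, (D P : ℝ) * lamAt v x t P Q := by
  unfold pairAt
  rw [Finsupp.sum]
  apply Finset.sum_congr rfl
  intro P _
  rw [Finsupp.sum_single_index (by simp)]
  simp

theorem pairAt_single_left (P : Place K F) (D : Divisor K F) :
    pairAt v x t (Finsupp.single P 1) D = ∑ Q ∈ D.support, (D Q : ℝ) * lamAt v x t P Q := by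
  unfold pairAt
  rw [Finsupp.sum_single_index (by simp)]
  rw [Finsupp.sum]
  apply Finset.sum_congr rfl
  intro Q _
  simp

end General

variable {F : Type} [Field F] [Algebra Qb F] [HasCanonicalDivisor (K := Qb) (F := F)]
variable (S : HSetup F)

/-! ### The divisors of the coordinate functions -/

theorem x_ne_zero (a : Fin (S.n + 1)) : S.x a ≠ 0 := S.x_indep.ne_zero a

theorem exists_div_x (a : Fin (S.n + 1)) :
    ∃ D : Divisor Qb F, (∀ P : Place Qb F, D P = P.ord (S.x a)) ∧ Divisor.degree D = 0 :=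
  (Fermat.Agent.X0.FFGenus.hasPrincipalDivisors S.gen).exists_divisor (S.x a) (x_ne_zero S a)

/-- The divisor of the coordinate function `x a`. -/
noncomputable def divX (a : Fin (S.n + 1)) : Divisor Qb F := (exists_div_x S a).choose

theorem divX_apply (a : Fin (S.n + 1)) (P : Place Qb F) : divX S a P = P.ord (S.x a) :=
  (exists_div_x S a).choose_spec.1 P

theorem isDivOf_divX (a : Fin (S.n + 1)) : IsDivOf (divX S a) (S.x a) := divX_apply S a

theorem degree_divX (a : Fin (S.n + 1)) : Divisor.degree (divX S a) = 0 :=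
  (exists_div_x S a).choose_spec.2

theorem divX_nonneg_of_ne (a : Fin (S.n + 1)) {P : Place Qb F} (hP : P ≠ S.inf) :
    0 ≤ divX S a P := by
  rw [divX_apply]; exact ord_x_nonneg S hP a

theorem neg_divX_inf_le (a : Fin (S.n + 1)) : -(divX S a S.inf) ≤ ((2 * S.m₀ : ℕ) : ℤ) := by
  rw [divX_apply]
  have h := (mem_riemannRochSpace_iff.mp (x_mem_rr S a)) S.inf
  rcases h with h | h
  · exact absurd h (x_ne_zero S a)
  · rw [Finsupp.single_eq_same] at h
    omega

theorem posDeg_divX_le (a : Fin (S.n + 1)) : posDeg (divX S a) ≤ ((2 * S.m₀ : ℕ) : ℤ) := by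
  classical
  unfold posDeg
  rw [Finsupp.sum]
  have h0 := degree_eq_sum S (divX S a)
  rw [degree_divX] at h0
  have h1 : ∑ P ∈ (divX S a).support, max (divX S a P) 0
      = ∑ P ∈ (divX S a).support, max (-(divX S a P)) 0 := by
    have : ∑ P ∈ (divX S a).support, max (divX S a P) 0
        = ∑ P ∈ (divX S a).support, (max (-(divX S a P)) 0 + divX S a P) := by
      apply Finset.sum_congr rfl
      intro P _
      rcases le_total (divX S a P) 0 with h | h
      · rw [max_eq_right h, max_eq_left (by omega)]; ring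
      · rw [max_eq_left h, max_eq_right (by omega)]; ring
    rw [this, Finset.sum_add_distrib, ← h0, add_zero]
  rw [h1]
  have h2 : ∑ P ∈ (divX S a).support, max (-(divX S a P)) 0 = max (-(divX S a S.inf)) 0 := by
    apply Finset.sum_eq_single S.inf
    · intro P _ hP
      exact max_eq_right (by have := divX_nonneg_of_ne S a hP; omega)
    · intro hinf
      rw [Finsupp.notMem_support_iff] at hinf
      rw [hinf]; simp
  rw [h2]
  exact max_le (neg_divX_inf_le S a) (by positivity)


/-! ### The key local inequality -/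

include S in
theorem hasResK (P : Place Qb F) : HasResK P :=
  hasResK_of_isAlgClosed S.u
    (by have := S.gen.finite; exact Algebra.IsAlgebraic.of_finite _ _) P

/-- **Key local inequality**: at a place `Q ≠ inf` where `x a` does not vanish,
`log |x_a(Q)|_v ≤ m λ_v(inf, Q) + Φ_v(x_a; inf) + log C_v + m log (triC v 2)`. -/
theorem log_abv_evalAt_le (v : AbsoluteValue Qb ℝ) (Cv : ℝ)
    (hUD : UDLocal v S.x S.t ((2 * S.m₀ : ℕ) : ℤ) Cv) {Q : Place Qb F} (hQ : Q ≠ S.inf)
    (a : Fin (S.n + 1)) (hord : Q.ord (S.x a) = 0) :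
    Real.log (v (evalAt Q (S.x a))) ≤ ((2 * S.m₀ : ℕ) : ℝ) * lamAt v S.x S.t S.inf Q
      + (phiAt v S.x S.t (S.x a) (divX S a) S.inf + Real.log Cv
          + ((2 * S.m₀ : ℕ) : ℝ) * Real.log (triC v 2)) := by
  classical
  set m : ℝ := ((2 * S.m₀ : ℕ) : ℝ) with hm
  set L := Real.log (triC v 2) with hLdef
  set lam := lamAt v S.x S.t S.inf Q with hlamdef
  set D := divX S a with hDdef
  have hm0 : 0 ≤ m := Nat.cast_nonneg _
  have hL : 0 ≤ L := Real.log_nonneg (one_le_triC v (by norm_num))
  have hlam : 0 ≤ lam + L := by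
    have := neg_log_triC_le_lamAt v S.x S.t (Ne.symm hQ)
    linarith
  have hUDQ := hUD (S.x a) D (x_ne_zero S a) (isDivOf_divX S a) (posDeg_divX_le S a) Q S.inf
  have hphi : phiAt v S.x S.t (S.x a) D Q ≤ phiAt v S.x S.t (S.x a) D S.inf + Real.log Cv := by
    have := (le_abs_self _).trans hUDQ
    linarith
  have hphiQ : phiAt v S.x S.t (S.x a) D Q = Real.log (v (evalAt Q (S.x a)))
      + ∑ P ∈ D.support, (D P : ℝ) * lamAt v S.x S.t P Q := by
    unfold phiAt
    rw [leadAt_of_ord_eq_zero hord, pairAt_single_right]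
  have hsum : -(m * (lam + L)) ≤ ∑ P ∈ D.support, (D P : ℝ) * lamAt v S.x S.t P Q := by
    have hdeg : ∑ P ∈ D.support, (D P : ℝ) = 0 := by
      have h := degree_eq_sum S D
      rw [hDdef, degree_divX] at h
      have h' : (0 : ℝ) = ((∑ P ∈ (divX S a).support, divX S a P : ℤ) : ℝ) := by
        rw [← h]; norm_num
      rw [h', Int.cast_sum]
    have h1 : ∑ P ∈ D.support, (D P : ℝ) * lamAt v S.x S.t P Q
        = ∑ P ∈ D.support, (D P : ℝ) * (lamAt v S.x S.t P Q + L) := by
      simp_rw [mul_add]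
      rw [Finset.sum_add_distrib, ← Finset.sum_mul, hdeg, zero_mul, add_zero]
    rw [h1]
    have hterm : ∀ P ∈ D.support, P ≠ S.inf →
        0 ≤ (D P : ℝ) * (lamAt v S.x S.t P Q + L) := by
      intro P hP hPinf
      have hPQ : P ≠ Q := by
        rintro rfl
        exact (Finsupp.mem_support_iff.mp hP) (by rw [hDdef, divX_apply, hord])
      have h2 := neg_log_triC_le_lamAt v S.x S.t hPQ
      have h3 : (0 : ℝ) ≤ (D P : ℝ) := by exact_mod_cast divX_nonneg_of_ne S a hPinf
      exact mul_nonneg h3 (by linarith)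
    have hinfterm : -(m * (lam + L)) ≤ (D S.inf : ℝ) * (lam + L) := by
      have h2 : -m ≤ (D S.inf : ℝ) := by
        have h3 := neg_divX_inf_le S a
        have h4 : -(((2 * S.m₀ : ℕ) : ℤ) : ℝ) ≤ ((divX S a S.inf : ℤ) : ℝ) := by
          exact_mod_cast (by omega : -(((2 * S.m₀ : ℕ) : ℤ)) ≤ divX S a S.inf)
        simpa [hm] using h4
      nlinarith
    by_cases hinf : S.inf ∈ D.support
    · rw [← Finset.add_sum_erase _ _ hinf]
      have h5 : 0 ≤ ∑ P ∈ D.support.erase S.inf, (D P : ℝ) * (lamAt v S.x S.t P Q + L) :=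
        Finset.sum_nonneg fun P hP =>
          hterm P (Finset.mem_of_mem_erase hP) (Finset.ne_of_mem_erase hP)
      linarith
    · have h5 : 0 ≤ ∑ P ∈ D.support, (D P : ℝ) * (lamAt v S.x S.t P Q + L) :=
        Finset.sum_nonneg fun P hP => hterm P hP (by rintro rfl; exact hinf hP)
      have h6 : 0 ≤ m * (lam + L) := mul_nonneg hm0 hlam
      linarith
  linarith


/-! ### The sup norm of the coordinate vector -/

/-- The error term of the local inequality. -/
noncomputable def errAt (v : AbsoluteValue Qb ℝ) (Cv : ℝ) : ℝ :=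
  (∑ a, |phiAt v S.x S.t (S.x a) (divX S a) S.inf|) + Real.log Cv
    + ((2 * S.m₀ : ℕ) : ℝ) * Real.log (triC v 2)

theorem errAt_nonneg (v : AbsoluteValue Qb ℝ) {Cv : ℝ} (hCv : 1 ≤ Cv) : 0 ≤ errAt S v Cv := by
  unfold errAt
  have h1 : 0 ≤ ∑ a, |phiAt v S.x S.t (S.x a) (divX S a) S.inf| :=
    Finset.sum_nonneg fun a _ => abs_nonneg _
  have h2 : 0 ≤ Real.log Cv := Real.log_nonneg hCv
  have h3 : 0 ≤ Real.log (triC v 2) := Real.log_nonneg (one_le_triC v (by norm_num))
  have h4 : (0 : ℝ) ≤ ((2 * S.m₀ : ℕ) : ℝ) := Nat.cast_nonneg _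
  positivity

/-- At a place `Q ≠ inf`: `log ‖coordAt Q‖_v ≤ m λ_v(inf, Q) + errAt`. -/
theorem log_supNorm_coordAt_le (v : AbsoluteValue Qb ℝ) (Cv : ℝ)
    (hUD : UDLocal v S.x S.t ((2 * S.m₀ : ℕ) : ℤ) Cv) {Q : Place Qb F} (hQ : Q ≠ S.inf) :
    Real.log (supNorm v (coordAt Q (S.t Q) S.x))
      ≤ ((2 * S.m₀ : ℕ) : ℝ) * lamAt v S.x S.t S.inf Q + errAt S v Cv := by
  classical
  obtain ⟨a, ha⟩ := exists_eq_supNorm v (coordAt Q (S.t Q) S.x)
  have h1 := one_le_supNorm_coordAt S v hQ (S.t Q)
  rw [coordAt_eq S hQ] at ha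
  have hne : evalAt Q (S.x a) ≠ 0 := by
    intro h0
    rw [h0, map_zero] at ha
    linarith
  have hnn : 0 ≤ Q.ord (S.x a) := ord_x_nonneg S hQ a
  have hle : Q.adicValuation (S.x a) ≤ 1 := Q.adicValuation_le_one_iff.mpr (Or.inr hnn)
  have hord : Q.ord (S.x a) = 0 := by
    by_contra hne0
    apply hne
    rw [evalAt_eq_zero_iff_ord (hasResK S Q) hle]
    right
    omega
  rw [← ha]
  refine (log_abv_evalAt_le S v Cv hUD hQ a hord).trans ?_
  unfold errAt
  have h2 : phiAt v S.x S.t (S.x a) (divX S a) S.inf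
      ≤ ∑ a, |phiAt v S.x S.t (S.x a) (divX S a) S.inf| :=
    (le_abs_self _).trans
      (Finset.single_le_sum (f := fun a => |phiAt v S.x S.t (S.x a) (divX S a) S.inf|)
        (fun a _ => abs_nonneg _) (Finset.mem_univ a))
  linarith


/-! ### Finite supports of the error terms -/

section Supports

variable {K : Type*} [Field K] [CharZero K] (A : QbarAbs K)

/-- `p ↦ log |y|_p` has finite support for every `y` (also `y = 0`). -/
theorem hasFiniteSupport_log_abv (y : K) :
    HasFiniteSupport (fun p : Option Nat.Primes => Real.log (A.abv p y)) := by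
  rcases eq_or_ne y 0 with rfl | hy
  · have : (fun p : Option Nat.Primes => Real.log (A.abv p (0 : K))) = fun _ => 0 := by
      funext p; simp
    rw [this]; simp [HasFiniteSupport]
  · exact hasFiniteSupport_log A y hy

/-- A tame family of constants is `1` at almost all places. -/
theorem hasFiniteSupport_log_tame {C : AbsoluteValue K ℝ → ℝ} (hC : IsTameConst C) :
    HasFiniteSupport (fun p : Option Nat.Primes => Real.log (C (A.abv p))) := by
  classical
  obtain ⟨T, hT0, hT⟩ := hC
  have hfin : (insert none (some '' (⋃ a ∈ T, {q : Nat.Primes | A.fin q a ≠ 1})) :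
      Set (Option Nat.Primes)).Finite := by
    refine Set.Finite.insert _ (Set.Finite.image _ ?_)
    exact Set.Finite.biUnion (Finset.finite_toSet T) fun a ha => A.finite_ne_one a (hT0 a ha)
  refine hfin.subset ?_
  intro p hp
  cases p with
  | none => exact Set.mem_insert _ _
  | some q =>
    refine Set.mem_insert_of_mem _ ⟨q, ?_, rfl⟩
    by_contra hnot
    apply hp
    have h1 : ∀ a ∈ T, A.abv (some q) a = 1 := by
      intro a ha
      by_contra hne
      apply hnot
      simp only [Set.mem_iUnion]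
      exact ⟨a, ha, hne⟩
    show Real.log (C (A.abv (some q))) = 0
    rw [(hT (A.abv (some q))).2 (A.fin_nonarch q) h1, Real.log_one]

theorem hasFiniteSupport_log_triC (m : ℕ) :
    HasFiniteSupport (fun p : Option Nat.Primes => Real.log (triC (A.abv p) m)) := by
  refine (Set.finite_singleton none).subset ?_
  intro p hp
  cases p with
  | none => rfl
  | some q =>
    exfalso
    apply hp
    show Real.log (triC (A.fin q) m) = 0
    rw [triC_of_nonarch _ (A.fin_nonarch q), Real.log_one]

theorem HasFiniteSupport.add' {f g : Option Nat.Primes → ℝ} (hf : HasFiniteSupport f)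
    (hg : HasFiniteSupport g) : HasFiniteSupport (fun p => f p + g p) :=
  (hf.union hg).subset (support_add f g)

theorem HasFiniteSupport.const_mul' (c : ℝ) {f : Option Nat.Primes → ℝ}
    (hf : HasFiniteSupport f) : HasFiniteSupport (fun p => c * f p) := by
  refine hf.subset ?_
  intro p hp h0
  apply hp
  show c * f p = 0
  rw [h0, mul_zero]

theorem HasFiniteSupport.abs' {f : Option Nat.Primes → ℝ}
    (hf : HasFiniteSupport f) : HasFiniteSupport (fun p => |f p|) := by
  refine hf.subset ?_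
  intro p hp h0
  apply hp
  show |f p| = 0
  rw [h0, abs_zero]

end Supports


/-! ### The theorem -/

theorem hasFiniteSupport_phiAt_inf (hG0 : S.PairFiniteSupport) (a : Fin (S.n + 1)) :
    HasFiniteSupport (fun p : Option Nat.Primes =>
      phiAt (S.A.abv p) S.x S.t (S.x a) (divX S a) S.inf) := by
  unfold phiAt
  refine HasFiniteSupport.add' (hasFiniteSupport_log_abv S.A _) ?_
  exact hG0 (divX S a) (Finsupp.single S.inf 1)

theorem hasFiniteSupport_errAt (hG0 : S.PairFiniteSupport) {C : AbsoluteValue Qb ℝ → ℝ}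
    (hC : IsTameConst C) :
    HasFiniteSupport (fun p : Option Nat.Primes => errAt S (S.A.abv p) (C (S.A.abv p))) := by
  unfold errAt
  refine HasFiniteSupport.add' (HasFiniteSupport.add' ?_ (hasFiniteSupport_log_tame S.A hC))
    (HasFiniteSupport.const_mul' _ (hasFiniteSupport_log_triC S.A 2))
  exact hasFiniteSupport_finset_sum Finset.univ
    (fun a p => |phiAt (S.A.abv p) S.x S.t (S.x a) (divX S a) S.inf|)
    (fun a _ => HasFiniteSupport.abs' (hasFiniteSupport_phiAt_inf S hG0 a))

/-- **Brick T1a (`S.CoordUpper`)**: the coordinates of the points of a divisor are bounded by its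
naive height. -/
theorem coordUpper (hU : S.MasterUD) (hG0 : S.PairFiniteSupport) : S.CoordUpper := by
  intro d₀
  obtain ⟨C, hC, hUD⟩ := hU ((2 * S.m₀ : ℕ) : ℤ)
  set E : Option Nat.Primes → ℝ := fun p => errAt S (S.A.abv p) (C (S.A.abv p)) with hE
  have hE0 : ∀ p, 0 ≤ E p := fun p => by
    obtain ⟨T, hT0, hT⟩ := hC
    exact errAt_nonneg S _ (hT _).1
  have hEfs : HasFiniteSupport E := hasFiniteSupport_errAt S hG0 hC
  refine ⟨((max d₀ 0 : ℤ) : ℝ) * S.A.gsum E, ?_⟩
  intro D hD0 hDst hDdeg hDinf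
  set m : ℝ := ((2 * S.m₀ : ℕ) : ℝ) with hm
  have hpairfs : HasFiniteSupport (fun p : Option Nat.Primes =>
      pairAt (S.A.abv p) S.x S.t (Finsupp.single S.inf 1) D) := hG0 _ _
  -- the pointwise inequality
  have hpt : ∀ p, coordSum S D p
      ≤ m * pairAt (S.A.abv p) S.x S.t (Finsupp.single S.inf 1) D
        + ((max d₀ 0 : ℤ) : ℝ) * E p := by
    intro p
    have hUDp := hUD (S.A.abv p) (isNiceAbs S.A p)
    have h1 : coordSum S D p ≤ ∑ Q ∈ D.support,
        ((D Q : ℤ) : ℝ) * (m * lamAt (S.A.abv p) S.x S.t S.inf Q + E p) := by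
      show ∑ Q ∈ D.support, ((D Q : ℤ) : ℝ) *
          Real.log (supNorm (S.A.abv p) (coordAt Q (S.t Q) S.x)) ≤ _
      apply Finset.sum_le_sum
      intro Q hQ
      have hQinf : Q ≠ S.inf := by
        rintro rfl
        exact (Finsupp.mem_support_iff.mp hQ) hDinf
      have h0 : (0 : ℝ) ≤ ((D Q : ℤ) : ℝ) := by exact_mod_cast hD0 Q
      exact mul_le_mul_of_nonneg_left
        (log_supNorm_coordAt_le S (S.A.abv p) (C (S.A.abv p)) hUDp hQinf) h0
    have h2 : ∑ Q ∈ D.support,
        ((D Q : ℤ) : ℝ) * (m * lamAt (S.A.abv p) S.x S.t S.inf Q + E p)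
        = m * pairAt (S.A.abv p) S.x S.t (Finsupp.single S.inf 1) D
          + ((Divisor.degree D : ℤ) : ℝ) * E p := by
      rw [pairAt_single_left, degree_eq_sum S D, Int.cast_sum, Finset.mul_sum, Finset.sum_mul,
        ← Finset.sum_add_distrib]
      apply Finset.sum_congr rfl
      intro Q _
      ring
    have h3 : ((Divisor.degree D : ℤ) : ℝ) * E p ≤ ((max d₀ 0 : ℤ) : ℝ) * E p := by
      apply mul_le_mul_of_nonneg_right _ (hE0 p)
      exact_mod_cast hDdeg.trans (le_max_left _ _)
    linarith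
  have hfs1 : HasFiniteSupport (fun p : Option Nat.Primes =>
      m * pairAt (S.A.abv p) S.x S.t (Finsupp.single S.inf 1) D) :=
    HasFiniteSupport.const_mul' _ hpairfs
  have hfs2 : HasFiniteSupport (fun p : Option Nat.Primes => ((max d₀ 0 : ℤ) : ℝ) * E p) :=
    HasFiniteSupport.const_mul' _ hEfs
  calc S.A.gsum (coordSum S D)
      ≤ S.A.gsum (fun p => m * pairAt (S.A.abv p) S.x S.t (Finsupp.single S.inf 1) D
          + ((max d₀ 0 : ℤ) : ℝ) * E p) :=
        gsum_le_gsum S.A (hasFiniteSupport_coordSum S D) (HasFiniteSupport.add' hfs1 hfs2) hpt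
    _ = S.A.gsum (fun p => m * pairAt (S.A.abv p) S.x S.t (Finsupp.single S.inf 1) D)
          + S.A.gsum (fun p => ((max d₀ 0 : ℤ) : ℝ) * E p) := gsum_add S.A hfs1 hfs2
    _ = m * S.hn D + ((max d₀ 0 : ℤ) : ℝ) * S.A.gsum E := by
        rw [gsum_const_mul, gsum_const_mul]
        rfl

end Fermat.Agent.MW.Global.CoordUpper62
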