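/-
Program MW (S17), height part H, package [i] = T1a + T1 (helper62): `S.NorthcottHn` from the master
theorem `S.MasterUD`, `S.PairFiniteSupport` (G0), `S.VeryAmple` (E3) and `S.MinRepExists`,
`S.MinRepStable` (P1).
-/
import Mathlib
import Fermat.Agent.MW.Global.CoordUpper62
import Fermat.Agent.MW.Global.NorthcottHn62

set_option autoImplicit false

open AlgebraicCurve

namespace Fermat.Agent.MW.Global.NorthcottTop62

open Fermat.Agent.MW.Spec.Defs7 Fermat.Agent.MW.Spec.Bricks7b

variable {F : Type} [Field F] [Algebra Qb F] [HasCanonicalDivisor (K := Qb) (F := F)]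
variable (S : HSetup F)

/-- **T1 from U**: Northcott for the naive height from the master theorem. -/
theorem northcottHn_of_masterUD (hU : S.MasterUD) (hG0 : S.PairFiniteSupport)
    (hVA : S.VeryAmple) (hP1a : S.MinRepExists) (hP1b : S.MinRepStable) : S.NorthcottHn :=
  Fermat.Agent.MW.Global.NorthcottHn62.northcottHn S hVA hP1a hP1b
    (Fermat.Agent.MW.Global.CoordUpper62.coordUpper S hU hG0)

end Fermat.Agent.MW.Global.NorthcottTop62
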