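/-
Program MW-H (S17), brick P1c (helper49): `S.RationalGenerator` of `Spec/Bricks7b`, UNCONDITIONAL.

A stable principal divisor `p = div f` has a rational generator: `f' := c⁻¹ • f` with
`c = lead_inf(f)` (leading coefficient at the fixed place `inf` with respect to its equivariant
uniformiser).  For `σ ∈ Γ` the function `σ • f` has the same divisor as `f`, hence `σ • f = a f`
with `a` constant ("no pole ⇒ constant"); comparing leading coefficients at `inf` gives
`σ c = a c`, so `σ • f' = f'`.
-/
import Mathlib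
import Fermat.Agent.MW.Global.GlobalUD2
import Fermat.Agent.RR.LHypGen

set_option autoImplicit false
set_option linter.unusedSectionVars false

open AlgebraicCurve IntermediateField

namespace Fermat.Agent.MW.Global.RatGen49

open Fermat.Agent.MW.Hadamard7 Fermat.Agent.MW.Spec.Defs7 Fermat.Agent.MW.Spec.Contract7
open Fermat.Agent.MW.Spec.Bricks7 Fermat.Agent.MW.Spec.Bricks7b
open Fermat.Agent.X0 Fermat.Agent.X0.FF
open Fermat.Agent.MW.FF.EvalLead49
open Fermat.Agent.MW.Global.GlobalUD2

variable {F : Type} [Field F] [Algebra Qb F] [HasCanonicalDivisor (K := Qb) (F := F)]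
variable (S : HSetup F)

/-- If `f` generates a stable divisor, then `σ • f` has the same orders as `f`. -/
theorem ord_smul_eq_of_stable {p : Divisor Qb F} {f : F} (hdiv : IsDivOf p f)
    (hp : IsStable S.γ p) (σ : GQ) (P : Place Qb F) : P.ord (S.γ σ • f) = P.ord f := by
  have h1 := SemilinearAut.ord_smul (S.γ σ) ((S.γ σ)⁻¹ • P) f
  rw [smul_inv_smul] at h1
  rw [h1, ← hdiv, ← hdiv P]
  have h2 : (S.γ σ • p) P = p P := by rw [hp σ]
  rw [SemilinearAut.divisor_smul_apply] at h2
  exact h2

/-- **Brick P1c**: a stable principal divisor has a rational generator. -/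
theorem rationalGenerator : S.RationalGenerator := by
  intro p f hf hdiv hp
  have hres := hasResK S S.inf
  have ht := S.unif.1 S.inf
  set c : Qb := leadAt S.inf (S.t S.inf) f with hc
  have hc0 : c ≠ 0 := leadAt_ne_zero hres ht hf
  have hcF : algebraMap Qb F c⁻¹ ≠ 0 := by
    rw [ne_eq, map_eq_zero_iff _ (algebraMap Qb F).injective]
    exact inv_ne_zero hc0
  refine ⟨algebraMap Qb F c⁻¹ * f, mul_ne_zero hcF hf, fun P => ?_, fun σ => ?_⟩
  · rw [hdiv P, P.ord_mul hcF hf, ffp_ord_algebraMap, zero_add]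
  · -- `σ • f = a f`
    have hσf : S.γ σ • f ≠ 0 := (smul_eq_zero_iff' (S.γ σ)).not.mpr hf
    have hord : ∀ P : Place Qb F, 0 ≤ P.ord (S.γ σ • f / f) := fun P => by
      rw [div_eq_mul_inv, P.ord_mul hσf (inv_ne_zero hf), P.ord_inv,
        ord_smul_eq_of_stable S hdiv hp σ P]
      omega
    obtain ⟨a, ha⟩ := Fermat.Agent.RR.LSpace.eq_algebraMap_of_forall_ord_nonneg
      (Fermat.Agent.RR.LHypGen.lHyp_of_isGen S.gen) hord
    have hσ : S.γ σ • f = a • f := by
      rw [Algebra.smul_def, ← ha, div_mul_cancel₀ _ hf]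
    -- leading coefficients at `inf`
    have h1 := leadAt_smul_aut (S.γ σ) S.inf (S.t S.inf) f
    rw [S.inf_fixed σ, ← S.unif.2 σ S.inf, S.inf_fixed σ, S.base, hσ,
      leadAt_smul_const hres ht a hf] at h1
    -- `h1 : a * c = σ c`
    have ha' : a = σ c * c⁻¹ := by
      rw [← h1, mul_assoc, mul_inv_cancel₀ hc0, mul_one]
    rw [smul_mul', SemilinearAut.smul_algebraMap, S.base, hσ, Algebra.smul_def, ← mul_assoc,
      ← map_mul, ha', map_inv₀]
    congr 2
    rw [← mul_assoc, inv_mul_cancel₀ ((map_ne_zero σ).mpr hc0), one_mul]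

end Fermat.Agent.MW.Global.RatGen49
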