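/-
Program MW-H (S17), brick AD (helper49), part C: THE GLOBAL ADJUNCTION INEQUALITY
`S.AdjunctionLower` of `Spec/Bricks7b`.

    theorem adjunctionLower (hU : S.MasterUD) (hCU : S.CoordUpper) (hA2 : S.EpsComparison) :
        S.AdjunctionLower

Route: the local adjunction inequality `AdjLocal49.local_adj` at every place `p ≤ ∞` of `ℚ` (with
the tame constants of the master theorem for the Wronskians), summed over the points of `D` and
over `p`:
* the leading coefficients `rho P` of `du / d t_P` are Galois-equivariant, so `∏_P rho_P^{D(P)}` is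
  a nonzero rational number for stable `D` and drops out (product formula);
* `∑_p ∑_P D(P) log ‖pt P‖_p ≤ 2 m₀ · hn D + C` (`CoordUpper`) cancels `2m · hn D`;
* what remains is `pair (div du) D - C`, and `div du` is stable of degree `2g - 2`, so
  `EpsComparison` and `HnLower` give `(2g - 2 - ε) hn D - C'`.
-/
import Mathlib
import Fermat.Agent.MW.FF.AdjLocal49
import Fermat.Agent.MW.Global.GlobalUD2

set_option autoImplicit false
set_option linter.unusedSectionVars false

open AlgebraicCurve IntermediateField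

namespace Fermat.Agent.MW.Global.AdjLower49

open Function
open Fermat.Agent.MW.Hadamard7 Fermat.Agent.MW.Spec.Defs7 Fermat.Agent.MW.Spec.Contract7
open Fermat.Agent.MW.Spec.Bricks7 Fermat.Agent.MW.Spec.Bricks7b Fermat.Agent.MW.Spec.BricksU7
open Fermat.Agent.X0 Fermat.Agent.X0.FF
open Fermat.Agent.MW.FF.EvalLead49 Fermat.Agent.MW.FF.Coord49
open Fermat.Agent.MW.FF.LeadLinear49 Fermat.Agent.MW.FF.Deriv49 Fermat.Agent.MW.FF.WronDiv49
open Fermat.Agent.MW.FF.AdjLocal49
open Fermat.Agent.MW.Local.Chord2 Fermat.Agent.MW.Arith.ProductFormula62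
open Fermat.Agent.MW.Global.PairBasic2 Fermat.Agent.MW.Global.HnLower2
open Fermat.Agent.MW.Global.GlobalUD2
open scoped Classical

noncomputable section

variable {F : Type} [Field F] [Algebra Qb F] [HasCanonicalDivisor (K := Qb) (F := F)]
variable (S : HSetup F)

/-- The general-field data of `S`. -/
abbrev UU : USetup Qb F := ofHSetup S

/-! ### Finite supports -/

/-- `p ↦ log ‖w‖_p` has finite support for a fixed vector `w`. -/
theorem hasFiniteSupport_log_supNorm {ι : Type*} [Fintype ι] (w : ι → Qb) :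
    HasFiniteSupport fun p => Real.log (supNorm (S.A.abv p) w) := by
  refine (supNorm_abv_cofinite S.A w).subset fun p hp => ?_
  simp only [Function.mem_support, ne_eq, Set.mem_ofPred_eq] at hp ⊢
  intro h
  apply hp
  rw [h]
  rcases genericNorm_mem w with h0 | h0 <;> rw [h0] <;> simp

/-- `p ↦ log chord_p (w, w')` has finite support for fixed vectors. -/
theorem hasFiniteSupport_log_chord {ι : Type*} [Fintype ι] (w w' : ι → Qb) :
    HasFiniteSupport fun p => Real.log (chord (S.A.abv p) w w') := by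
  have h1 := supNorm_abv_cofinite S.A (wedge w w')
  have h2 := supNorm_abv_cofinite S.A w
  have h3 := supNorm_abv_cofinite S.A w'
  refine ((h1.union h2).union h3).subset fun p hp => ?_
  by_contra hcon
  simp only [Set.mem_union, Set.mem_ofPred_eq, not_or, not_not] at hcon
  obtain ⟨⟨e1, e2⟩, e3⟩ := hcon
  apply hp
  show Real.log (chord (S.A.abv p) w w') = 0
  unfold chord
  rw [e1, e2, e3]
  rcases genericNorm_mem (wedge w w') with h | h <;> rcases genericNorm_mem w with h' | h' <;>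
    rcases genericNorm_mem w' with h'' | h'' <;> rw [h, h', h''] <;> simp

theorem hasFiniteSupport_Emu :
    HasFiniteSupport fun p => Emu (UU S) (S.A.abv p) := by
  unfold Emu
  refine hasFiniteSupport_finset_sum _ _ fun RR _ => ?_
  by_cases h : RR.1 = RR.2
  · simp only [if_pos h]
    simp [HasFiniteSupport]
  · simp only [if_neg h]
    refine (hasFiniteSupport_log_chord S ((UU S).pt RR.1) ((UU S).pt RR.2)).subset fun p hp => ?_
    simp only [Function.mem_support, ne_eq] at hp ⊢
    intro h0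
    apply hp
    rw [h0]
    simp

theorem hasFiniteSupport_cref (ab : Fin ((UU S).n + 1) × Fin ((UU S).n + 1)) :
    HasFiniteSupport fun p => cref (UU S) (S.A.abv p) ab := by
  unfold cref
  by_cases h : wr (UU S) ab.1 ab.2 ≠ 0
  · simp only [dif_pos h]
    exact hasFiniteSupport_phiAt S h _ _
  · simp only [dif_neg h]
    simp [HasFiniteSupport]

theorem hasFiniteSupport_abs {f : Option Nat.Primes → ℝ} (hf : HasFiniteSupport f) :
    HasFiniteSupport fun p => |f p| := by
  refine hf.subset fun p hp => ?_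
  simp only [Function.mem_support, ne_eq, abs_eq_zero] at hp ⊢
  exact hp

theorem hasFiniteSupport_cabs :
    HasFiniteSupport fun p => cabs (UU S) (S.A.abv p) := by
  unfold cabs
  exact hasFiniteSupport_finset_sum _ _ fun ab _ => hasFiniteSupport_abs (hasFiniteSupport_cref S ab)

theorem hasFiniteSupport_Eloc {C : AbsoluteValue Qb ℝ → ℝ} (hC : IsTameConst C) :
    HasFiniteSupport fun p => Eloc (UU S) (S.A.abv p) (C (S.A.abv p)) := by
  unfold Eloc
  exact hfs_add (hfs_add (hasFiniteSupport_cabs S) (hasFiniteSupport_log_tame S.A hC))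
    (hfs_const_mul _ (hfs_add (hasFiniteSupport_log_triC S.A 3) (hasFiniteSupport_Emu S)))

/-! ### Galois equivariance of `rho` and stability of `div du` -/

theorem derivU_smul (σ : GQ) (f : F) :
    derivU S.gen (S.γ σ • f) = S.γ σ • derivU S.gen f :=
  derivU_smul_aut S.gen (S.γ σ) (S.u_fixed σ) f

theorem gP_smul (σ : GQ) (P : Place Qb F) :
    gP (UU S) (S.γ σ • P) = S.γ σ • gP (UU S) P := by
  unfold gP
  show (derivU S.gen (S.t (S.γ σ • P)))⁻¹ = S.γ σ • (derivU S.gen (S.t P))⁻¹
  rw [S.unif.2 σ P, derivU_smul, smul_inv'']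

/-- `rho` is Galois-equivariant. -/
theorem rho_smul (σ : GQ) (P : Place Qb F) : rho (UU S) (S.γ σ • P) = σ (rho (UU S) P) := by
  unfold rho
  show leadAt (S.γ σ • P) (S.t (S.γ σ • P)) (gP (UU S) (S.γ σ • P)) = _
  rw [gP_smul, S.unif.2 σ P, leadAt_smul_aut, S.base]
  rfl

/-- `∏_P rho_P ^ D(P)`. -/
def rhoProd (D : Divisor Qb F) : Qb := D.prod fun P a => rho (UU S) P ^ a

theorem rhoProd_ne_zero (D : Divisor Qb F) : rhoProd S D ≠ 0 := by
  unfold rhoProd
  rw [Finsupp.prod]
  exact Finset.prod_ne_zero_iff.mpr fun P _ => zpow_ne_zero _ (rho_ne_zero (UU S) P)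

theorem rhoProd_fixed {D : Divisor Qb F} (hD : IsStable S.γ D) (σ : GQ) :
    σ (rhoProd S D) = rhoProd S D := by
  have h1 : rhoProd S (S.γ σ • D) = σ (rhoProd S D) := by
    unfold rhoProd
    rw [SemilinearAut.divisor_smul_def,
      Finsupp.prod_mapDomain_index_inj (MulAction.injective (S.γ σ)), Finsupp.prod, Finsupp.prod,
      map_prod]
    refine Finset.prod_congr rfl fun P _ => ?_
    rw [rho_smul S σ P, map_zpow₀]
  rw [← h1, hD σ]

theorem log_abv_rhoProd (v : AbsoluteValue Qb ℝ) (D : Divisor Qb F) :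
    Real.log (v (rhoProd S D)) =
      ∑ P ∈ D.support, (D P : ℝ) * Real.log (v (rho (UU S) P)) := by
  unfold rhoProd
  rw [Finsupp.prod, map_prod, Real.log_prod]
  · refine Finset.sum_congr rfl fun P _ => ?_
    rw [map_zpow₀, Real.log_zpow]
  · intro P _
    rw [map_zpow₀]
    exact zpow_ne_zero _ ((AbsoluteValue.ne_zero_iff v).mpr (rho_ne_zero (UU S) P))

/-- The contribution of the `rho P` vanishes for stable `D` (product formula). -/
theorem sum_gsum_log_rho_eq_zero {D : Divisor Qb F} (hD : IsStable S.γ D) :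
    ∑ P ∈ D.support, (D P : ℝ) * S.A.gsum (fun p => Real.log (S.A.abv p (rho (UU S) P))) = 0 := by
  have h := gsum_log_eq_zero_of_fixed S.A (rhoProd_ne_zero S D) (rhoProd_fixed S hD)
  rw [show (fun p => Real.log (S.A.abv p (rhoProd S D))) =
      fun p => ∑ P ∈ D.support, (D P : ℝ) * Real.log (S.A.abv p (rho (UU S) P)) from
      funext fun p => log_abv_rhoProd S (S.A.abv p) D] at h
  rw [gsum_finset_sum S.A _ _ (fun P _ => hfs_const_mul _
    (hasFiniteSupport_log S.A _ (rho_ne_zero (UU S) P)))] at h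
  rw [← h]
  refine Finset.sum_congr rfl fun P _ => ?_
  rw [gsum_const_mul]

/-- The divisor of `du` is stable. -/
theorem Wdiv_stable : IsStable S.γ (Wdiv (UU S)) := by
  intro σ
  ext P
  rw [SemilinearAut.divisor_smul_apply, Wdiv_apply, Wdiv_apply]
  show -((S.γ σ)⁻¹ • P).ord (derivU S.gen (S.t ((S.γ σ)⁻¹ • P))) =
    -P.ord (derivU S.gen (S.t P))
  have h1 : S.t P = S.γ σ • S.t ((S.γ σ)⁻¹ • P) := by
    rw [← S.unif.2 σ, smul_inv_smul]
  rw [h1, derivU_smul]
  have h2 := SemilinearAut.ord_smul (S.γ σ) ((S.γ σ)⁻¹ • P)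
    (derivU S.gen (S.t ((S.γ σ)⁻¹ • P)))
  rw [smul_inv_smul] at h2
  rw [h2]

theorem degree_Wdiv :
    Divisor.degree (Wdiv (UU S)) = 2 * (genus Qb F : ℤ) - 2 :=
  Fermat.Agent.RR.RRMain.degree_canonical S.gen (D_ne_zero S.gen)
    (fun v => canonicalDivisorOf_apply (D_ne_zero S.gen) v)

/-! ### The global inequality at one point -/

/-- A common bound for the degrees of the Wronskian divisors. -/
def dW : ℤ :=
  ∑ ab : Fin ((UU S).n + 1) × Fin ((UU S).n + 1),
    if h : wr (UU S) ab.1 ab.2 ≠ 0 then posDeg (divWr (UU S) ab.1 ab.2 h) else 0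

theorem posDeg_nonneg' (D : Divisor Qb F) : 0 ≤ posDeg D := by
  unfold posDeg
  exact Finset.sum_nonneg fun P _ => le_max_right _ _

theorem posDeg_divWr_le (a b : Fin ((UU S).n + 1)) (h : wr (UU S) a b ≠ 0) :
    posDeg (divWr (UU S) a b h) ≤ dW S := by
  unfold dW
  have h1 := Finset.single_le_sum
    (f := fun ab : Fin ((UU S).n + 1) × Fin ((UU S).n + 1) =>
      if h : wr (UU S) ab.1 ab.2 ≠ 0 then posDeg (divWr (UU S) ab.1 ab.2 h) else 0)
    (s := Finset.univ)
    (fun ab _ => by
      show 0 ≤ (if h : wr (UU S) ab.1 ab.2 ≠ 0 then posDeg (divWr (UU S) ab.1 ab.2 h) else 0)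
      split_ifs
      · exact posDeg_nonneg' _
      · exact le_refl _) (Finset.mem_univ (a, b))
  simp only [dif_pos h] at h1
  exact h1

/-- The total error term. -/
def Etot (C : AbsoluteValue Qb ℝ → ℝ) : ℝ :=
  S.A.gsum fun p => Eloc (UU S) (S.A.abv p) (C (S.A.abv p))

theorem Etot_nonneg {C : AbsoluteValue Qb ℝ → ℝ} (hC : IsTameConst C) : 0 ≤ Etot S C := by
  unfold Etot
  refine gsum_nonneg S.A fun p => Eloc_nonneg (UU S) (S.A.abv p) ?_
  obtain ⟨T, _, hT⟩ := hC
  exact (hT _).1

theorem pair_single_one (P Q : Place Qb F) :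
    S.pair (Finsupp.single P 1) (Finsupp.single Q 1) =
      S.A.gsum fun p => lamAt (S.A.abv p) S.x S.t P Q := by
  rw [pair_def]
  congr 1
  funext p
  rw [pairAt_single_single]
  simp

theorem pair_eq_sum_right (D E : Divisor Qb F) :
    S.pair D E = ∑ Q ∈ E.support, (E Q : ℝ) * S.pair D (Finsupp.single Q 1) := by
  rw [pair_def]
  rw [show (fun p => pairAt (S.A.abv p) S.x S.t D E) = fun p =>
      ∑ Q ∈ E.support, (E Q : ℝ) * pairAt (S.A.abv p) S.x S.t D (Finsupp.single Q 1) from
      funext fun p => pairAt_eq_sum_right _ _ _ D E]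
  rw [gsum_finset_sum S.A _ _ (fun Q _ => hfs_const_mul _
    (hasFiniteSupport_pairAt S.A S.x S.t D (Finsupp.single Q 1)))]
  refine Finset.sum_congr rfl fun Q _ => ?_
  rw [gsum_const_mul, pair_def]

/-- The adjunction inequality for one point, summed over all places of `ℚ`. -/
theorem point_ineq {C : AbsoluteValue Qb ℝ → ℝ} (hCt : IsTameConst C)
    (hC : ∀ v : AbsoluteValue Qb ℝ, IsNiceAbs v → UDLocal v S.x S.t (dW S) (C v))
    (P : Place Qb F) :
    S.A.gsum (fun p => Real.log (S.A.abv p (rho (UU S) P)))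
      + (((2 * (UU S).m : ℕ) : ℤ) : ℝ) * S.hn (Finsupp.single P 1)
      - 2 * S.A.gsum (fun p => Real.log (supNorm (S.A.abv p) ((UU S).pt P)))
      + S.pair (Wdiv (UU S)) (Finsupp.single P 1) - Etot S C ≤
    -S.pair (Finsupp.single P 1) (Finsupp.single P 1) := by
  have h1 : HasFiniteSupport fun p => Real.log (S.A.abv p (rho (UU S) P)) :=
    hasFiniteSupport_log S.A _ (rho_ne_zero (UU S) P)
  have h2 : HasFiniteSupport fun p => lamAt (S.A.abv p) S.x S.t S.inf P :=
    hasFiniteSupport_lamAt S.A S.x S.t S.inf P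
  have h2' : HasFiniteSupport fun p =>
      (((2 * (UU S).m : ℕ) : ℤ) : ℝ) * lamAt (S.A.abv p) S.x S.t S.inf P := hfs_const_mul _ h2
  have h3 : HasFiniteSupport fun p => Real.log (supNorm (S.A.abv p) ((UU S).pt P)) :=
    hasFiniteSupport_log_supNorm S _
  have h3' : HasFiniteSupport fun p => 2 * Real.log (supNorm (S.A.abv p) ((UU S).pt P)) :=
    hfs_const_mul _ h3
  have h4 : HasFiniteSupport fun p =>
      pairAt (S.A.abv p) S.x S.t (Wdiv (UU S)) (Finsupp.single P 1) :=
    hasFiniteSupport_pairAt S.A S.x S.t _ _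
  have h5 : HasFiniteSupport fun p => Eloc (UU S) (S.A.abv p) (C (S.A.abv p)) :=
    hasFiniteSupport_Eloc S hCt
  have h6 : HasFiniteSupport fun p => lamAt (S.A.abv p) S.x S.t P P :=
    hasFiniteSupport_lamAt S.A S.x S.t P P
  have h6' : HasFiniteSupport fun p => -lamAt (S.A.abv p) S.x S.t P P := by
    refine h6.subset fun p hp => ?_
    simp only [Function.mem_support, ne_eq, neg_eq_zero] at hp ⊢
    exact hp
  have key := gsum_le_gsum S.A
    (hfs_sub (hfs_add (hfs_sub (hfs_add h1 h2') h3') h4) h5) h6'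
    (fun p => local_adj (UU S) (S.A.abv p) (dW S) (C (S.A.abv p))
      (hC _ (isNiceAbs S.A p)) (fun a b h => posDeg_divWr_le S a b h) P)
  rw [gsum_sub S.A (hfs_add (hfs_sub (hfs_add h1 h2') h3') h4) h5,
    gsum_add S.A (hfs_sub (hfs_add h1 h2') h3') h4,
    gsum_sub S.A (hfs_add h1 h2') h3', gsum_add S.A h1 h2', gsum_const_mul, gsum_const_mul,
    gsum_neg] at key
  rw [hn_def, pair_single_one, pair_single_one, pair_def]
  exact key

/-! ### The theorem -/

/-- **Brick AD**: the lower half of the adjunction formula,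
`- kap D ≥ (2g - 2 - ε) hn D - C` for effective stable `D` of bounded degree off `inf`. -/
theorem adjunctionLower (hU : S.MasterUD) (hCU : S.CoordUpper) (hA2 : S.EpsComparison) :
    S.AdjunctionLower := by
  intro d₀ ε hε
  obtain ⟨C, hCt, hC⟩ := hU (dW S)
  obtain ⟨CCU, hCCU⟩ := hCU d₀
  obtain ⟨CA2, hCA2⟩ := hA2 (Wdiv (UU S)) (Wdiv_stable S) d₀ ε hε
  obtain ⟨CA0, hCA0⟩ := hnLower S d₀
  refine ⟨CA2 + 2 * CCU + max (d₀ : ℝ) 0 * Etot S C + 2 * ε * |CA0|,
    fun D hD0 hDs hDd hDinf => ?_⟩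
  have hE := Etot_nonneg S hCt
  have hDP : ∀ P, (0 : ℝ) ≤ (D P : ℝ) := fun P => by exact_mod_cast hD0 P
  -- the sum of the pointwise inequalities
  have hsum := Finset.sum_le_sum fun P (_ : P ∈ D.support) =>
    mul_le_mul_of_nonneg_left (point_ineq S hCt hC P) (hDP P)
  -- the right-hand side
  have hR : ∑ P ∈ D.support, (D P : ℝ) *
      (-S.pair (Finsupp.single P 1) (Finsupp.single P 1)) = -S.kap D := by
    rw [kap_def, Finsupp.sum, ← Finset.sum_neg_distrib]
    exact Finset.sum_congr rfl fun P _ => by ring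
  -- the left-hand side
  have hL : ∑ P ∈ D.support, (D P : ℝ) *
      (S.A.gsum (fun p => Real.log (S.A.abv p (rho (UU S) P)))
      + (((2 * (UU S).m : ℕ) : ℤ) : ℝ) * S.hn (Finsupp.single P 1)
      - 2 * S.A.gsum (fun p => Real.log (supNorm (S.A.abv p) ((UU S).pt P)))
      + S.pair (Wdiv (UU S)) (Finsupp.single P 1) - Etot S C) =
      (∑ P ∈ D.support, (D P : ℝ) * S.A.gsum (fun p => Real.log (S.A.abv p (rho (UU S) P))))
      + (((2 * (UU S).m : ℕ) : ℤ) : ℝ) *
          (∑ P ∈ D.support, (D P : ℝ) * S.hn (Finsupp.single P 1))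
      - 2 * (∑ P ∈ D.support, (D P : ℝ) *
          S.A.gsum (fun p => Real.log (supNorm (S.A.abv p) ((UU S).pt P))))
      + (∑ P ∈ D.support, (D P : ℝ) * S.pair (Wdiv (UU S)) (Finsupp.single P 1))
      - (∑ P ∈ D.support, (D P : ℝ)) * Etot S C := by
    simp only [Finset.mul_sum, Finset.sum_mul, ← Finset.sum_add_distrib,
      ← Finset.sum_sub_distrib]
    exact Finset.sum_congr rfl fun P _ => by ring
  rw [hR, hL, sum_gsum_log_rho_eq_zero S hDs, ← hn_eq_sum S D, ← pair_eq_sum_right S _ D]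
    at hsum
  -- the coordinate term
  have hG : ∑ P ∈ D.support, (D P : ℝ) *
      S.A.gsum (fun p => Real.log (supNorm (S.A.abv p) ((UU S).pt P))) =
      S.A.gsum fun p => D.sum fun P a => (a : ℝ) *
        Real.log (supNorm (S.A.abv p) (coordAt P (S.t P) S.x)) := by
    rw [show (fun p => D.sum fun P a => (a : ℝ) *
        Real.log (supNorm (S.A.abv p) (coordAt P (S.t P) S.x))) =
        fun p => ∑ P ∈ D.support, (D P : ℝ) *
          Real.log (supNorm (S.A.abv p) ((UU S).pt P)) from rfl]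
    rw [gsum_finset_sum S.A _ _ (fun P _ => hfs_const_mul _ (hasFiniteSupport_log_supNorm S _))]
    refine Finset.sum_congr rfl fun P _ => ?_
    rw [gsum_const_mul]
  rw [hG] at hsum
  have hcu := hCCU D hD0 hDs hDd hDinf
  -- the degree
  have hdeg : (∑ P ∈ D.support, (D P : ℝ)) = (Divisor.degree D : ℝ) := by
    rw [degree_eq_sum S D]
    push_cast
    rfl
  rw [hdeg] at hsum
  have hdeg_le : (Divisor.degree D : ℝ) * Etot S C ≤ max (d₀ : ℝ) 0 * Etot S C := by
    refine mul_le_mul_of_nonneg_right ?_ hE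
    exact le_trans (by exact_mod_cast hDd) (le_max_left _ _)
  -- the comparison with the canonical divisor
  have ha2 := hCA2 D hD0 hDs hDd hDinf
  rw [degree_Wdiv S] at ha2
  have ha2' := (abs_le.mp ha2).1
  push_cast at ha2'
  -- `|hn D| ≤ hn D + 2 |CA0|`
  have ha0 := hCA0 D hD0 hDd hDinf
  have habs : |S.hn D| ≤ S.hn D + 2 * |CA0| := by
    have h1 : CA0 ≤ |CA0| := le_abs_self _
    rcases le_or_gt 0 (S.hn D) with h | h
    · rw [abs_of_nonneg h]
      have := abs_nonneg CA0
      linarith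
    · rw [abs_of_neg h]
      linarith
  have hm : (((2 * (UU S).m : ℕ) : ℤ) : ℝ) = 2 * ((2 * S.m₀ : ℕ) : ℝ) := by
    show (((2 * (2 * S.m₀) : ℕ) : ℤ) : ℝ) = _
    push_cast
    ring
  rw [hm] at hsum
  have hεabs : ε * |S.hn D| ≤ ε * (S.hn D + 2 * |CA0|) :=
    mul_le_mul_of_nonneg_left habs hε.le
  nlinarith [hsum, hcu, hdeg_le, ha2', hεabs]

end

end Fermat.Agent.MW.Global.AdjLower49
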