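/-
Program MW-H (S17), helper86.  Brick [h2-c] of HD-global: THE GLOBAL HADAMARD INEQUALITY FOR ONE
SEQUENCE OF PLACES.

For the standing data `S : HSetup F`, a divisor `W`, functions `ω : Fin r → F` in `L(W)` and a
sequence `P : Fin r → Place` with `jetDet W S.t ω P ≠ 0`, with `T = ∑ k, [P k]`:

    ∑_p log |jetDet W t ω P|_p ≤ ∑_p log C_p + pair W T - (pair T T - kap T) / 2

(`gsum_log_jetDet_le`), where `C` is the tame constant of `JetHadamard86.jetHadamard` (it does not
depend on `P`).  Also: finite-sum bilinearity of `pair` (`pair_sum_left/right`, `kap_sum`), the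
identity `pair T T - kap T = 2 ∑_{j<k} pair [P j] [P k]` (`pair_self_sub_kap_seq`) and the
decomposition `pair (D+E) (D+E) - kap (D+E)` (`pair_self_sub_kap_add`).
-/
import Mathlib
import Fermat.Agent.MW.Local.JetHadamard86
import Fermat.Agent.MW.Global.AdjLower49

set_option autoImplicit false
set_option linter.unusedSectionVars false

open AlgebraicCurve

namespace Fermat.Agent.MW.Global.JetLogSum86

open Function
open Fermat.Agent.MW.Hadamard7 Fermat.Agent.MW.Spec.Defs7 Fermat.Agent.MW.Spec.Contract7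
open Fermat.Agent.MW.Spec.Bricks7 Fermat.Agent.MW.Spec.Bricks7b Fermat.Agent.MW.Spec.BricksU7
open Fermat.Agent.MW.Local.Chord2 Fermat.Agent.MW.Arith.ProductFormula62
open Fermat.Agent.MW.Global.PairBasic2 Fermat.Agent.MW.Global.AdjLower49
open Fermat.Agent.MW.FF.Jet86 Fermat.Agent.MW.Local.Tame86
open scoped Classical

noncomputable section

variable {F : Type} [Field F] [Algebra Qb F] [HasCanonicalDivisor (K := Qb) (F := F)]
variable (S : HSetup F)

/-! ### Finite sums -/

theorem pair_sum_left {ι : Type*} (s : Finset ι) (f : ι → Divisor Qb F) (E : Divisor Qb F) :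
    S.pair (∑ i ∈ s, f i) E = ∑ i ∈ s, S.pair (f i) E := by
  induction s using Finset.induction_on with
  | empty => simp [pair_zero_left]
  | insert a s ha ih => rw [Finset.sum_insert ha, Finset.sum_insert ha, pair_add_left, ih]

theorem pair_sum_right {ι : Type*} (s : Finset ι) (D : Divisor Qb F) (f : ι → Divisor Qb F) :
    S.pair D (∑ i ∈ s, f i) = ∑ i ∈ s, S.pair D (f i) := by
  induction s using Finset.induction_on with
  | empty => simp [pair_zero_right]
  | insert a s ha ih => rw [Finset.sum_insert ha, Finset.sum_insert ha, pair_add_right, ih]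

theorem kap_sum {ι : Type*} (s : Finset ι) (f : ι → Divisor Qb F) :
    S.kap (∑ i ∈ s, f i) = ∑ i ∈ s, S.kap (f i) := by
  induction s using Finset.induction_on with
  | empty => simp [kap_zero]
  | insert a s ha ih => rw [Finset.sum_insert ha, Finset.sum_insert ha, kap_add, ih]

theorem hn_sum {ι : Type*} (s : Finset ι) (f : ι → Divisor Qb F) :
    S.hn (∑ i ∈ s, f i) = ∑ i ∈ s, S.hn (f i) :=
  pair_sum_right S s _ f

/-- `pair (D+E) (D+E) - kap (D+E)` splits (no disjointness needed: `kap` is linear). -/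
theorem pair_self_sub_kap_add (D E : Divisor Qb F) :
    S.pair (D + E) (D + E) - S.kap (D + E) =
      (S.pair D D - S.kap D) + 2 * S.pair D E + (S.pair E E - S.kap E) := by
  rw [pair_add_left, pair_add_right, pair_add_right, kap_add, pair_comm S E D]
  ring

/-! ### A symmetric double sum -/

theorem sum_sum_symm {r : ℕ} (a : Fin r → Fin r → ℝ) (hsymm : ∀ j k, a j k = a k j) :
    ∑ k, ∑ j, a j k =
      ∑ k, a k k + 2 * ∑ k, ∑ j ∈ Finset.univ.filter (· < k), a j k := by
  have h1 : ∀ k : Fin r, ∑ j, a j k =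
      ∑ j ∈ Finset.univ.filter (· < k), a j k + a k k +
        ∑ j ∈ Finset.univ.filter (k < ·), a j k := by
    intro k
    rw [Finset.sum_filter, Finset.sum_filter]
    have : a k k = ∑ j, if j = k then a j k else 0 := by
      rw [Finset.sum_ite_eq' Finset.univ k (fun j => a j k)]
      simp
    rw [this, ← Finset.sum_add_distrib, ← Finset.sum_add_distrib]
    refine Finset.sum_congr rfl fun j _ => ?_
    rcases lt_trichotomy j k with h | h | h
    · have h2 : ¬ k < j := not_lt.mpr h.le
      have h3 : j ≠ k := h.ne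
      simp [h, h2, h3]
    · subst h
      simp
    · have h2 : ¬ j < k := not_lt.mpr h.le
      have h3 : j ≠ k := h.ne'
      simp [h, h2, h3]
  have h2 : ∑ k : Fin r, ∑ j ∈ Finset.univ.filter (k < ·), a j k =
      ∑ k : Fin r, ∑ j ∈ Finset.univ.filter (· < k), a j k := by
    rw [Finset.sum_comm' (s' := fun j : Fin r => Finset.univ.filter (· < j))
      (t' := Finset.univ) (by intro x y; simp)]
    refine Finset.sum_congr rfl fun k _ => Finset.sum_congr rfl fun j _ => hsymm _ _
  simp_rw [h1]
  rw [Finset.sum_add_distrib, Finset.sum_add_distrib, h2]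
  ring

/-- The divisor of a sequence of places. -/
def seqDiv {r : ℕ} (P : Fin r → Place Qb F) : Divisor Qb F := ∑ k, Finsupp.single (P k) (1 : ℤ)

/-- `pair T T - kap T = 2 ∑_{j<k} pair [P j] [P k]` for `T = ∑ [P k]`. -/
theorem pair_self_sub_kap_seq {r : ℕ} (P : Fin r → Place Qb F) :
    S.pair (seqDiv P) (seqDiv P) - S.kap (seqDiv P) =
      2 * ∑ k, ∑ j ∈ Finset.univ.filter (· < k),
        S.pair (Finsupp.single (P j) 1) (Finsupp.single (P k) 1) := by
  unfold seqDiv
  rw [pair_sum_right, kap_sum]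
  simp_rw [pair_sum_left, kap_single]
  rw [sum_sum_symm (fun j k => S.pair (Finsupp.single (P j) 1) (Finsupp.single (P k) 1))
    (fun j k => pair_comm S _ _)]
  simp

/-! ### The inequality at one place -/

theorem log_jetDet_le_local {r : ℕ} (v : AbsoluteValue Qb ℝ) (W : Divisor Qb F) (ω : Fin r → F)
    (P : Fin r → Place Qb F) (Cv : ℝ) (hCv : 0 < Cv)
    (hne : jetDet W S.t ω P ≠ 0)
    (hb : v (jetDet W S.t ω P) ≤
      Cv * (∏ k, Real.exp (pairAt v S.x S.t W (Finsupp.single (P k) 1))) *
        ∏ k, ∏ j ∈ Finset.univ.filter (· < k), Real.exp (-lamAt v S.x S.t (P j) (P k))) :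
    Real.log (v (jetDet W S.t ω P)) ≤
      Real.log Cv + ∑ k, pairAt v S.x S.t W (Finsupp.single (P k) 1) -
        ∑ k, ∑ j ∈ Finset.univ.filter (· < k), lamAt v S.x S.t (P j) (P k) := by
  have hpos : 0 < v (jetDet W S.t ω P) := v.pos hne
  have h1 := Real.log_le_log hpos hb
  refine h1.trans (le_of_eq ?_)
  simp_rw [← Real.exp_sum]
  rw [Real.log_mul (by positivity) (by positivity), Real.log_mul hCv.ne' (by positivity),
    Real.log_exp, Real.log_exp]
  simp only [Finset.sum_neg_distrib]
  ring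

/-! ### The global inequality -/

/-- **[h2-c]** The Hadamard inequality for one sequence, summed over all places of `ℚ`. -/
theorem gsum_log_jetDet_le {r : ℕ} (W : Divisor Qb F) (ω : Fin r → F)
    (C : AbsoluteValue Qb ℝ → ℝ) (hC : IsTameConst C)
    (hb : ∀ v : AbsoluteValue Qb ℝ, IsNiceAbs v → ∀ P : Fin r → Place Qb F,
      v (jetDet W S.t ω P) ≤
        C v * (∏ k, Real.exp (pairAt v S.x S.t W (Finsupp.single (P k) 1))) *
          ∏ k, ∏ j ∈ Finset.univ.filter (· < k), Real.exp (-lamAt v S.x S.t (P j) (P k)))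
    (P : Fin r → Place Qb F) (hne : jetDet W S.t ω P ≠ 0) :
    S.A.gsum (fun p => Real.log (S.A.abv p (jetDet W S.t ω P))) ≤
      S.A.gsum (fun p => Real.log (C (S.A.abv p))) + S.pair W (seqDiv P) -
        (S.pair (seqDiv P) (seqDiv P) - S.kap (seqDiv P)) / 2 := by
  have hfC : HasFiniteSupport fun p : Option Nat.Primes => Real.log (C (S.A.abv p)) :=
    tame_hasFiniteSupport_log S.A hC
  have hfW : ∀ k, HasFiniteSupport fun p : Option Nat.Primes =>
      pairAt (S.A.abv p) S.x S.t W (Finsupp.single (P k) 1) := fun k =>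
    hasFiniteSupport_pairAt S.A S.x S.t W _
  have hfWs : HasFiniteSupport fun p : Option Nat.Primes =>
      ∑ k, pairAt (S.A.abv p) S.x S.t W (Finsupp.single (P k) 1) :=
    hasFiniteSupport_finset_sum _ _ fun k _ => hfW k
  have hfl : ∀ k j, HasFiniteSupport fun p : Option Nat.Primes =>
      lamAt (S.A.abv p) S.x S.t (P j) (P k) := fun k j =>
    hasFiniteSupport_lamAt S.A S.x S.t _ _
  have hfl1 : ∀ k, HasFiniteSupport fun p : Option Nat.Primes =>
      ∑ j ∈ Finset.univ.filter (· < k), lamAt (S.A.abv p) S.x S.t (P j) (P k) := fun k =>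
    hasFiniteSupport_finset_sum _ _ fun j _ => hfl k j
  have hfls : HasFiniteSupport fun p : Option Nat.Primes =>
      ∑ k, ∑ j ∈ Finset.univ.filter (· < k), lamAt (S.A.abv p) S.x S.t (P j) (P k) :=
    hasFiniteSupport_finset_sum _ _ fun k _ => hfl1 k
  have hfadd : HasFiniteSupport fun p : Option Nat.Primes =>
      Real.log (C (S.A.abv p)) + ∑ k, pairAt (S.A.abv p) S.x S.t W (Finsupp.single (P k) 1) :=
    (hfC.union hfWs).subset (support_add _ _)
  have hfrhs : HasFiniteSupport fun p : Option Nat.Primes =>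
      Real.log (C (S.A.abv p)) + ∑ k, pairAt (S.A.abv p) S.x S.t W (Finsupp.single (P k) 1) -
        ∑ k, ∑ j ∈ Finset.univ.filter (· < k), lamAt (S.A.abv p) S.x S.t (P j) (P k) :=
    (hfadd.union hfls).subset (support_sub _ _)
  have hle := gsum_le_gsum S.A (hasFiniteSupport_log S.A _ hne) hfrhs fun p =>
    log_jetDet_le_local S (S.A.abv p) W ω P (C (S.A.abv p)) (tame_pos hC _) hne
      (hb (S.A.abv p) (isNiceAbs S.A p) P)
  refine hle.trans (le_of_eq ?_)
  rw [gsum_sub S.A hfadd hfls, gsum_add S.A hfC hfWs, gsum_finset_sum S.A _ _ fun k _ => hfW k,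
    gsum_finset_sum S.A _ _ fun k _ => hfl1 k, pair_self_sub_kap_seq]
  have h1 : ∀ k, S.A.gsum (fun p => ∑ j ∈ Finset.univ.filter (· < k),
      lamAt (S.A.abv p) S.x S.t (P j) (P k)) =
      ∑ j ∈ Finset.univ.filter (· < k),
        S.pair (Finsupp.single (P j) 1) (Finsupp.single (P k) 1) := by
    intro k
    rw [gsum_finset_sum S.A _ _ fun j _ => hfl k j]
    refine Finset.sum_congr rfl fun j _ => ?_
    rw [pair_single_one]
  simp_rw [h1]
  have h2 : S.pair W (seqDiv P) =
      ∑ k, S.A.gsum fun p => pairAt (S.A.abv p) S.x S.t W (Finsupp.single (P k) 1) := by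
    unfold seqDiv
    rw [pair_sum_right]
    rfl
  rw [h2]
  ring

end

end Fermat.Agent.MW.Global.JetLogSum86
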