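/-
Program MW-H (S17), helper86.  Brick [h2-d] of HD-global: THE ASSEMBLY OF `S.HadamardUpper`
from the jet Hadamard inequality (`JetHadamard86.jetHadamard`, `JetLogSum86.gsum_log_jetDet_le`),
`EpsComparison` (A2), `HnLower` (A0) and the function-field companions (taken here as explicit
hypotheses; they are plugged in in `HadamardUpper86`).

* `EffOn 𝒯 M` : the FINITE set of effective divisors supported on the finite set `𝒯`, of degree
  `≤ M` (`finite_effOn`);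
* `exists_bound`, `eps_uniform` : uniform constants over finite sets;
* `seqDiv_smul`, `stable_support`, orbit bookkeeping;
* `hadamardUpper_of` : the assembly.
-/
import Mathlib
import Fermat.Agent.MW.Global.JetLogSum86
import Fermat.Agent.MW.Global.EpsComparison74
import Fermat.Agent.MW.Global.StableL74
import Fermat.Agent.MW.Global.HnLower2

set_option autoImplicit false
set_option linter.unusedSectionVars false

open AlgebraicCurve

namespace Fermat.Agent.MW.Global.HadamardAssembly86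

open Function
open Fermat.Agent.MW.Hadamard7 Fermat.Agent.MW.Spec.Defs7 Fermat.Agent.MW.Spec.Contract7
open Fermat.Agent.MW.Spec.Bricks7 Fermat.Agent.MW.Spec.Bricks7b Fermat.Agent.MW.Spec.BricksU7
open Fermat.Agent.MW.Arith.ProductFormula62
open Fermat.Agent.MW.Global.PairBasic2 Fermat.Agent.MW.Global.AdjLower49
open Fermat.Agent.MW.Global.HnLower2 Fermat.Agent.MW.Global.GlobalUD2
open Fermat.Agent.MW.Global.EpsComparison74 Fermat.Agent.MW.Global.JetLogSum86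
open Fermat.Agent.MW.FF.Jet86 Fermat.Agent.MW.FF.WronDiv49 Fermat.Agent.MW.Local.Tame86
open scoped Classical

noncomputable section

variable {F : Type} [Field F] [Algebra Qb F] [HasCanonicalDivisor (K := Qb) (F := F)]
variable (S : HSetup F)

/-! ### Finite sets of divisors -/

/-- The effective divisors supported on `𝒯` of degree `≤ M`. -/
def EffOn (𝒯 : Finset (Place Qb F)) (M : ℤ) : Set (Divisor Qb F) :=
  {E | 0 ≤ E ∧ (∀ P, E P ≠ 0 → P ∈ 𝒯) ∧ Divisor.degree E ≤ M}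

include S in
theorem apply_le_degree {E : Divisor Qb F} (hE : 0 ≤ E) (P : Place Qb F) :
    E P ≤ Divisor.degree E := by
  rw [degree_eq_sum S E]
  by_cases hP : P ∈ E.support
  · exact Finset.single_le_sum (f := fun Q => E Q) (fun Q _ => by simpa using hE Q) hP
  · rw [Finsupp.notMem_support_iff.mp hP]
    exact Finset.sum_nonneg fun Q _ => by simpa using hE Q

include S in
theorem degree_nonneg {E : Divisor Qb F} (hE : 0 ≤ E) : 0 ≤ Divisor.degree E := by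
  rw [degree_eq_sum S E]
  exact Finset.sum_nonneg fun Q _ => by simpa using hE Q

include S in
theorem finite_effOn (𝒯 : Finset (Place Qb F)) (M : ℤ) : (EffOn 𝒯 M).Finite := by
  set B : Divisor Qb F := Finsupp.onFinset 𝒯 (fun P => if P ∈ 𝒯 then M else 0)
    (fun P hP => by
      by_contra h
      simp [h] at hP) with hB
  refine (Set.finite_Icc (0 : Divisor Qb F) B).subset ?_
  rintro E ⟨hE, hsupp, hdeg⟩
  refine ⟨hE, fun P => ?_⟩
  rw [hB, Finsupp.onFinset_apply]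
  by_cases hP : P ∈ 𝒯
  · rw [if_pos hP]
    exact (apply_le_degree S hE P).trans hdeg
  · rw [if_neg hP]
    by_contra h
    exact hP (hsupp P (by intro h0; rw [h0] at h; exact h le_rfl))

theorem exists_bound {α : Type*} (s : Set α) (hs : s.Finite) (f : α → ℝ) :
    ∃ C : ℝ, 0 ≤ C ∧ ∀ a ∈ s, f a ≤ C := by
  refine ⟨∑ a ∈ hs.toFinset, |f a|, Finset.sum_nonneg fun a _ => abs_nonneg _, fun a ha => ?_⟩
  refine (le_abs_self _).trans ?_
  exact Finset.single_le_sum (f := fun a => |f a|) (fun a _ => abs_nonneg _)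
    (hs.mem_toFinset.mpr ha)

/-- `EpsComparison` with one constant for finitely many stable divisors `E`. -/
theorem eps_uniform (hA2 : S.EpsComparison) (s : Set (Divisor Qb F)) (hs : s.Finite)
    (hst : ∀ E ∈ s, IsStable S.γ E) (d₀ : ℤ) (ε : ℝ) (hε : 0 < ε) :
    ∃ C : ℝ, 0 ≤ C ∧ ∀ E ∈ s, ∀ D : Divisor Qb F, 0 ≤ D → IsStable S.γ D →
      Divisor.degree D ≤ d₀ → D S.inf = 0 →
      |S.pair E D - (Divisor.degree E : ℝ) * S.hn D| ≤ ε * |S.hn D| + C := by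
  set c : Divisor Qb F → ℝ := fun E =>
    if h : IsStable S.γ E then (hA2 E h d₀ ε hε).choose else 0 with hc
  obtain ⟨C, hC0, hC⟩ := exists_bound s hs c
  refine ⟨C, hC0, fun E hE D hD hDst hdeg hinf => ?_⟩
  have h1 := (hA2 E (hst E hE) d₀ ε hε).choose_spec D hD hDst hdeg hinf
  have h2 : c E = (hA2 E (hst E hE) d₀ ε hε).choose := by
    rw [hc]
    exact dif_pos (hst E hE)
  have h3 := hC E hE
  rw [h2] at h3
  linarith

/-! ### Galois bookkeeping -/

theorem seqDiv_smul {r : ℕ} (σ : GQ) (P : Fin r → Place Qb F) :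
    seqDiv (fun k => S.γ σ • P k) = S.γ σ • seqDiv P := by
  unfold seqDiv
  rw [Finset.smul_sum]
  refine Finset.sum_congr rfl fun k _ => ?_
  rw [SemilinearAut.smul_single]

theorem smul_nonneg' (σ : GQ) {E : Divisor Qb F} (hE : 0 ≤ E) : 0 ≤ S.γ σ • E := by
  intro Q
  rw [SemilinearAut.divisor_smul_apply]
  exact hE _

theorem smul_supp (σ : GQ) {𝒯 : Finset (Place Qb F)}
    (h𝒯 : ∀ (σ : GQ) P, P ∈ 𝒯 → S.γ σ • P ∈ 𝒯) {E : Divisor Qb F}
    (hE : ∀ P, E P ≠ 0 → P ∈ 𝒯) : ∀ P, (S.γ σ • E) P ≠ 0 → P ∈ 𝒯 := by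
  intro P hP
  rw [SemilinearAut.divisor_smul_apply] at hP
  have h1 := h𝒯 σ _ (hE _ hP)
  rwa [smul_inv_smul] at h1

theorem stable_support {D : Divisor Qb F} (hD : IsStable S.γ D) (σ : GQ) (P : Place Qb F)
    (hP : P ∈ D.support) : S.γ σ • P ∈ D.support := by
  rw [Finsupp.mem_support_iff] at hP ⊢
  have h1 := SemilinearAut.divisor_smul_apply_smul (S.γ σ) D P
  rw [hD σ] at h1
  rwa [h1]

theorem seqDiv_apply_pos {r : ℕ} (P : Fin r → Place Qb F) (k : Fin r) :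
    0 < seqDiv P (P k) := by
  unfold seqDiv
  rw [Finsupp.finsetSum_apply]
  have h1 : (Finsupp.single (P k) (1 : ℤ)) (P k) ≤
      ∑ j, (Finsupp.single (P j) (1 : ℤ)) (P k) :=
    Finset.single_le_sum (f := fun j => (Finsupp.single (P j) (1 : ℤ)) (P k))
      (fun j _ => by
        show 0 ≤ (Finsupp.single (P j) (1 : ℤ)) (P k)
        rw [Finsupp.single_apply]
        split_ifs <;> norm_num) (Finset.mem_univ k)
  rw [Finsupp.single_eq_same] at h1
  omega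

theorem seqDiv_nonneg {r : ℕ} (P : Fin r → Place Qb F) : 0 ≤ seqDiv P := by
  unfold seqDiv
  refine Finset.sum_nonneg fun k _ => ?_
  intro Q
  show (0 : ℤ) ≤ (Finsupp.single (P k) (1 : ℤ)) Q
  rw [Finsupp.single_apply]
  split_ifs <;> norm_num

/-- A division-free way to cancel the orbit size. -/
theorem cancel_card {N X B R : ℝ} (hN : 1 ≤ N) (hR : 0 ≤ R) (h : N * (X / 2 - B) ≤ R) :
    X ≤ 2 * B + 2 * R := by
  by_cases h0 : X / 2 - B ≤ 0
  · linarith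
  · push Not at h0
    have h1 : X / 2 - B ≤ N * (X / 2 - B) := le_mul_of_one_le_left h0.le hN
    linarith

theorem abs_le_add_of_neg_le {h A : ℝ} (hA : 0 ≤ A) (hh : -A ≤ h) : |h| ≤ h + 2 * A := by
  rcases le_or_gt 0 h with h0 | h0
  · rw [abs_of_nonneg h0]; linarith
  · rw [abs_of_neg h0]; linarith

/-! ### The assembly -/

local notation "𝔤" => genus Qb F

/-- **[h2-d]** `S.HadamardUpper` from the jet Hadamard inequality and the companions. -/
theorem hadamardUpper_of (hU : S.MasterUD)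
    (𝒯 : Finset (Place Qb F)) (h𝒯 : ∀ (σ : GQ) P, P ∈ 𝒯 → S.γ σ • P ∈ 𝒯)
    (ω : Fin (genus Qb F) → F)
    (hωL : ∀ i, ω i ∈ riemannRochSpace (K := Qb) (F := F) (Wdiv (UU S)))
    (hAux : ∀ D : Divisor Qb F, 0 ≤ D → Divisor.degree D ≤ (genus Qb F : ℤ) →
      Module.finrank Qb (riemannRochSpace (K := Qb) (F := F) D) = 1 →
      ∃ E₀ : Divisor Qb F, 0 ≤ E₀ ∧ (∀ P, E₀ P ≠ 0 → P ∈ 𝒯) ∧
        Divisor.degree E₀ = (genus Qb F : ℤ) - Divisor.degree D ∧
        Module.finrank Qb (riemannRochSpace (K := Qb) (F := F) (D + E₀)) = 1)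
    (hSeq : ∀ T : Divisor Qb F, 0 ≤ T → Divisor.degree T = (genus Qb F : ℤ) →
      ∃ P : Fin (genus Qb F) → Place Qb F, seqDiv P = T)
    (hNV : ∀ P : Fin (genus Qb F) → Place Qb F,
      Module.finrank Qb (riemannRochSpace (K := Qb) (F := F) (seqDiv P)) = 1 →
      jetDet (Wdiv (UU S)) S.t ω P ≠ 0)
    (hEq : ∀ (σ : GQ) (P : Fin (genus Qb F) → Place Qb F),
      jetDet (Wdiv (UU S)) S.t ω (fun k => S.γ σ • P k) = σ (jetDet (Wdiv (UU S)) S.t ω P))
    (hOrb : ∀ 𝒮 : Finset (Place Qb F), (∀ (σ : GQ) P, P ∈ 𝒮 → S.γ σ • P ∈ 𝒮) →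
      ∀ P : Fin (genus Qb F) → Place Qb F, (∀ k, P k ∈ 𝒮) →
      ∃ Ω : Finset (Fin (genus Qb F) → Place Qb F), P ∈ Ω ∧
        (∀ P' ∈ Ω, ∃ σ : GQ, P' = fun k => S.γ σ • P k) ∧
        (∀ (σ : GQ), ∀ P' ∈ Ω, (fun k => S.γ σ • P' k) ∈ Ω) ∧
        Ω.card ≤ 𝒮.card ^ genus Qb F)
    (hSum0 : ∀ Ω : Finset (Fin (genus Qb F) → Place Qb F),
      (∀ (σ : GQ), ∀ P' ∈ Ω, (fun k => S.γ σ • P' k) ∈ Ω) →
      (∀ P' ∈ Ω, jetDet (Wdiv (UU S)) S.t ω P' ≠ 0) →
      ∑ P' ∈ Ω, S.A.gsum (fun p => Real.log (S.A.abv p (jetDet (Wdiv (UU S)) S.t ω P'))) = 0) :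
    S.HadamardUpper := by
  intro ε hε
  set W : Divisor Qb F := Wdiv (UU S) with hW
  have hWst : IsStable S.γ W := Wdiv_stable S
  have hWdeg : Divisor.degree W = 2 * (𝔤 : ℤ) - 2 := degree_Wdiv S
  have hA2 : S.EpsComparison := epsComparison S (globalUD S hU)
  obtain ⟨C, hCt, hCb⟩ := Fermat.Agent.MW.Local.JetHadamard86.jetHadamard (UU S)
    (Fermat.Agent.MW.FF.LeadLinear49.veryAmpleU (UU S)) hU W ω hωL
  set C₀ : ℝ := S.A.gsum (fun p => Real.log (C (S.A.abv p))) with hC₀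
  have hε₁ : 0 < ε / 2 := by linarith
  obtain ⟨C_W, hC_W⟩ := hA2 W hWst (𝔤 : ℤ) (ε / 2) hε₁
  set N₀ : ℕ := (𝔤 + 𝒯.card) ^ 𝔤 with hN₀
  set M : ℤ := (N₀ : ℤ) * (𝔤 : ℤ) with hM
  have hfin1 : (EffOn 𝒯 (𝔤 : ℤ)).Finite := finite_effOn S 𝒯 _
  have hfin2 : {E ∈ EffOn 𝒯 M | IsStable S.γ E}.Finite :=
    (finite_effOn S 𝒯 M).subset fun E hE => hE.1
  obtain ⟨C₁, hC₁0, hC₁⟩ := exists_bound _ hfin1 (fun E => S.pair W E)
  obtain ⟨C₂, hC₂0, hC₂⟩ := exists_bound _ hfin1 (fun E => -((S.pair E E - S.kap E) / 2))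
  obtain ⟨C₃, hC₃0, hC₃⟩ := eps_uniform S hA2 _ hfin2 (fun E hE => hE.2) (𝔤 : ℤ) (ε / 2) hε₁
  obtain ⟨C_A, hC_A⟩ := hnLower S (𝔤 : ℤ)
  refine ⟨2 * (C₀ + C_W + C₁ + C₂) + 2 * C₃ + 4 * ε * max C_A 0, ?_⟩
  intro D hD hDst hdeg hinf hl
  -- the auxiliary divisor and the sequence
  obtain ⟨E₀, hE₀, hE₀𝒯, hE₀deg, hl'⟩ := hAux D hD hdeg hl
  obtain ⟨P, hP⟩ := hSeq (D + E₀) (add_nonneg hD hE₀) (by rw [map_add, hE₀deg]; ring)
  -- the stable finite set carrying everything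
  set 𝒮 : Finset (Place Qb F) := D.support ∪ 𝒯 with h𝒮def
  have h𝒮 : ∀ (σ : GQ) Q, Q ∈ 𝒮 → S.γ σ • Q ∈ 𝒮 := by
    intro σ Q hQ
    rcases Finset.mem_union.mp hQ with h | h
    · exact Finset.mem_union_left _ (stable_support S hDst σ Q h)
    · exact Finset.mem_union_right _ (h𝒯 σ Q h)
  have hP𝒮 : ∀ k, P k ∈ 𝒮 := by
    intro k
    have h1 := seqDiv_apply_pos P k
    rw [hP, Finsupp.add_apply] at h1
    by_cases h2 : D (P k) = 0
    · refine Finset.mem_union_right _ (hE₀𝒯 _ ?_)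
      intro h3
      rw [h2, h3] at h1
      exact lt_irrefl _ h1
    · exact Finset.mem_union_left _ (Finsupp.mem_support_iff.mpr h2)
  obtain ⟨Ω, hPΩ, hΩorb, hΩst, hΩcard⟩ := hOrb 𝒮 h𝒮 P hP𝒮
  -- the members of the orbit
  have hfacts : ∀ P' ∈ Ω, ∃ σ : GQ, seqDiv P' = D + S.γ σ • E₀ ∧
      jetDet W S.t ω P' ≠ 0 := by
    intro P' hP'
    obtain ⟨σ, rfl⟩ := hΩorb P' hP'
    refine ⟨σ, ?_, ?_⟩
    · rw [seqDiv_smul, hP, smul_add, hDst σ]
    · rw [hEq σ P]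
      intro h0
      have h1 : jetDet W S.t ω P = 0 := by
        have := congrArg σ.symm h0
        simpa using this
      exact hNV P (by rw [hP]; exact hl') h1
  have hne : ∀ P' ∈ Ω, jetDet W S.t ω P' ≠ 0 := fun P' hP' => by
    obtain ⟨σ, -, h⟩ := hfacts P' hP'
    exact h
  have h0 := hSum0 Ω hΩst hne
  -- the auxiliary parts
  set E' : (Fin 𝔤 → Place Qb F) → Divisor Qb F := fun P' => seqDiv P' - D with hE'
  have hE'mem : ∀ P' ∈ Ω, E' P' ∈ EffOn 𝒯 (𝔤 : ℤ) ∧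
      Divisor.degree (E' P') = (𝔤 : ℤ) - Divisor.degree D := by
    intro P' hP'
    obtain ⟨σ, h1, -⟩ := hfacts P' hP'
    have h2 : E' P' = S.γ σ • E₀ := by
      rw [hE']
      show seqDiv P' - D = S.γ σ • E₀
      rw [h1]
      abel
    rw [h2]
    have h3 : Divisor.degree (S.γ σ • E₀) = (𝔤 : ℤ) - Divisor.degree D := by
      rw [SemilinearAut.degree_smul, hE₀deg]
    refine ⟨⟨smul_nonneg' S σ hE₀, smul_supp S σ h𝒯 hE₀𝒯, ?_⟩, h3⟩
    rw [h3]
    have := degree_nonneg S hD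
    omega
  have hsplit : ∀ P', seqDiv P' = D + E' P' := fun P' => by
    show seqDiv P' = D + (seqDiv P' - D)
    abel
  -- the inequality for every member of the orbit
  set X : ℝ := S.pair D D - S.kap D with hX
  have hper : ∀ P' ∈ Ω,
      S.A.gsum (fun p => Real.log (S.A.abv p (jetDet W S.t ω P'))) ≤
        (C₀ + S.pair W D + C₁ + C₂ - X / 2) - S.pair D (E' P') := by
    intro P' hP'
    have h1 := gsum_log_jetDet_le S W ω C hCt hCb P' (hne P' hP')
    rw [hsplit P', pair_self_sub_kap_add, pair_add_right] at h1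
    have h2 := hC₁ (E' P') (hE'mem P' hP').1
    have h3 := hC₂ (E' P') (hE'mem P' hP').1
    linarith
  have hsum := Finset.sum_le_sum hper
  rw [h0, Finset.sum_sub_distrib, Finset.sum_const, nsmul_eq_mul, ← pair_sum_right] at hsum
  -- the total auxiliary divisor
  set Etot : Divisor Qb F := ∑ P' ∈ Ω, E' P' with hEtot
  have hEtot_nonneg : 0 ≤ Etot := Finset.sum_nonneg fun P' hP' => (hE'mem P' hP').1.1
  have hEtot_supp : ∀ Q, Etot Q ≠ 0 → Q ∈ 𝒯 := by
    intro Q hQ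
    rw [hEtot, Finsupp.finsetSum_apply] at hQ
    obtain ⟨P', hP', h1⟩ := Finset.exists_ne_zero_of_sum_ne_zero hQ
    exact (hE'mem P' hP').1.2.1 Q h1
  have hEtot_deg : Divisor.degree Etot = (Ω.card : ℤ) * ((𝔤 : ℤ) - Divisor.degree D) := by
    rw [hEtot, map_sum, Finset.sum_congr rfl fun P' hP' => (hE'mem P' hP').2, Finset.sum_const,
      nsmul_eq_mul]
  have hEtot_st : IsStable S.γ Etot := by
    intro σ
    have h1 : ∀ P' ∈ Ω, S.γ σ • E' P' = E' (fun k => S.γ σ • P' k) := by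
      intro P' _
      rw [hE']
      show S.γ σ • (seqDiv P' - D) = seqDiv (fun k => S.γ σ • P' k) - D
      rw [smul_sub, hDst σ, seqDiv_smul]
    rw [hEtot, Finset.smul_sum, Finset.sum_congr rfl h1]
    refine Finset.sum_nbij' (fun P' => fun k => S.γ σ • P' k)
      (fun P' => fun k => S.γ σ⁻¹ • P' k) (fun P' hP' => hΩst σ P' hP')
      (fun P' hP' => hΩst σ⁻¹ P' hP') (fun P' _ => ?_) (fun P' _ => ?_) (fun P' _ => rfl)
    · funext k
      rw [map_inv, inv_smul_smul]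
    · funext k
      rw [map_inv, smul_inv_smul]
  have hcardpos : 1 ≤ Ω.card := Finset.card_pos.mpr ⟨P, hPΩ⟩
  have hr0 : 0 ≤ Divisor.degree D := degree_nonneg S hD
  have hcard_le : Ω.card ≤ N₀ := by
    refine hΩcard.trans (Nat.pow_le_pow_left ?_ 𝔤)
    refine (Finset.card_union_le _ _).trans (Nat.add_le_add_right ?_ _)
    have h1 := Fermat.Agent.MW.FF.AuxPoint86.card_support_le_degree
      (Fermat.Agent.RR.LHypGen.lHyp_of_isGen S.gen) hD
    omega
  have hEtot_mem : Etot ∈ {E ∈ EffOn 𝒯 M | IsStable S.γ E} := by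
    refine ⟨⟨hEtot_nonneg, hEtot_supp, ?_⟩, hEtot_st⟩
    rw [hEtot_deg, hM]
    have h1 : (Ω.card : ℤ) ≤ (N₀ : ℤ) := by exact_mod_cast hcard_le
    have h2 : (𝔤 : ℤ) - Divisor.degree D ≤ (𝔤 : ℤ) := by omega
    have h3 : 0 ≤ (𝔤 : ℤ) - Divisor.degree D := by omega
    calc (Ω.card : ℤ) * ((𝔤 : ℤ) - Divisor.degree D)
        ≤ (N₀ : ℤ) * ((𝔤 : ℤ) - Divisor.degree D) := mul_le_mul_of_nonneg_right h1 h3
      _ ≤ (N₀ : ℤ) * (𝔤 : ℤ) := mul_le_mul_of_nonneg_left h2 (Int.natCast_nonneg _)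
  -- the three comparisons
  have hcmp3 := hC₃ Etot hEtot_mem D hD hDst hdeg hinf
  have hcmpW := hC_W D hD hDst hdeg hinf
  have hA := hC_A D hD hdeg hinf
  have habs : |S.hn D| ≤ S.hn D + 2 * max C_A 0 :=
    abs_le_add_of_neg_le (le_max_right _ _) (by
      have := le_max_left C_A 0
      linarith)
  rw [hEtot_deg, hWdeg] at *
  push_cast at hcmp3 hcmpW
  have h3 := (abs_le.mp hcmp3).1
  have hW' := (abs_le.mp hcmpW).2
  rw [pair_comm S Etot D] at h3
  set N : ℝ := (Ω.card : ℝ) with hNdef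
  have hN1 : (1 : ℝ) ≤ N := by
    rw [hNdef]
    exact_mod_cast hcardpos
  set r : ℝ := (Divisor.degree D : ℝ) with hr
  set h : ℝ := S.hn D with hh
  have habs0 : 0 ≤ |h| := abs_nonneg _
  -- N * (X/2 - B) ≤ R
  have hkey : N * (X / 2 - (C₀ + C_W + C₁ + C₂ + ((2 * (𝔤 : ℝ) - 2) * h + ε / 2 * |h|)
      - ((𝔤 : ℝ) - r) * h)) ≤ ε / 2 * |h| + C₃ := by
    have e1 : N * (S.pair W D) ≤ N * ((2 * (𝔤 : ℝ) - 2) * h + ε / 2 * |h| + C_W) := by
      apply mul_le_mul_of_nonneg_left _ (by linarith)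
      linarith
    nlinarith
  have hfin := cancel_card hN1 (by positivity) hkey
  nlinarith
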