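/-
Program MW-H (S17), package [h] HD-global, bricks [h2-a] SEQ + [h2-b] ORBIT (helper82; split
of helper86, report #1205).

* `exists_seq_of_deg_one`, `exists_seq` : an effective divisor of degree `n` (all places of degree
  one) is the divisor `∑ k, single (P k) 1` of a sequence `P : Fin n → Place`.
* `shiftAt_smul_aut`, `taylorAt_smul_aut`, `cntBefore_smul_aut`, `jetIdx_smul_aut`,
  `jetAt_smul_aut`, `jetDet_smul_aut` : EQUIVARIANCE of the jets of `FF/Jet86` under a semilinear
  automorphism `g` (equivariant uniformisers, `g`-stable `W`, `g`-fixed functions).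
* `seqAct`, `exists_orbit` : the finite Galois orbit of a sequence of places of a stable finite set.
* `image_seqAct_eq`, `jetDet_seqAct`, `sum_gsum_log_jetDet_eq_zero` : the PRODUCT FORMULA along a
  Galois-stable finite set of sequences: `∑_{P' ∈ Ω} ∑_p log |jetDet W t ω P'|_p = 0`.
* `sum_single_seqAct`, `isStable_orbit_sum` : the total divisor of a stable set of sequences is
  stable;  `sum_single_nonneg`, `sum_single_apply`, `sum_single_apply_cntBefore`,
  `exists_of_sum_single_ne_zero`, `degree_sum_single` : the divisor of a sequence.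
-/
import Mathlib
import Fermat.Agent.MW.FF.Jet86
import Fermat.Agent.MW.Global.HnLower2
import Fermat.Agent.MW.Arith.StableProduct49

set_option autoImplicit false

open AlgebraicCurve Finset

namespace Fermat.Agent.MW.Global.JetOrbit82

open Fermat.Agent.MW.Spec.Defs7 Fermat.Agent.MW.Spec.Contract7 Fermat.Agent.MW.Spec.Bricks7b
open Fermat.Agent.MW.FF Fermat.Agent.MW.FF.EvalLead49 Fermat.Agent.MW.Arith.ProductFormula62

open scoped Classical

noncomputable section

section Seq

variable {K F : Type*} [Field K] [Field F] [Algebra K F]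

/-- **SEQ** (general form): if all places have degree one, an effective divisor of degree `n` is
the sum of a sequence of `n` places. -/
theorem exists_seq_of_deg_one (hdeg1 : ∀ P : Place K F, P.deg = 1) (n : ℕ) :
    ∀ T : Divisor K F, 0 ≤ T → Divisor.degree T = n →
      ∃ P : Fin n → Place K F, ∑ k, Finsupp.single (P k) (1 : ℤ) = T := by
  have hsum : ∀ D : Divisor K F, Divisor.degree D = D.sum fun _ a => a := by
    intro D
    induction D using Finsupp.induction_linear with
    | zero => simp
    | add D D' hD hD' =>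
      rw [map_add, hD, hD', Finsupp.sum_add_index' (fun _ => rfl) (fun _ _ _ => rfl)]
    | single P a =>
      rw [Divisor.degree_single, hdeg1 P, Finsupp.sum_single_index rfl]
      simp
  induction n with
  | zero =>
    intro T hT hdeg
    refine ⟨Fin.elim0, ?_⟩
    rw [Finset.univ_eq_empty, Finset.sum_empty]
    ext Q
    rw [Finsupp.zero_apply]
    by_contra hne
    have hQ : Q ∈ T.support := Finsupp.mem_support_iff.mpr (Ne.symm hne)
    have h0 : (T.sum fun _ a => a) = 0 := by rw [← hsum, hdeg]; rfl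
    rw [Finsupp.sum] at h0
    have := (Finset.sum_eq_zero_iff_of_nonneg fun P _ => hT P).mp h0 Q hQ
    exact hne this.symm
  | succ n ih =>
    intro T hT hdeg
    have hne : T ≠ 0 := by
      rintro rfl
      rw [map_zero] at hdeg
      exact absurd hdeg (by push_cast; omega)
    obtain ⟨Q, hQ⟩ : ∃ Q, T Q ≠ 0 := by
      by_contra h
      push Not at h
      exact hne (Finsupp.ext h)
    have hQpos : 1 ≤ T Q := by
      have := hT Q
      rw [Finsupp.zero_apply] at this
      omega
    obtain ⟨P, hP⟩ := ih (T - Finsupp.single Q 1) (by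
      intro R
      rw [Finsupp.zero_apply, Finsupp.sub_apply]
      by_cases hR : R = Q
      · subst hR
        rw [Finsupp.single_eq_same]
        omega
      · rw [Finsupp.single_eq_of_ne hR, sub_zero]
        exact hT R) (by
      rw [map_sub, hdeg, Divisor.degree_single, hdeg1 Q]
      push_cast
      ring)
    refine ⟨Fin.cons Q P, ?_⟩
    rw [Fin.sum_univ_succ]
    simp only [Fin.cons_zero, Fin.cons_succ]
    rw [hP]
    abel

end Seq

/-! ### Equivariance of jets under semilinear automorphisms -/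

section Equivariance

open SemilinearAut

variable {K F : Type*} [Field K] [Field F] [Algebra K F] (g : SemilinearAut K F)

theorem shiftAt_smul_aut (P : Place K F) (t f : F) :
    Jet86.shiftAt (g • P) (g • t) (g • f) = g • Jet86.shiftAt P t f := by
  unfold Jet86.shiftAt
  rw [evalAt_smul_aut, ← SemilinearAut.smul_algebraMap, ← smul_sub, smul_mul', smul_inv'']

theorem taylorAt_smul_aut (P : Place K F) (t : F) (j : ℕ) : ∀ f : F,
    Jet86.taylorAt (g • P) (g • t) j (g • f) = baseAut g (Jet86.taylorAt P t j f) := by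
  induction j with
  | zero => intro f; exact evalAt_smul_aut g P f
  | succ j ih =>
    intro f
    rw [Jet86.taylorAt_succ, Jet86.taylorAt_succ, shiftAt_smul_aut, ih]

theorem cntBefore_smul_aut {r : ℕ} (P : Fin r → Place K F) (m : ℕ) (Q : Place K F) :
    Jet86.cntBefore (fun k => g • P k) m (g • Q) = Jet86.cntBefore P m Q := by
  unfold Jet86.cntBefore
  congr 1
  ext j
  simp only [Finset.mem_filter, Finset.mem_univ, true_and]
  rw [(MulAction.injective g).eq_iff]

theorem jetIdx_smul_aut {r : ℕ} (P : Fin r → Place K F) (k : Fin r) :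
    Jet86.jetIdx (fun k => g • P k) k = Jet86.jetIdx P k :=
  cntBefore_smul_aut g P k (P k)

/-- **Equivariance of the jet functionals.** -/
theorem jetAt_smul_aut (W : Divisor K F) (t : Place K F → F)
    (htg : ∀ P : Place K F, t (g • P) = g • t P) (hW : ∀ P : Place K F, W (g • P) = W P)
    {r : ℕ} (P : Fin r → Place K F) (k : Fin r) (h : F) :
    Jet86.jetAt W t (fun k => g • P k) k (g • h) = baseAut g (Jet86.jetAt W t P k h) := by
  unfold Jet86.jetAt
  rw [jetIdx_smul_aut]
  simp only
  rw [htg, hW, ← smul_zpow_aut, ← smul_mul', taylorAt_smul_aut]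

/-- **Equivariance of the jet determinant** (for a family of `g`-fixed functions). -/
theorem jetDet_smul_aut (W : Divisor K F) (t : Place K F → F)
    (htg : ∀ P : Place K F, t (g • P) = g • t P) (hW : ∀ P : Place K F, W (g • P) = W P)
    {r : ℕ} (ω : Fin r → F) (hω : ∀ b, g • ω b = ω b) (P : Fin r → Place K F) :
    Jet86.jetDet W t ω (fun k => g • P k) = baseAut g (Jet86.jetDet W t ω P) := by
  unfold Jet86.jetDet
  rw [RingEquiv.map_det]
  congr 1
  ext i k
  rw [RingEquiv.mapMatrix_apply, Matrix.map_apply, Matrix.of_apply, Matrix.of_apply,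
    ← jetAt_smul_aut g W t htg hW, hω]

end Equivariance

/-! ### Orbits of sequences of places under the Galois group -/

section Orbit

variable {F : Type} [Field F] [Algebra Qb F] [HasCanonicalDivisor (K := Qb) (F := F)]
/-- **SEQ** for the standing data. -/
theorem exists_seq (S : HSetup F) (T : Divisor Qb F) (hT : 0 ≤ T) (n : ℕ) (hdeg : Divisor.degree T = n) :
    ∃ P : Fin n → Place Qb F, ∑ k, Finsupp.single (P k) (1 : ℤ) = T :=
  exists_seq_of_deg_one (fun P => Fermat.Agent.MW.Global.HnLower2.place_deg S P) n T hT hdeg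

variable (S : HSetup F)

/-- The action of `σ` on sequences of places. -/
def seqAct {r : ℕ} (σ : GQ) (P : Fin r → Place Qb F) : Fin r → Place Qb F :=
  fun k => S.γ σ • P k

theorem seqAct_injective {r : ℕ} (σ : GQ) :
    Function.Injective (seqAct S (r := r) σ) := by
  intro P P' h
  funext k
  exact MulAction.injective (S.γ σ) (congrFun h k)

theorem seqAct_one {r : ℕ} (P : Fin r → Place Qb F) : seqAct S 1 P = P := by
  funext k
  show S.γ 1 • P k = P k
  rw [map_one, one_smul]

theorem seqAct_mul {r : ℕ} (σ τ : GQ) (P : Fin r → Place Qb F) :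
    seqAct S (σ * τ) P = seqAct S σ (seqAct S τ P) := by
  funext k
  show S.γ (σ * τ) • P k = S.γ σ • (S.γ τ • P k)
  rw [map_mul, mul_smul]

/-- **ORBIT**: the (finite) Galois orbit of a sequence of places in a stable finite set. -/
theorem exists_orbit {r : ℕ} (𝒮 : Finset (Place Qb F))
    (h𝒮 : ∀ (σ : GQ) P, P ∈ 𝒮 → S.γ σ • P ∈ 𝒮) (P : Fin r → Place Qb F)
    (hP : ∀ k, P k ∈ 𝒮) :
    ∃ Ω : Finset (Fin r → Place Qb F), P ∈ Ω ∧
      (∀ P' ∈ Ω, ∃ σ : GQ, P' = fun k => S.γ σ • P k) ∧
      (∀ (σ : GQ), ∀ P' ∈ Ω, (fun k => S.γ σ • P' k) ∈ Ω) ∧ Ω.card ≤ 𝒮.card ^ r := by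
  refine ⟨(Fintype.piFinset fun _ : Fin r => 𝒮).filter
    fun P' => ∃ σ : GQ, P' = fun k => S.γ σ • P k, ?_, ?_, ?_, ?_⟩
  · rw [Finset.mem_filter, Fintype.mem_piFinset]
    exact ⟨hP, 1, (seqAct_one S P).symm⟩
  · intro P' hP'
    exact (Finset.mem_filter.mp hP').2
  · intro σ P' hP'
    rw [Finset.mem_filter, Fintype.mem_piFinset] at hP' ⊢
    obtain ⟨h1, τ, rfl⟩ := hP'
    exact ⟨fun k => h𝒮 σ _ (h1 k), σ * τ, (seqAct_mul S σ τ P).symm⟩
  · refine le_trans (Finset.card_filter_le _ _) ?_
    rw [Fintype.card_piFinset]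
    simp

/-- `σ` permutes a `σ`-stable finite set of sequences. -/
theorem image_seqAct_eq {r : ℕ} (Ω : Finset (Fin r → Place Qb F)) (σ : GQ)
    (hΩ : ∀ P' ∈ Ω, (fun k => S.γ σ • P' k) ∈ Ω) : Ω.image (seqAct S σ) = Ω := by
  refine Finset.eq_of_subset_of_card_le ?_ ?_
  · intro Q hQ
    obtain ⟨P', hP', rfl⟩ := Finset.mem_image.mp hQ
    exact hΩ P' hP'
  · rw [Finset.card_image_of_injective _ (seqAct_injective S σ)]

/-- Equivariance of the jet determinant for the standing data. -/
theorem jetDet_seqAct {r : ℕ} (W : Divisor Qb F) (hW : IsStable S.γ W) (ω : Fin r → F)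
    (hω : ∀ (σ : GQ) b, S.γ σ • ω b = ω b) (σ : GQ) (P : Fin r → Place Qb F) :
    Jet86.jetDet W S.t ω (fun k => S.γ σ • P k) = σ (Jet86.jetDet W S.t ω P) := by
  rw [jetDet_smul_aut (S.γ σ) W S.t (fun Q => S.unif.2 σ Q) (fun Q => ?_) ω (hω σ) P, S.base]
  conv_lhs => rw [← hW σ]
  exact SemilinearAut.divisor_smul_apply_smul (S.γ σ) W Q

/-- **The product formula along a stable family of sequences**: the sum over a Galois-stable
finite set of sequences of the global sums of `log |jetDet|_p` vanishes. -/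
theorem sum_gsum_log_jetDet_eq_zero {r : ℕ} (W : Divisor Qb F) (hW : IsStable S.γ W)
    (ω : Fin r → F) (hω : ∀ (σ : GQ) b, S.γ σ • ω b = ω b)
    (Ω : Finset (Fin r → Place Qb F))
    (hΩ : ∀ (σ : GQ), ∀ P' ∈ Ω, (fun k => S.γ σ • P' k) ∈ Ω)
    (hne : ∀ P' ∈ Ω, Jet86.jetDet W S.t ω P' ≠ 0) :
    ∑ P' ∈ Ω, S.A.gsum (fun p => Real.log (S.A.abv p (Jet86.jetDet W S.t ω P'))) = 0 := by
  set d : (Fin r → Place Qb F) → Qb := fun P' => Jet86.jetDet W S.t ω P' with hd
  have hstable : ∀ σ : GQ, (Ω.val.map d).map σ = Ω.val.map d := by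
    intro σ
    rw [Multiset.map_map]
    have h1 : Ω.val.map (⇑σ ∘ d) = Ω.val.map (d ∘ seqAct S σ) := by
      refine Multiset.map_congr rfl fun P' _ => ?_
      exact (jetDet_seqAct S W hW ω hω σ P').symm
    rw [h1, ← Multiset.map_map, ← Finset.image_val_of_injOn (seqAct_injective S σ).injOn,
      image_seqAct_eq S Ω σ (hΩ σ)]
  have h0 : (0 : Qb) ∉ Ω.val.map d := by
    intro h
    obtain ⟨P', hP', hz⟩ := Multiset.mem_map.mp h
    exact hne P' hP' hz
  have hmain := Fermat.Agent.MW.Arith.StableProduct49.gsum_log_prod_eq_zero S.A _ hstable h0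
  have hprod : (Ω.val.map d).prod = ∏ P' ∈ Ω, d P' := rfl
  rw [hprod] at hmain
  rw [← gsum_finset_sum S.A Ω (fun P' p => Real.log (S.A.abv p (d P')))
    (fun P' hP' => hasFiniteSupport_log S.A _ (hne P' hP')), ← hmain]
  congr 1
  funext p
  rw [map_prod, Real.log_prod]
  intro P' hP'
  exact (AbsoluteValue.ne_zero_iff _).mpr (hne P' hP')

/-! ### Orbit bookkeeping: the divisors of the sequences -/

/-- The divisor of the sequence `σ ∘ P` is the translate of the divisor of `P`. -/
theorem sum_single_seqAct {r : ℕ} (σ : GQ) (P : Fin r → Place Qb F) :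
    ∑ k, Finsupp.single (S.γ σ • P k) (1 : ℤ) = S.γ σ • ∑ k, Finsupp.single (P k) (1 : ℤ) := by
  rw [Finset.smul_sum]
  refine Finset.sum_congr rfl fun k _ => ?_
  rw [SemilinearAut.smul_single]

/-- The total divisor of a Galois-stable finite set of sequences is stable. -/
theorem isStable_orbit_sum {r : ℕ} (Ω : Finset (Fin r → Place Qb F))
    (hΩ : ∀ (σ : GQ), ∀ P' ∈ Ω, (fun k => S.γ σ • P' k) ∈ Ω) :
    IsStable S.γ (∑ P' ∈ Ω, ∑ k, Finsupp.single (P' k) (1 : ℤ)) := by
  intro σ
  rw [Finset.smul_sum]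
  conv_rhs => rw [← image_seqAct_eq S Ω σ (hΩ σ)]
  rw [Finset.sum_image fun a _ b _ h => seqAct_injective S σ h]
  refine Finset.sum_congr rfl fun P' _ => ?_
  exact (sum_single_seqAct S σ P').symm

end Orbit

section SeqDiv

variable {K F : Type*} [Field K] [Field F] [Algebra K F]

/-- The divisor of a sequence is effective. -/
theorem sum_single_nonneg {r : ℕ} (P : Fin r → Place K F) :
    (0 : Divisor K F) ≤ ∑ k, Finsupp.single (P k) (1 : ℤ) := by
  refine Finset.sum_nonneg fun k _ => ?_
  intro Q
  rw [Finsupp.zero_apply]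
  by_cases h : P k = Q
  · rw [h, Finsupp.single_eq_same]; exact zero_le_one
  · rw [Finsupp.single_eq_of_ne (Ne.symm h)]

/-- The coefficient of the divisor of a sequence at `Q` is the number of occurrences of `Q`. -/
theorem sum_single_apply {r : ℕ} (P : Fin r → Place K F) (Q : Place K F) :
    (∑ k, Finsupp.single (P k) (1 : ℤ)) Q = ((Finset.univ.filter fun k => P k = Q).card : ℤ) := by
  rw [Finsupp.finsetSum_apply, Finset.card_filter]
  push_cast
  refine Finset.sum_congr rfl fun k _ => ?_
  by_cases h : P k = Q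
  · rw [h, Finsupp.single_eq_same, if_pos rfl]
  · rw [Finsupp.single_eq_of_ne (Ne.symm h), if_neg h]

/-- The coefficient of the divisor of a sequence, as a count of `Jet86`. -/
theorem sum_single_apply_cntBefore {r : ℕ} (P : Fin r → Place K F) (Q : Place K F) :
    (∑ k, Finsupp.single (P k) (1 : ℤ)) Q = (Jet86.cntBefore P r Q : ℤ) := by
  rw [sum_single_apply]
  unfold Jet86.cntBefore
  congr 2
  ext j
  simp only [Finset.mem_filter, Finset.mem_univ, true_and]
  exact ⟨fun h => ⟨j.2, h⟩, fun h => h.2⟩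

/-- The support of the divisor of a sequence consists of its terms. -/
theorem exists_of_sum_single_ne_zero {r : ℕ} (P : Fin r → Place K F) {Q : Place K F}
    (h : (∑ k, Finsupp.single (P k) (1 : ℤ)) Q ≠ 0) : ∃ k, P k = Q := by
  by_contra hno
  push Not at hno
  apply h
  rw [sum_single_apply, Finset.filter_false_of_mem fun k _ => hno k]
  simp

/-- The degree of the divisor of a sequence of places of degree one. -/
theorem degree_sum_single (hdeg1 : ∀ P : Place K F, P.deg = 1) {r : ℕ}
    (P : Fin r → Place K F) : Divisor.degree (∑ k, Finsupp.single (P k) (1 : ℤ)) = r := by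
  rw [map_sum]
  simp only [Divisor.degree_single, hdeg1, Nat.cast_one, mul_one, Finset.sum_const,
    Finset.card_univ, Fintype.card_fin, nsmul_eq_mul]

end SeqDiv

end

end Fermat.Agent.MW.Global.JetOrbit82
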