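/-
Program MW-H (S17), helper86.  Brick HD-global: **`S.HadamardUpper`, UNCONDITIONAL**.

    theorem hadamardUpper_of_masterUD (S : HSetup F) (hU : S.MasterUD) : S.HadamardUpper
    theorem hadamardUpper (S : HSetup F) : S.HadamardUpper

Wiring of `HadamardAssembly86.hadamardUpper_of` with
* helper48: `AuxDivisor48.exists_stable_block` (F), `exists_aux_divisor` (D),
  `L_canonicalDivisorOf_sub_eq_bot` (E), `JetDet48.jetDet_ne_zero_iff` (B);
* helper82: `JetOrbit82.exists_seq`, `exists_orbit`, `jetDet_seqAct`,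
  `sum_gsum_log_jetDet_eq_zero`, `JetBridge82.jetDet_eq`;
* helper74: `StableL74.exists_fixed_basis_L`;  helper7: `MasterU7.masterUD`.
-/
import Mathlib
import Fermat.Agent.MW.Global.HadamardAssembly86
import Fermat.Agent.MW.Global.JetOrbit82
import Fermat.Agent.MW.FF.JetDet48
import Fermat.Agent.MW.FF.AuxDivisor48
import Fermat.Agent.MW.FF.JetBridge82
import Fermat.Agent.MW.Master.MasterU7

set_option autoImplicit false
set_option linter.unusedSectionVars false

open AlgebraicCurve

namespace Fermat.Agent.MW.Global.HadamardUpper86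

open Fermat.Agent.MW.Hadamard7 Fermat.Agent.MW.Spec.Defs7 Fermat.Agent.MW.Spec.Contract7
open Fermat.Agent.MW.Spec.Bricks7 Fermat.Agent.MW.Spec.Bricks7b Fermat.Agent.MW.Spec.BricksU7
open Fermat.Agent.MW.Global.AdjLower49 Fermat.Agent.MW.Global.JetLogSum86
open Fermat.Agent.MW.Global.HadamardAssembly86 Fermat.Agent.MW.Global.JetOrbit82
open Fermat.Agent.MW.Global.StableL74 Fermat.Agent.MW.Global.HnLower2
open Fermat.Agent.MW.FF.Jet86 Fermat.Agent.MW.FF.WronDiv49 Fermat.Agent.MW.FF.AuxDivisor48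
open Fermat.Agent.MW.FF.EvalLead49 Fermat.Agent.X0.FF
open scoped Classical

noncomputable section

variable {F : Type} [Field F] [Algebra Qb F] [HasCanonicalDivisor (K := Qb) (F := F)]

/-- **HD-global** from the master theorem. -/
theorem hadamardUpper_of_masterUD (S : HSetup F) (hU : S.MasterUD) : S.HadamardUpper := by
  obtain ⟨𝒯, h𝒯, hcard, -⟩ := exists_stable_block S
  have hWst : IsStable S.γ (Wdiv (UU S)) := Wdiv_stable S
  have hfr : Module.finrank Qb (riemannRochSpace (K := Qb) (F := F) (Wdiv (UU S))) =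
      genus Qb F := Fermat.Agent.RR.RRMain.finrank_L_dx_eq_genus S.gen
  obtain ⟨b, hbfix, hbli, hbspan⟩ := exists_fixed_basis_L S hWst
  set ω : Fin (genus Qb F) → F := fun i => b (finCongr hfr.symm i) with hω
  have hωfix : ∀ (σ : GQ) i, S.γ σ • ω i = ω i := fun σ i => hbfix σ _
  have hωli : LinearIndependent Qb ω :=
    hbli.comp _ (finCongr hfr.symm).injective
  have hωspan : Submodule.span Qb (Set.range ω) =
      riemannRochSpace (K := Qb) (F := F) (Wdiv (UU S)) := by
    rw [← hbspan]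
    congr 1
    have : ω = b ∘ (finCongr hfr.symm) := rfl
    rw [this, (finCongr hfr.symm).surjective.range_comp]
  have hωL : ∀ i, ω i ∈ riemannRochSpace (K := Qb) (F := F) (Wdiv (UU S)) := by
    intro i
    rw [← hωspan]
    exact Submodule.subset_span ⟨i, rfl⟩
  have hres : ∀ P : Place Qb F, HasResK P := fun P =>
    hasResK_of_isAlgClosed S.u (ffg_isAlgebraic S.gen) P
  refine hadamardUpper_of S hU 𝒯 h𝒯 ω hωL ?_ ?_ ?_ (jetDet_seqAct S _ hWst ω hωfix)
    (fun 𝒮 h𝒮 P hP => exists_orbit S 𝒮 h𝒮 P hP)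
    (fun Ω hΩ hne => sum_gsum_log_jetDet_eq_zero S _ hWst ω hωfix Ω hΩ hne)
  · -- the auxiliary divisor
    intro D hD hdeg hl
    obtain ⟨E₀, h1, h2, h3, -, h5⟩ := exists_aux_divisor S.gen D hD hdeg hl 𝒯 hcard
    exact ⟨E₀, h1, h2, h3, h5⟩
  · -- sequences
    intro T hT hdeg
    exact exists_seq S T hT _ hdeg
  · -- nonvanishing
    intro P hl
    have hdeg : Divisor.degree (seqDiv P) = (genus Qb F : ℤ) :=
      degree_sum_single (fun Q => place_deg S Q) P
    have hbot := L_canonicalDivisorOf_sub_eq_bot S.gen hdeg hl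
    rw [Fermat.Agent.MW.FF.JetBridge82.jetDet_eq]
    have h1 := (Fermat.Agent.MW.FF.JetDet48.jetDet_ne_zero_iff (t := S.t) (W := Wdiv (UU S))
      (ω := ω) S.unif.1 hres hωli hωspan P (Equiv.refl _)).mpr hbot
    simpa using h1

/-- **HD-global**, unconditional. -/
theorem hadamardUpper (S : HSetup F) : S.HadamardUpper :=
  hadamardUpper_of_masterUD S (Fermat.Agent.MW.Master.MasterU7.masterUD S)

end

end Fermat.Agent.MW.Global.HadamardUpper86
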