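/-
Program MW-H (S17), helper49.  INTEGRATION CHECK of the landed global bricks: everything that is
on main composes, and the height part `Top7.HeightMain N` is reduced to exactly

* `U`  = `S.MasterUD`          (master theorem),
* `HD` = `S.HadamardUpper`,
* `QP` = `S.QuasiParallelogram`,
* `P1a` = `S.MinRepExists`, `P1b` = `S.MinRepStable`,

for any standing data `S` whose Galois action is the arithmetic one (brick `X`).

Used bricks: `GlobalUD2.globalUD` (G1), `PairBasic2.pairFiniteSupport` (G0),
`EpsComparison74.epsComparison` (A2), `CoordUpper62.coordUpper` (T1a),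
`AdjLower49.adjunctionLower` (AD), `Positivity2.positivityP3` (P3), `VeryAmple49.veryAmple` (E3),
`NorthcottHn62.northcottHn` (T1), `Assemble7.heightMain_of_top`.
-/
import Mathlib
import Fermat.Agent.MW.Global.AdjLower49
import Fermat.Agent.MW.Global.EpsComparison74
import Fermat.Agent.MW.Global.CoordUpper62
import Fermat.Agent.MW.Global.NorthcottHn62
import Fermat.Agent.MW.Global.Positivity2
import Fermat.Agent.MW.Spec.Assemble7

set_option autoImplicit false

open AlgebraicCurve ModularCurve

namespace Fermat.Agent.MW.Global.Chain49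

open Fermat.Agent.MW.Spec.Bricks7b Fermat.Agent.MW.Top7

section General

variable {F : Type} [Field F] [Algebra Qb F] [HasCanonicalDivisor (K := Qb) (F := F)]
variable (S : HSetup F)

/-- **A2** from `U`. -/
theorem epsComparison_of_masterUD (hU : S.MasterUD) : S.EpsComparison :=
  Fermat.Agent.MW.Global.EpsComparison74.epsComparison S
    (Fermat.Agent.MW.Global.GlobalUD2.globalUD S hU)

/-- **T1a** from `U`. -/
theorem coordUpper_of_masterUD (hU : S.MasterUD) : S.CoordUpper :=
  Fermat.Agent.MW.Global.CoordUpper62.coordUpper S hU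
    (Fermat.Agent.MW.Global.PairBasic2.pairFiniteSupport S)

/-- **AD** from `U`. -/
theorem adjunctionLower_of_masterUD (hU : S.MasterUD) : S.AdjunctionLower :=
  Fermat.Agent.MW.Global.AdjLower49.adjunctionLower S hU (coordUpper_of_masterUD S hU)
    (epsComparison_of_masterUD S hU)

/-- **P3** from `U`, `HD`, `P1a`, `P1b`. -/
theorem positivity_of_masterUD (hU : S.MasterUD) (hHD : S.HadamardUpper)
    (hP1a : S.MinRepExists) (hP1b : S.MinRepStable) : S.Positivity :=
  Fermat.Agent.MW.Global.Positivity2.positivityP3 S hHD (adjunctionLower_of_masterUD S hU)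
    hP1a hP1b

/-- **T1** from `U`, `P1a`, `P1b`. -/
theorem northcottHn_of_masterUD (hU : S.MasterUD) (hP1a : S.MinRepExists)
    (hP1b : S.MinRepStable) : S.NorthcottHn :=
  Fermat.Agent.MW.Global.NorthcottHn62.northcottHn S
    (Fermat.Agent.MW.FF.VeryAmple49.veryAmple S) hP1a hP1b (coordUpper_of_masterUD S hU)

end General

/-- **The height part of Mordell–Weil** from `X`, `U`, `HD`, `QP`, `P1a`, `P1b`. -/
theorem heightMain_of_bricks (N : ℕ)
    [HasCanonicalDivisor (K := Qb) (F := ↥(modularFunctionFieldBar N))]
    (S : HSetup ↥(modularFunctionFieldBar N))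
    (hγ : S.γ = arithmeticGalois (modularFunctionFieldFull N))
    (hU : S.MasterUD) (hHD : S.HadamardUpper) (hQP : S.QuasiParallelogram)
    (hP1a : S.MinRepExists) (hP1b : S.MinRepStable) : HeightMain N :=
  Fermat.Agent.MW.Spec.Assemble7.heightMain_of_top N S hγ hQP
    (positivity_of_masterUD S hU hHD hP1a hP1b) (northcottHn_of_masterUD S hU hP1a hP1b)

end Fermat.Agent.MW.Global.Chain49
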