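/-
Program MW-H (S17), package [c], brick P1c.  helper16.

`rationalGenerator : S.RationalGenerator` : a `Γ`-stable principal divisor `p = div f` has a
`Γ`-fixed generator.

Proof.  For `g = γ σ` the function `g • f` has the same divisor as `f` (`p` is stable), so
`g • f = c_σ • f` for a constant `c_σ ≠ 0` (a function without zeros and poles is constant).
Normalise by the leading coefficient `l` of `f` at the fixed place `inf` with respect to its
equivariant (hence fixed) uniformiser `t inf`: equivariance of leading coefficients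
(`EvalLead49.leadAt_smul_aut`) gives `σ l = c_σ · l`, so `l⁻¹ • f` is fixed.
-/
import Mathlib
import Fermat.Agent.MW.Global.MinRep16
import Fermat.Agent.MW.FF.EvalLead49

set_option autoImplicit false
set_option linter.unusedSectionVars false

open AlgebraicCurve

namespace Fermat.Agent.MW.Global.RatGen16

open Fermat.Agent.X0.FF Fermat.Agent.RR.LSpace Fermat.Agent.MW.Spec.Bricks7b
open Fermat.Agent.MW.Spec.Contract7 Fermat.Agent.MW.Spec.Defs7 Fermat.Agent.MW.Global.MinRep16
open Fermat.Agent.MW.FF.EvalLead49

noncomputable section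

/-! ### General lemma: functions with the same divisor differ by a constant -/

section General

variable {K F : Type*} [Field K] [Field F] [Algebra K F]

theorem exists_smul_eq_of_ord_eq (H : LHyp K F) {f h : F} (hf : f ≠ 0) (hh : h ≠ 0)
    (hord : ∀ v : Place K F, v.ord h = v.ord f) : ∃ c : K, c ≠ 0 ∧ h = c • f := by
  have hq : ∀ v : Place K F, 0 ≤ v.ord (h / f) := by
    intro v
    rw [div_eq_mul_inv, v.ord_mul hh (inv_ne_zero hf), v.ord_inv, hord v]
    omega
  obtain ⟨c, hc⟩ := eq_algebraMap_of_forall_ord_nonneg H hq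
  have hc0 : c ≠ 0 := by
    rintro rfl
    rw [map_zero] at hc
    exact div_ne_zero hh hf hc
  refine ⟨c, hc0, ?_⟩
  rw [Algebra.smul_def, ← hc, div_mul_cancel₀ h hf]

end General

/-! ### The statement for the standing data -/

section Setup

variable {F : Type} [Field F] [Algebra Qb F] [HasCanonicalDivisor (K := Qb) (F := F)]
variable (S : HSetup F)

include S

/-- All places of the standing function field have residue field `ℚ̄`. -/
theorem hasResK (P : Place Qb F) : HasResK P :=
  hasResK_of_isAlgClosed S.u (ffg_isAlgebraic S.gen) P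

/-- The uniformiser at `inf` is fixed. -/
theorem t_inf_fixed (σ : GQ) : S.γ σ • S.t S.inf = S.t S.inf := by
  rw [← S.unif.2 σ S.inf, S.inf_fixed σ]

/-- The action on a constant multiple. -/
theorem smul_aut_smul_const (σ : GQ) (a : Qb) (f : F) :
    S.γ σ • (a • f) = (σ a) • (S.γ σ • f) := by
  rw [Algebra.smul_def, Algebra.smul_def, smul_mul', SemilinearAut.smul_algebraMap, S.base σ a]

/-- The orders of `γ σ • f` for a function whose divisor is stable. -/
theorem ord_smul_of_isStable {p : Divisor Qb F} {f : F} (hdiv : IsDivOf p f)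
    (hst : IsStable S.γ p) (σ : GQ) (P : Place Qb F) : P.ord (S.γ σ • f) = P.ord f := by
  have h1 := SemilinearAut.ord_smul (S.γ σ) ((S.γ σ)⁻¹ • P) f
  rw [smul_inv_smul] at h1
  rw [h1, ← hdiv, ← hdiv, ← SemilinearAut.divisor_smul_apply, hst σ]

/-- **P1c**: a stable principal divisor has a rational generator. -/
theorem rationalGenerator : S.RationalGenerator := by
  intro p f hf hdiv hst
  have ht0 : S.inf.ord (S.t S.inf) = 1 := S.unif.1 S.inf
  have hP : HasResK S.inf := hasResK S S.inf
  have hl : leadAt S.inf (S.t S.inf) f ≠ 0 := leadAt_ne_zero hP ht0 hf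
  have hl' : (leadAt S.inf (S.t S.inf) f)⁻¹ ≠ 0 := inv_ne_zero hl
  refine ⟨(leadAt S.inf (S.t S.inf) f)⁻¹ • f, smul_ne_zero hl' hf, fun P => ?_, fun σ => ?_⟩
  · rw [ord_smul_const P hl' hf]; exact hdiv P
  · -- `γ σ • f = c • f`
    have hgf : S.γ σ • f ≠ 0 := (smul_eq_zero_iff' (S.γ σ)).not.mpr hf
    obtain ⟨c, hc0, hc⟩ := exists_smul_eq_of_ord_eq (lHyp S) hf hgf
      (fun P => ord_smul_of_isStable S hdiv hst σ P)
    -- compare the leading coefficients at `inf`
    have h1 : leadAt S.inf (S.t S.inf) (S.γ σ • f) = σ (leadAt S.inf (S.t S.inf) f) := by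
      have := leadAt_smul_aut (S.γ σ) S.inf (S.t S.inf) f
      rwa [S.inf_fixed σ, t_inf_fixed S σ, S.base σ] at this
    have h2 : leadAt S.inf (S.t S.inf) (S.γ σ • f) = c * leadAt S.inf (S.t S.inf) f := by
      rw [hc, leadAt_smul_const hP ht0 c hf]
    rw [smul_aut_smul_const, hc, smul_smul, map_inv₀, ← h1, h2, mul_inv_rev, mul_assoc,
      inv_mul_cancel₀ hc0, mul_one]

end Setup

end

end Fermat.Agent.MW.Global.RatGen16
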